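/-
GATE-F (S44) / node GF-KCOVER-INST, FIELD SIDE (L-a), file 9 (helper3).  Mathlib-only.
**A discrete valuation as an ultrametric norm** (input of `Compl.lean`).

`v : Valuation E Γ₀` (ANY value group), `ϖ : E` with `v ϖ < 1`, `ϖ ≠ 0`, and every nonzero value an
integral power of `v ϖ` (`IsDisc v ϖ`; in the gate: `E = F_{K'}` the `Γ`-fixed functions, `v` a Gauss
valuation, `ϖ = 1 − ζ`, integrality = helper56 `exists_zpow_valuation_of_fixed`).

* `ordD h : E → ℤ` with `v a = v ϖ ^ ordD h a` (`a ≠ 0`), additive, `ordD h ϖ = 1`,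
  `v a ≤ v b ↔ ordD h b ≤ ordD h a`;
* `absD h : AbsoluteValue E ℝ`, `absD h a = 2⁻¹ ^ ordD h a`, nonarchimedean;
  `absD_le_one_iff`, `absD_lt_one_iff`, `absD_eq_iff`, `absD_le_iff` (dictionary with `v`);
* `instUltrametricWithAbs : IsUltrametricDist (WithAbs (absD h))` — so `WithAbs (absD h)` is an
  ultrametric normed field and `Compl.lean` applies to `(absD h).Completion`.
-/
import Mathlib

set_option autoImplicit false

noncomputable section

namespace Fermat.Agent.GF.KCover.Field.Disc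

variable {E : Type*} [Field E] {Γ₀ : Type*} [LinearOrderedCommGroupWithZero Γ₀]

/-- `v` is discrete with uniformiser `ϖ`. -/
structure IsDisc (v : Valuation E Γ₀) (ϖ : E) : Prop where
  lt_one : v ϖ < 1
  ne_zero : ϖ ≠ 0
  exists_zpow : ∀ a : E, a ≠ 0 → ∃ n : ℤ, v a = v ϖ ^ n

variable {v : Valuation E Γ₀} {ϖ : E} (h : IsDisc v ϖ)

include h in
theorem IsDisc.pos : 0 < v ϖ := zero_lt_iff.mpr ((map_ne_zero v).mpr h.ne_zero)

include h in
theorem IsDisc.zpow_le_iff {m n : ℤ} : v ϖ ^ m ≤ v ϖ ^ n ↔ n ≤ m :=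
  zpow_le_zpow_iff_right_of_lt_one₀ h.pos h.lt_one

include h in
theorem IsDisc.zpow_lt_iff {m n : ℤ} : v ϖ ^ m < v ϖ ^ n ↔ n < m :=
  zpow_lt_zpow_iff_right_of_lt_one₀ h.pos h.lt_one

include h in
theorem IsDisc.zpow_inj {m n : ℤ} (hmn : v ϖ ^ m = v ϖ ^ n) : m = n :=
  le_antisymm (h.zpow_le_iff.mp hmn.ge) (h.zpow_le_iff.mp hmn.le)

open Classical in
/-- the order function. -/
def ordD (a : E) : ℤ := if ha : a = 0 then 0 else (h.exists_zpow a ha).choose

theorem ordD_zero : ordD h 0 = 0 := by simp [ordD]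

theorem v_eq {a : E} (ha : a ≠ 0) : v a = v ϖ ^ ordD h a := by
  rw [ordD, dif_neg ha]
  exact (h.exists_zpow a ha).choose_spec

theorem ordD_eq {a : E} (ha : a ≠ 0) {n : ℤ} (hn : v a = v ϖ ^ n) : ordD h a = n :=
  h.zpow_inj ((v_eq h ha).symm.trans hn)

theorem ordD_mul {a b : E} (ha : a ≠ 0) (hb : b ≠ 0) : ordD h (a * b) = ordD h a + ordD h b := by
  apply ordD_eq h (mul_ne_zero ha hb)
  rw [map_mul, v_eq h ha, v_eq h hb, zpow_add₀ h.pos.ne']

theorem ordD_one : ordD h 1 = 0 := by
  apply ordD_eq h one_ne_zero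
  rw [map_one, zpow_zero]

theorem ordD_unif : ordD h ϖ = 1 := by
  apply ordD_eq h h.ne_zero
  rw [zpow_one]

theorem v_le_iff {a b : E} (ha : a ≠ 0) (hb : b ≠ 0) : v a ≤ v b ↔ ordD h b ≤ ordD h a := by
  rw [v_eq h ha, v_eq h hb, h.zpow_le_iff]

theorem v_lt_iff {a b : E} (ha : a ≠ 0) (hb : b ≠ 0) : v a < v b ↔ ordD h b < ordD h a := by
  rw [v_eq h ha, v_eq h hb, h.zpow_lt_iff]

theorem ordD_add_ge {a b : E} (ha : a ≠ 0) (hb : b ≠ 0) (hab : a + b ≠ 0) :
    min (ordD h a) (ordD h b) ≤ ordD h (a + b) := by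
  rcases le_total (v a) (v b) with hle | hle
  · have h1 : v (a + b) ≤ v b := (v.map_add a b).trans (max_le hle le_rfl)
    exact (min_le_right _ _).trans ((v_le_iff h hab hb).mp h1)
  · have h1 : v (a + b) ≤ v a := (v.map_add a b).trans (max_le le_rfl hle)
    exact (min_le_left _ _).trans ((v_le_iff h hab ha).mp h1)

/-- the base of the norm. -/
def base : ℝ := 2⁻¹

theorem base_pos : 0 < base := by unfold base; norm_num
theorem base_lt_one : base < 1 := by unfold base; norm_num

theorem base_zpow_le_iff {m n : ℤ} : base ^ m ≤ base ^ n ↔ n ≤ m :=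
  zpow_le_zpow_iff_right_of_lt_one₀ base_pos base_lt_one

theorem base_zpow_lt_iff {m n : ℤ} : base ^ m < base ^ n ↔ n < m :=
  zpow_lt_zpow_iff_right_of_lt_one₀ base_pos base_lt_one

open Classical in
/-- the absolute value `2 ^ (−ord)`. -/
def absFun (a : E) : ℝ := if a = 0 then 0 else base ^ ordD h a

theorem absFun_zero : absFun h 0 = 0 := by simp [absFun]

theorem absFun_of_ne {a : E} (ha : a ≠ 0) : absFun h a = base ^ ordD h a := by
  simp [absFun, ha]

theorem absFun_nonneg (a : E) : 0 ≤ absFun h a := by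
  by_cases ha : a = 0
  · rw [ha, absFun_zero]
  · rw [absFun_of_ne h ha]
    exact (zpow_pos base_pos _).le

theorem absFun_add_le_max (a b : E) : absFun h (a + b) ≤ max (absFun h a) (absFun h b) := by
  by_cases ha : a = 0
  · rw [ha, zero_add]
    exact le_max_right _ _
  by_cases hb : b = 0
  · rw [hb, add_zero]
    exact le_max_left _ _
  by_cases hab : a + b = 0
  · rw [hab, absFun_zero]
    exact (absFun_nonneg h a).trans (le_max_left _ _)
  rw [absFun_of_ne h ha, absFun_of_ne h hb, absFun_of_ne h hab]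
  have := ordD_add_ge h ha hb hab
  rcases min_le_iff.mp this with h1 | h1
  · exact (base_zpow_le_iff.mpr h1).trans (le_max_left _ _)
  · exact (base_zpow_le_iff.mpr h1).trans (le_max_right _ _)

/-- **the absolute value of a discrete valuation.** -/
def absD : AbsoluteValue E ℝ where
  toFun := absFun h
  map_mul' a b := by
    by_cases ha : a = 0
    · simp [ha, absFun_zero]
    by_cases hb : b = 0
    · simp [hb, absFun_zero]
    rw [absFun_of_ne h ha, absFun_of_ne h hb, absFun_of_ne h (mul_ne_zero ha hb), ordD_mul h ha hb,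
      zpow_add₀ base_pos.ne']
  nonneg' := absFun_nonneg h
  eq_zero' a := by
    constructor
    · intro h0
      by_contra ha
      rw [absFun_of_ne h ha] at h0
      exact (zpow_pos base_pos _).ne' h0
    · rintro rfl
      exact absFun_zero h
  add_le' a b :=
    (absFun_add_le_max h a b).trans (max_le_add_of_nonneg (absFun_nonneg h a) (absFun_nonneg h b))

theorem absD_apply (a : E) : absD h a = absFun h a := rfl

theorem absD_of_ne {a : E} (ha : a ≠ 0) : absD h a = base ^ ordD h a := absFun_of_ne h ha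

theorem absD_add_le_max (a b : E) : absD h (a + b) ≤ max (absD h a) (absD h b) :=
  absFun_add_le_max h a b

/-- dictionary: comparison of values. -/
theorem absD_le_iff {a b : E} (hb : b ≠ 0) : absD h a ≤ absD h b ↔ v a ≤ v b := by
  by_cases ha : a = 0
  · rw [ha, map_zero, map_zero]
    exact ⟨fun _ => zero_le', fun _ => (absD h).nonneg b⟩
  rw [absD_of_ne h ha, absD_of_ne h hb, base_zpow_le_iff, v_le_iff h ha hb]

theorem absD_lt_iff {a b : E} (hb : b ≠ 0) : absD h a < absD h b ↔ v a < v b := by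
  by_cases ha : a = 0
  · rw [ha, map_zero, map_zero]
    exact ⟨fun _ => zero_lt_iff.mpr ((map_ne_zero v).mpr hb), fun _ => (absD h).pos hb⟩
  rw [absD_of_ne h ha, absD_of_ne h hb, base_zpow_lt_iff, v_lt_iff h ha hb]

theorem absD_le_one_iff {a : E} : absD h a ≤ 1 ↔ v a ≤ 1 := by
  have := absD_le_iff h (a := a) (b := 1) one_ne_zero
  rwa [map_one, map_one] at this

theorem absD_lt_one_iff {a : E} : absD h a < 1 ↔ v a < 1 := by
  have := absD_lt_iff h (a := a) (b := 1) one_ne_zero
  rwa [map_one, map_one] at this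

theorem absD_eq_iff {a b : E} : absD h a = absD h b ↔ v a = v b := by
  by_cases hb : b = 0
  · rw [hb, map_zero, map_zero, map_eq_zero, map_eq_zero]
  by_cases ha : a = 0
  · rw [ha, map_zero, map_zero, eq_comm, map_eq_zero, eq_comm (a := (0 : Γ₀)), map_eq_zero]
  rw [le_antisymm_iff, le_antisymm_iff, absD_le_iff h hb, absD_le_iff h ha]

theorem absD_unif : absD h ϖ = base := by
  rw [absD_of_ne h h.ne_zero, ordD_unif, zpow_one]

/-- `WithAbs (absD h)` is an ultrametric normed field. -/
instance instUltrametricWithAbs : IsUltrametricDist (WithAbs (absD h)) := by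
  apply IsUltrametricDist.isUltrametricDist_of_forall_norm_add_le_max_norm
  intro x y
  rw [WithAbs.norm_eq_apply_ofAbs, WithAbs.norm_eq_apply_ofAbs, WithAbs.norm_eq_apply_ofAbs,
    WithAbs.ofAbs_add]
  exact absD_add_le_max h _ _

/-- an automorphism preserving `v` preserves the norm. -/
theorem absD_map_of_v {τ : E ≃+* E} (hτ : ∀ a, v (τ a) = v a) (a : E) :
    absD h (τ a) = absD h a :=
  (absD_eq_iff h).mpr (hτ a)

end Fermat.Agent.GF.KCover.Field.Disc
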