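/-
GATE-F (S40) / node GF-KCOVER-INST, FIELD SIDE (L-a) of helper84 6058, file 3 (helper3).
Mathlib-only.  **The tame group `Δ~ = ⟨x⟩`, its fixed field `F'₀` and the norm `N_Δ~`.**

`x : F' ≃+* F'` any ring automorphism of a field (in the gate: `equivOfPowEqOne` of the generator of
`Lift.exists_lift_pow_eq_one`), `δ : F' ≃+* F'` commuting with `x`.

* `tame x := Subgroup.zpowers x` (acts on `F'` through `RingAut F'`), `fixedTame x : Subfield F'`;
  `mem_fixedTame : y ∈ fixedTame x ↔ x y = y`;
* `finrank_fixedTame : finrank (fixedTame x) F' = orderOf x` (`x` of finite order; Artin);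
* `map_mem_fixedTame : Commute x δ → y ∈ fixedTame x → δ y ∈ fixedTame x`;
* `normTame x d y := ∏ i ∈ range d, (x ^ i) y` — multiplicative, lands in `fixedTame x` when
  `x ^ d = 1`, `= y ^ d` on `fixedTame x`;
* `map_normTame` : for a multiplicative `v` with `v (x y) = v y`: `v (N y) = v y ^ d`
  (so `N_Δ~` multiplies every `x`-invariant additive order by `d = #Δ~`, a unit mod `p`).
-/
import Mathlib

set_option autoImplicit false

noncomputable section

namespace Fermat.Agent.GF.KCover.Field

variable {F' : Type*} [Field F']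

/-- the tame group `Δ~ = ⟨x⟩`. -/
abbrev tame (x : F' ≃+* F') : Subgroup (RingAut F') := Subgroup.zpowers x

/-- the fixed field `F'₀` of `Δ~`. -/
def fixedTame (x : F' ≃+* F') : Subfield F' := FixedPoints.subfield (tame x) F'

theorem mem_fixedTame {x : F' ≃+* F'} {y : F'} : y ∈ fixedTame x ↔ x y = y := by
  constructor
  · intro h
    exact h ⟨x, Subgroup.mem_zpowers x⟩
  · intro h g
    obtain ⟨g, n, rfl⟩ := g
    show (x ^ n) y = y
    induction n using Int.induction_on with
    | zero => rfl
    | succ n ih =>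
      rw [zpow_add, zpow_one]
      show (x ^ (n : ℤ)) (x y) = y
      rw [h, ih]
    | pred n ih =>
      have hinv : x⁻¹ y = y := by
        have : x⁻¹ (x y) = y := x.symm_apply_apply y
        rwa [h] at this
      rw [sub_eq_add_neg, zpow_add, zpow_neg_one]
      show (x ^ (-(n : ℤ))) (x⁻¹ y) = y
      rw [hinv, ih]

theorem map_mem_fixedTame {x δ : F' ≃+* F'} (hc : Commute x δ) {y : F'} (hy : y ∈ fixedTame x) :
    δ y ∈ fixedTame x := by
  rw [mem_fixedTame] at hy ⊢
  have : x (δ y) = δ (x y) := by
    have := congrArg (fun e : F' ≃+* F' => e y) hc.eq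
    exact this
  rw [this, hy]

theorem zpow_mem_fixedTame {x δ : F' ≃+* F'} (hc : Commute x δ) {y : F'} (hy : y ∈ fixedTame x)
    (n : ℤ) : (δ ^ n) y ∈ fixedTame x :=
  map_mem_fixedTame (hc.zpow_right n) hy

/-- **Artin**: `[F' : F'₀] = #Δ~ = orderOf x`. -/
theorem finrank_fixedTame {x : F' ≃+* F'} (hx : IsOfFinOrder x) :
    Module.finrank (fixedTame x) F' = orderOf x := by
  have hcard : Nat.card (tame x) = orderOf x := Nat.card_zpowers x
  haveI : Finite (tame x) :=
    Nat.finite_of_card_ne_zero (by rw [hcard]; exact hx.orderOf_pos.ne')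
  haveI : Fintype (tame x) := Fintype.ofFinite _
  have h := FixedPoints.finrank_eq_card (tame x) F'
  rw [Fintype.card_eq_nat_card, hcard] at h
  exact h

/-- the norm `N_Δ~ y = ∏_{i < d} xⁱ y`. -/
def normTame (x : F' ≃+* F') (d : ℕ) (y : F') : F' := ∏ i ∈ Finset.range d, (x ^ i) y

theorem normTame_mul (x : F' ≃+* F') (d : ℕ) (y z : F') :
    normTame x d (y * z) = normTame x d y * normTame x d z := by
  simp only [normTame, map_mul, Finset.prod_mul_distrib]

theorem normTame_one (x : F' ≃+* F') (d : ℕ) : normTame x d 1 = 1 := by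
  simp [normTame]

theorem normTame_ne_zero (x : F' ≃+* F') (d : ℕ) {y : F'} (hy : y ≠ 0) : normTame x d y ≠ 0 := by
  rw [normTame, Finset.prod_ne_zero_iff]
  intro i _
  rwa [Ne, EmbeddingLike.map_eq_zero_iff]

theorem normTame_mem_fixedTame {x : F' ≃+* F'} {d : ℕ} (hd : x ^ d = 1) (y : F') :
    normTame x d y ∈ fixedTame x := by
  rw [mem_fixedTame, normTame, map_prod]
  have h1 : ∀ i, x ((x ^ i) y) = (x ^ (i + 1)) y := fun i => by rw [pow_succ']; rfl
  simp only [h1]
  cases d with
  | zero => simp
  | succ m =>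
    rw [Finset.prod_range_succ, Finset.prod_range_succ' (fun i => (x ^ i) y), hd, pow_zero]

theorem normTame_of_mem_fixedTame {x : F' ≃+* F'} (d : ℕ) {y : F'} (hy : y ∈ fixedTame x) :
    normTame x d y = y ^ d := by
  rw [mem_fixedTame] at hy
  have h1 : ∀ i : ℕ, (x ^ i) y = y := by
    intro i
    induction i with
    | zero => rfl
    | succ i ih =>
      rw [pow_succ]
      show (x ^ i) (x y) = y
      rw [hy, ih]
  rw [normTame, Finset.prod_congr rfl (fun i _ => h1 i), Finset.prod_const, Finset.card_range]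

/-- **the norm multiplies every `x`-invariant multiplicative function by the exponent `d`.** -/
theorem map_normTame {M : Type*} [CommMonoid M] (x : F' ≃+* F') (d : ℕ) (v : F' →* M)
    (hv : ∀ y, v (x y) = v y) (y : F') : v (normTame x d y) = v y ^ d := by
  have h1 : ∀ i : ℕ, v ((x ^ i) y) = v y := by
    intro i
    induction i generalizing y with
    | zero => rfl
    | succ i ih =>
      rw [pow_succ]
      show v ((x ^ i) (x y)) = v y
      rw [ih (x y), hv]
  rw [normTame, map_prod, Finset.prod_congr rfl (fun i _ => h1 i), Finset.prod_const,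
    Finset.card_range]

/-- additive form: an `x`-invariant additive order `w` (on nonzero elements) satisfies
`w (N y) = d • w y`. -/
theorem map_normTame_add {A : Type*} [AddCommMonoid A] (x : F' ≃+* F') (d : ℕ) (w : F' → A)
    (hmul : ∀ y z, y ≠ 0 → z ≠ 0 → w (y * z) = w y + w z) (hone : w 1 = 0)
    (hw : ∀ y, w (x y) = w y) {y : F'} (hy : y ≠ 0) : w (normTame x d y) = d • w y := by
  have h1 : ∀ i : ℕ, ∀ z, w ((x ^ i) z) = w z := by
    intro i
    induction i with
    | zero => intro z; rfl
    | succ i ih =>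
      intro z
      rw [pow_succ]
      show w ((x ^ i) (x z)) = w z
      rw [ih (x z), hw]
  induction d with
  | zero => simp [normTame, hone]
  | succ d ih =>
    have h2 : normTame x (d + 1) y = normTame x d y * (x ^ d) y := by
      rw [normTame, Finset.prod_range_succ]; rfl
    rw [h2, hmul _ _ (normTame_ne_zero x d hy)
      (by rwa [Ne, EmbeddingLike.map_eq_zero_iff]), ih, h1 d y, succ_nsmul]

end Fermat.Agent.GF.KCover.Field
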