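/-
GATE-F (S40) / node GF-KCOVER-INST, FIELD SIDE (L-a) of helper84 6058, file 1 (helper3).
Mathlib-only.  **Kummer covers `F' = F₁(G)`, `G ^ p = g₀`: semilinear lifts.**

`H : IsAdjoinRoot F' (X ^ p - C g₀)` (so `G = H.root`), `ζ : F₁` a primitive `p`-th root of unity.

* `liftTo H i y hy : F' →+* T` — the ring hom extending `i : F₁ →+* T` with `G ↦ y` (`y ^ p = i g₀`);
  `ringHom_ext` — a ring hom out of `F'` is determined by its restriction to `F₁` and its value at `G`;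
* `IsOver φ σ` — `φ : F' →+* F'` restricts to `σ : F₁ →+* F₁`;
* `deck H ζ : F' →+* F'`, `G ↦ ζ G`, over `id`; `deck_pow_p = 1`; `exists_eq_deck_pow` — every
  endomorphism over `id` is a power of `deck` (`Aut(F'/F₁) = ⟨δ⟩`);
* `exists_root_form` — if `φ` is over `σ` and `σ g₀ = g₀ ^ ω · h ^ p` then `φ G = ζ^i · G^ω · h`;
* **`commute_deck`** — if moreover `σ ζ = ζ ^ ω` then `φ` COMMUTES with `deck` (helper84 (I2) FACT);
* `exists_lift` — existence of a lift over `σ`;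
* **`exists_lift_pow_eq_one`** — `σ` of finite order `d` prime to `p` ⟹ there is a lift `x` of `σ`
  with `x ^ d = 1`, commuting with `deck` (a generator of `Δ~`).
-/
import Mathlib

set_option autoImplicit false

noncomputable section

namespace Fermat.Agent.GF.KCover.Field

open Polynomial

variable {F₁ F' : Type*} [Field F₁] [Field F'] [Algebra F₁ F']
variable {p : ℕ} {g₀ : F₁} (H : IsAdjoinRoot F' (X ^ p - C g₀ : F₁[X]))

include H in
theorem root_pow : H.root ^ p = algebraMap F₁ F' g₀ := by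
  have h := H.aeval_root_self
  rw [map_sub, map_pow, aeval_X, aeval_C, sub_eq_zero] at h
  exact h

/-- the ring hom extending `i` with `G ↦ y`. -/
def liftTo {T : Type*} [CommRing T] (i : F₁ →+* T) (y : T) (hy : y ^ p = i g₀) : F' →+* T :=
  H.lift i y (by rw [eval₂_sub, eval₂_pow, eval₂_X, eval₂_C, hy, sub_self])

@[simp] theorem liftTo_root {T : Type*} [CommRing T] (i : F₁ →+* T) (y : T) (hy : y ^ p = i g₀) :
    liftTo H i y hy H.root = y :=
  H.lift_root _

@[simp] theorem liftTo_algebraMap {T : Type*} [CommRing T] (i : F₁ →+* T) (y : T)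
    (hy : y ^ p = i g₀) (a : F₁) : liftTo H i y hy (algebraMap F₁ F' a) = i a :=
  H.lift_algebraMap _ a

include H in
/-- a ring hom out of `F'` is determined by its restriction to `F₁` and its value at `G`. -/
theorem ringHom_ext {T : Type*} [CommRing T] {φ ψ : F' →+* T}
    (h1 : ∀ a, φ (algebraMap F₁ F' a) = ψ (algebraMap F₁ F' a)) (h2 : φ H.root = ψ H.root) :
    φ = ψ := by
  have hy : (ψ H.root) ^ p = (ψ.comp (algebraMap F₁ F')) g₀ := by
    rw [← map_pow, root_pow H]; rfl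
  have e1 : φ = liftTo H (ψ.comp (algebraMap F₁ F')) (ψ H.root) hy :=
    H.eq_lift _ φ (fun a => h1 a) h2
  have e2 : ψ = liftTo H (ψ.comp (algebraMap F₁ F')) (ψ H.root) hy :=
    H.eq_lift _ ψ (fun a => rfl) rfl
  rw [e1, ← e2]

/-- `φ : F' →+* F'` restricts to `σ : F₁ →+* F₁`. -/
def IsOver (φ : F' →+* F') (σ : F₁ →+* F₁) : Prop :=
  ∀ a, φ (algebraMap F₁ F' a) = algebraMap F₁ F' (σ a)

theorem IsOver.comp {φ ψ : F' →+* F'} {σ τ : F₁ →+* F₁} (hφ : IsOver φ σ) (hψ : IsOver ψ τ) :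
    IsOver (φ.comp ψ) (σ.comp τ) := fun a => by
  rw [RingHom.comp_apply, hψ a, hφ (τ a)]; rfl

theorem IsOver.mul {φ ψ : F' →+* F'} {σ τ : F₁ →+* F₁} (hφ : IsOver φ σ) (hψ : IsOver ψ τ) :
    IsOver (φ * ψ) (σ * τ) := hφ.comp hψ

theorem isOver_one : IsOver (1 : F' →+* F') (1 : F₁ →+* F₁) := fun _ => rfl

theorem IsOver.pow {φ : F' →+* F'} {σ : F₁ →+* F₁} (hφ : IsOver φ σ) (n : ℕ) :
    IsOver (φ ^ n) (σ ^ n) := by
  induction n with
  | zero => rw [pow_zero, pow_zero]; exact isOver_one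
  | succ n ih => rw [pow_succ, pow_succ]; exact ih.mul hφ

/-! ### the deck transformation and the root form of a semilinear endomorphism -/

section Deck

variable {ζ : F₁} (hζ : IsPrimitiveRoot ζ p)

include hζ in
theorem isPrimitiveRoot_map : IsPrimitiveRoot (algebraMap F₁ F' ζ) p :=
  hζ.map_of_injective (algebraMap F₁ F').injective

include H in
theorem root_ne_zero (hp : p ≠ 0) (hg₀ : g₀ ≠ 0) : H.root ≠ 0 := by
  intro h0
  have h := root_pow H
  rw [h0, zero_pow hp] at h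
  exact hg₀ ((algebraMap F₁ F').injective (by rw [← h, map_zero]))

include hζ in
/-- **root form**: `φ` over `σ`, `σ g₀ = g₀ ^ ω · h ^ p` ⟹ `φ G = ζ^i · G^ω · h`. -/
theorem exists_root_form (hp : p ≠ 0) (hg₀ : g₀ ≠ 0) {φ : F' →+* F'} {σ : F₁ →+* F₁}
    (hφ : IsOver φ σ) {ω : ℕ} {h : F₁} (hσ : σ g₀ = g₀ ^ ω * h ^ p) :
    ∃ i : ℕ, i < p ∧
      φ H.root = algebraMap F₁ F' ζ ^ i * H.root ^ ω * algebraMap F₁ F' h := by
  haveI : NeZero p := ⟨hp⟩
  have hroot0 := root_ne_zero H hp hg₀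
  have hh0 : h ≠ 0 := by
    rintro rfl
    rw [zero_pow hp, mul_zero] at hσ
    exact hg₀ (σ.injective (by rw [hσ, map_zero]))
  set z : F' := H.root ^ ω * algebraMap F₁ F' h with hz
  have hz0 : z ≠ 0 :=
    mul_ne_zero (pow_ne_zero _ hroot0) (by rwa [Ne, map_eq_zero])
  have hzp : z ^ p = algebraMap F₁ F' (σ g₀) := by
    rw [hz, mul_pow, ← pow_mul, mul_comm ω p, pow_mul, root_pow H, hσ, map_mul, map_pow, map_pow]
  have hyp : (φ H.root) ^ p = algebraMap F₁ F' (σ g₀) := by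
    rw [← map_pow, root_pow H, hφ]
  have h1 : (φ H.root / z) ^ p = 1 := by
    rw [div_pow, hyp, hzp, div_self]
    rw [← hzp]
    exact pow_ne_zero _ hz0
  obtain ⟨i, hi, hi'⟩ := (isPrimitiveRoot_map hζ).eq_pow_of_pow_eq_one h1
  refine ⟨i, hi, ?_⟩
  rw [mul_assoc, ← hz, hi', div_mul_cancel₀ _ hz0]

include hζ in
theorem deck_aux : (algebraMap F₁ F' ζ * H.root) ^ p = algebraMap F₁ F' g₀ := by
  rw [mul_pow, ← map_pow, hζ.pow_eq_one, map_one, one_mul, root_pow H]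

/-- **the deck transformation** `δ`: `G ↦ ζ G`, identity on `F₁`. -/
def deck : F' →+* F' :=
  liftTo H (algebraMap F₁ F') (algebraMap F₁ F' ζ * H.root) (deck_aux H hζ)

@[simp] theorem deck_root : deck H hζ H.root = algebraMap F₁ F' ζ * H.root :=
  liftTo_root H _ _ _

@[simp] theorem deck_algebraMap (a : F₁) : deck H hζ (algebraMap F₁ F' a) = algebraMap F₁ F' a :=
  liftTo_algebraMap H _ _ _ a

theorem deck_isOver : IsOver (deck H hζ) (1 : F₁ →+* F₁) := fun a => deck_algebraMap H hζ a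

theorem deck_pow_algebraMap (n : ℕ) (a : F₁) :
    (deck H hζ ^ n) (algebraMap F₁ F' a) = algebraMap F₁ F' a := by
  have := (deck_isOver H hζ).pow n a
  rwa [one_pow] at this

theorem deck_pow_root (n : ℕ) :
    (deck H hζ ^ n) H.root = algebraMap F₁ F' ζ ^ n * H.root := by
  induction n with
  | zero => simp
  | succ n ih =>
    rw [pow_succ, RingHom.mul_def, RingHom.comp_apply, deck_root, map_mul, deck_pow_algebraMap, ih]
    ring

/-- `δ ^ p = 1`. -/
theorem deck_pow_p : deck H hζ ^ p = 1 := by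
  refine ringHom_ext H (fun a => ?_) ?_
  · rw [deck_pow_algebraMap]; rfl
  · rw [deck_pow_root, ← map_pow, hζ.pow_eq_one, map_one, one_mul]; rfl

theorem deck_pow_eq_one_of_dvd {n : ℕ} (hn : p ∣ n) : deck H hζ ^ n = 1 := by
  obtain ⟨m, rfl⟩ := hn
  rw [pow_mul, deck_pow_p, one_pow]

/-- `Aut(F'/F₁) = ⟨δ⟩`: every endomorphism over the identity is a power of `δ`. -/
theorem exists_eq_deck_pow (hp : p ≠ 0) (hg₀ : g₀ ≠ 0) {φ : F' →+* F'}
    (hφ : IsOver φ (1 : F₁ →+* F₁)) : ∃ i : ℕ, i < p ∧ φ = deck H hζ ^ i := by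
  obtain ⟨i, hi, hi'⟩ := exists_root_form H hζ hp hg₀ hφ (ω := 1) (h := 1)
    (by rw [pow_one, one_pow, mul_one]; rfl)
  refine ⟨i, hi, ringHom_ext H (fun a => ?_) ?_⟩
  · rw [hφ a, deck_pow_algebraMap]; rfl
  · rw [hi', deck_pow_root, pow_one, map_one, mul_one]

/-- **every semilinear lift commutes with the deck transformation** (helper84 6058 (I2) FACT). -/
theorem commute_deck (hp : p ≠ 0) (hg₀ : g₀ ≠ 0) {φ : F' →+* F'} {σ : F₁ →+* F₁}
    (hφ : IsOver φ σ) {ω : ℕ} {h : F₁} (hσζ : σ ζ = ζ ^ ω) (hσ : σ g₀ = g₀ ^ ω * h ^ p) :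
    Commute φ (deck H hζ) := by
  obtain ⟨i, -, hi⟩ := exists_root_form H hζ hp hg₀ hφ hσ
  refine ringHom_ext H (fun a => ?_) ?_
  · rw [RingHom.mul_def, RingHom.mul_def, RingHom.comp_apply, RingHom.comp_apply, deck_algebraMap,
      hφ a, deck_algebraMap]
  · have e1 : (φ * deck H hζ) H.root = φ (deck H hζ H.root) := rfl
    have e2 : (deck H hζ * φ) H.root = deck H hζ (φ H.root) := rfl
    rw [e1, e2, deck_root, map_mul, hφ ζ, hσζ, hi, map_mul, map_mul, map_pow, map_pow, map_pow,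
      deck_algebraMap, deck_algebraMap, deck_root]
    ring

/-- existence of a lift over `σ`. -/
theorem exists_lift {σ : F₁ →+* F₁} {ω : ℕ} {h : F₁} (hσ : σ g₀ = g₀ ^ ω * h ^ p) :
    ∃ φ : F' →+* F', IsOver φ σ ∧ φ H.root = H.root ^ ω * algebraMap F₁ F' h := by
  have hy : (H.root ^ ω * algebraMap F₁ F' h) ^ p = ((algebraMap F₁ F').comp σ) g₀ := by
    rw [mul_pow, ← pow_mul, mul_comm ω p, pow_mul, root_pow H, RingHom.comp_apply, hσ, map_mul,
      map_pow, map_pow]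
  exact ⟨liftTo H ((algebraMap F₁ F').comp σ) _ hy, fun a => liftTo_algebraMap H _ _ hy a,
    liftTo_root H _ _ hy⟩

/-- **a generator of `Δ~`**: if `σ` has finite order `d` prime to `p` (and `σ ζ = ζ ^ ω`,
`σ g₀ = g₀ ^ ω · h ^ p`), there is a lift `x` of `σ` with `x ^ d = 1`, commuting with `δ`. -/
theorem exists_lift_pow_eq_one (hp : p ≠ 0) (hg₀ : g₀ ≠ 0) {σ : F₁ →+* F₁} {d : ℕ}
    (hσd : σ ^ d = 1) (hd : Nat.Coprime d p) {ω : ℕ} {h : F₁} (hσζ : σ ζ = ζ ^ ω)
    (hσ : σ g₀ = g₀ ^ ω * h ^ p) :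
    ∃ x : F' →+* F', IsOver x σ ∧ x ^ d = 1 ∧ Commute x (deck H hζ) := by
  obtain ⟨φ, hφ, -⟩ := exists_lift H hσ
  have hcomm := commute_deck H hζ hp hg₀ hφ hσζ hσ
  have hφd : IsOver (φ ^ d) (1 : F₁ →+* F₁) := by
    have := hφ.pow d
    rwa [hσd] at this
  obtain ⟨c, -, hc⟩ := exists_eq_deck_pow H hζ hp hg₀ hφd
  -- exponent `e` with `p ∣ c + e · d`
  haveI : NeZero p := ⟨hp⟩
  let dU : (ZMod p)ˣ := ZMod.unitOfCoprime d hd
  set e : ℕ := ((-(c : ZMod p)) * ((dU⁻¹ : (ZMod p)ˣ) : ZMod p)).val with he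
  have hdvd : p ∣ c + e * d := by
    rw [← ZMod.natCast_eq_zero_iff]
    push_cast
    rw [he, ZMod.natCast_zmod_val]
    have h1 : ((dU⁻¹ : (ZMod p)ˣ) : ZMod p) * (d : ZMod p) = 1 := by
      rw [← ZMod.coe_unitOfCoprime d hd]
      exact Units.inv_mul _
    linear_combination (-(c : ZMod p)) * h1
  refine ⟨φ * deck H hζ ^ e, ?_, ?_, ?_⟩
  · have := hφ.mul ((deck_isOver H hζ).pow e)
    rwa [one_pow, mul_one] at this
  · rw [(hcomm.pow_right _).mul_pow, hc, ← pow_mul, ← pow_add]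
    exact deck_pow_eq_one_of_dvd H hζ hdvd
  · exact hcomm.mul_left ((Commute.refl _).pow_left _)

end Deck

/-! ### endomorphisms of finite order are automorphisms -/

/-- a ring endomorphism `x` with `x ^ d = 1`, `d ≠ 0`, as a ring automorphism. -/
def equivOfPowEqOne {R : Type*} [Semiring R] (x : R →+* R) {d : ℕ} (hd : d ≠ 0)
    (hx : x ^ d = 1) : R ≃+* R :=
  RingEquiv.ofRingHom x (x ^ (d - 1))
    (by
      show x * x ^ (d - 1) = 1
      rw [← pow_succ', Nat.sub_add_cancel (Nat.pos_of_ne_zero hd), hx])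
    (by
      show x ^ (d - 1) * x = 1
      rw [← pow_succ, Nat.sub_add_cancel (Nat.pos_of_ne_zero hd), hx])

@[simp] theorem equivOfPowEqOne_apply {R : Type*} [Semiring R] (x : R →+* R) {d : ℕ} (hd : d ≠ 0)
    (hx : x ^ d = 1) (y : R) : equivOfPowEqOne x hd hx y = x y := rfl

theorem equivOfPowEqOne_pow {R : Type*} [Semiring R] (x : R →+* R) {d : ℕ} (hd : d ≠ 0)
    (hx : x ^ d = 1) (n : ℕ) (y : R) : (equivOfPowEqOne x hd hx ^ n) y = (x ^ n) y := by
  induction n generalizing y with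
  | zero => rfl
  | succ n ih =>
    rw [pow_succ, pow_succ]
    show (equivOfPowEqOne x hd hx ^ n) (equivOfPowEqOne x hd hx y) = (x ^ n) (x y)
    rw [ih]; rfl

theorem equivOfPowEqOne_pow_eq_one {R : Type*} [Semiring R] (x : R →+* R) {d : ℕ} (hd : d ≠ 0)
    (hx : x ^ d = 1) : equivOfPowEqOne x hd hx ^ d = 1 := by
  ext y
  rw [equivOfPowEqOne_pow, hx]; rfl


end Fermat.Agent.GF.KCover.Field
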