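/-
GATE-F (S40) / node GF-KCOVER-INST, FIELD SIDE (L-a) of helper84 6058, file 2 (helper3).
Mathlib-only.  **The `p` embeddings of a SPLIT Kummer cover and their `Δ~`-equivariance.**

`F' = F₁(G)`, `G ^ p = g₀` (`H : IsAdjoinRoot F' (X ^ p - C g₀)`), `ζ : F₁` primitive `p`-th root of `1`,
`L` a field with `j : F₁ →+* L` and `γ : L`, `γ ^ p = j g₀` (in the gate: `L` = completion of `F_{K'}`
at a Gauss valuation, `γ` the `p`-th root supplied by NORMDEPTH / U-DEPTH).

* `emb k : F' →+* L` (`k : ZMod p`): the embedding over `j` with `G ↦ (j ζ)^k · γ`;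
* `emb_comp_deck : emb k ∘ δ = emb (k + 1)` — so for ANY `v : L → Γ₀` the functions
  `w k := v ∘ emb k` satisfy `w k (δ y) = w (k + 1) y` (= the `CoverFrame` fields `w₁_δ`, `w₂_δ`),
  are multiplicative when `v` is, and restrict to `v ∘ j` on `F₁`;
* `emb_injective`, `exists_eq_emb` — the `emb k` are pairwise distinct and are ALL the ring homs
  `F' →+* L` over `j`;
* **`emb_comp_eq`** (the `Δ~`-invariance): `x : F' →+* F'` over `τ`, commuting with `δ`, `x ^ d = 1`,
  `d` prime to `p`; `τL : L ≃+* L` with `τL ∘ j = j ∘ τ`, `τL ^ d = 1`.  Then for EVERY `k`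
      `emb k ∘ x = τL ∘ emb k`.
  Hence every structure pulled back from `L` along `emb k` (valuation, reduction, order at a point of
  the residue field) is `x`-invariant as soon as it is `τL`-invariant on `L` (`map_emb_comp_eq`).
-/
import Mathlib
import Fermat.Agent.GF.KCover.Field.Lift

set_option autoImplicit false

noncomputable section

namespace Fermat.Agent.GF.KCover.Field

open Polynomial

variable {F₁ F' L : Type*} [Field F₁] [Field F'] [Algebra F₁ F'] [Field L]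
variable {p : ℕ} [NeZero p] {g₀ : F₁} (H : IsAdjoinRoot F' (X ^ p - C g₀ : F₁[X]))
variable {ζ : F₁} (hζ : IsPrimitiveRoot ζ p)
variable (j : F₁ →+* L) {γ : L} (hγ : γ ^ p = j g₀)

include hζ in
theorem isPrimitiveRoot_j : IsPrimitiveRoot (j ζ) p :=
  hζ.map_of_injective j.injective

include hζ hγ in
theorem emb_aux (k : ZMod p) : (j ζ ^ k.val * γ) ^ p = j g₀ := by
  rw [mul_pow, ← pow_mul, mul_comm k.val p, pow_mul, ← map_pow, hζ.pow_eq_one, map_one, one_pow,
    one_mul, hγ]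

/-- **the `k`-th embedding** `F' →+* L` over `j`, `G ↦ (j ζ)^k γ`. -/
def emb (k : ZMod p) : F' →+* L :=
  liftTo H j (j ζ ^ k.val * γ) (emb_aux hζ j hγ k)

@[simp] theorem emb_root (k : ZMod p) : emb H hζ j hγ k H.root = j ζ ^ k.val * γ :=
  liftTo_root H _ _ _

@[simp] theorem emb_algebraMap (k : ZMod p) (a : F₁) : emb H hζ j hγ k (algebraMap F₁ F' a) = j a :=
  liftTo_algebraMap H _ _ _ a

include hζ in
theorem jζ_pow_val_succ (k : ZMod p) : j ζ ^ (k + 1).val = j ζ ^ k.val * j ζ := by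
  have h1 : j ζ ^ p = 1 := by rw [← map_pow, hζ.pow_eq_one, map_one]
  rw [← pow_succ]
  -- `(k+1).val ≡ k.val + 1 (mod p)`
  have h2 : (k + 1).val % p = (k.val + 1) % p := by
    have : ((k + 1).val : ZMod p) = ((k.val + 1 : ℕ) : ZMod p) := by
      rw [ZMod.natCast_zmod_val]; push_cast; rw [ZMod.natCast_zmod_val]
    exact (ZMod.natCast_eq_natCast_iff' _ _ _).mp this
  rw [← Nat.mod_add_div (k + 1).val p, ← Nat.mod_add_div (k.val + 1) p, pow_add, pow_add, pow_mul,
    pow_mul, h1, one_pow, one_pow, h2]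

/-- **`emb k ∘ δ = emb (k + 1)`.** -/
theorem emb_comp_deck (k : ZMod p) :
    (emb H hζ j hγ k).comp (deck H hζ) = emb H hζ j hγ (k + 1) := by
  refine ringHom_ext H (fun a => ?_) ?_
  · rw [RingHom.comp_apply, deck_algebraMap, emb_algebraMap, emb_algebraMap]
  · rw [RingHom.comp_apply, deck_root, map_mul, emb_algebraMap, emb_root, emb_root,
      jζ_pow_val_succ hζ j k]
    ring

theorem emb_deck_apply (k : ZMod p) (y : F') :
    emb H hζ j hγ k (deck H hζ y) = emb H hζ j hγ (k + 1) y := by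
  rw [← emb_comp_deck H hζ j hγ k]; rfl

include hγ in
theorem γ_ne_zero (hg₀ : g₀ ≠ 0) : γ ≠ 0 := by
  rintro rfl
  rw [zero_pow (NeZero.ne p)] at hγ
  exact hg₀ (j.injective (by rw [← hγ, map_zero]))

/-- the `emb k` are pairwise distinct. -/
theorem emb_injective (hg₀ : g₀ ≠ 0) : Function.Injective (emb H hζ j hγ) := by
  intro k k' hkk'
  have h1 := congrArg (fun φ : F' →+* L => φ H.root) hkk'
  simp only [emb_root] at h1
  have h2 : j ζ ^ k.val = j ζ ^ k'.val := mul_right_cancel₀ (γ_ne_zero j hγ hg₀) h1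
  have h3 := (isPrimitiveRoot_j hζ j).pow_inj (ZMod.val_lt k) (ZMod.val_lt k') h2
  exact ZMod.val_injective p h3

/-- every ring hom `F' →+* L` over `j` is one of the `emb k`. -/
theorem exists_eq_emb (hg₀ : g₀ ≠ 0) (ψ : F' →+* L) (hψ : ∀ a, ψ (algebraMap F₁ F' a) = j a) :
    ∃ k : ZMod p, ψ = emb H hζ j hγ k := by
  have hγ0 := γ_ne_zero j hγ hg₀
  have h1 : (ψ H.root / γ) ^ p = 1 := by
    rw [div_pow, ← map_pow, root_pow H, hψ, hγ, div_self]
    rw [← hγ]; exact pow_ne_zero _ hγ0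
  obtain ⟨i, hi, hi'⟩ := (isPrimitiveRoot_j hζ j).eq_pow_of_pow_eq_one h1
  refine ⟨(i : ZMod p), ringHom_ext H (fun a => ?_) ?_⟩
  · rw [hψ, emb_algebraMap]
  · rw [emb_root, ZMod.val_natCast, Nat.mod_eq_of_lt hi, hi', div_mul_cancel₀ _ hγ0]

/-! ### the `Δ~`-equivariance -/

section Equivariance

variable {x : F' →+* F'} {τ : F₁ →+* F₁} (hx : IsOver x τ) (hxδ : Commute x (deck H hζ))
variable (τL : L ≃+* L) (hτL : ∀ a, τL (j a) = j (τ a))

include hx hτL in
/-- `emb k ∘ x = τL ∘ emb k'` for some `k'`. -/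
theorem exists_emb_comp (hg₀ : g₀ ≠ 0) (k : ZMod p) :
    ∃ k' : ZMod p, (emb H hζ j hγ k).comp x = (τL : L →+* L).comp (emb H hζ j hγ k') := by
  obtain ⟨k', hk'⟩ := exists_eq_emb H hζ j hγ hg₀
    (((τL.symm : L →+* L).comp (emb H hζ j hγ k)).comp x) (fun a => by
      rw [RingHom.comp_apply, RingHom.comp_apply, hx a, emb_algebraMap, ← hτL a]
      exact τL.symm_apply_apply _)
  refine ⟨k', ?_⟩
  rw [← hk']
  ext y
  simp

include hx hxδ hτL in
/-- the index permutation is a translation: `emb k ∘ x = τL ∘ emb (k + c)`. -/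
theorem exists_translation (hg₀ : g₀ ≠ 0) :
    ∃ c : ZMod p, ∀ k : ZMod p,
      (emb H hζ j hγ k).comp x = (τL : L →+* L).comp (emb H hζ j hγ (k + c)) := by
  obtain ⟨c, hc⟩ := exists_emb_comp H hζ j hγ hx τL hτL hg₀ 0
  refine ⟨c, fun k => ?_⟩
  -- induction on a natural representative of `k`
  obtain ⟨n, rfl⟩ : ∃ n : ℕ, k = (n : ZMod p) := ⟨k.val, (ZMod.natCast_zmod_val k).symm⟩
  induction n with
  | zero => simpa using hc
  | succ n ih =>
    have h1 : ((n + 1 : ℕ) : ZMod p) = (n : ZMod p) + 1 := by push_cast; rfl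
    rw [h1, ← emb_comp_deck H hζ j hγ (n : ZMod p), RingHom.comp_assoc]
    have h2 : (deck H hζ).comp x = x.comp (deck H hζ) := hxδ.eq.symm
    rw [h2, ← RingHom.comp_assoc, ih, RingHom.comp_assoc, emb_comp_deck]
    congr 2
    ring

include hx hxδ hτL in
theorem emb_comp_pow (hg₀ : g₀ ≠ 0) {c : ZMod p}
    (hc : ∀ k : ZMod p,
      (emb H hζ j hγ k).comp x = (τL : L →+* L).comp (emb H hζ j hγ (k + c))) (n : ℕ)
    (k : ZMod p) :
    (emb H hζ j hγ k).comp (x ^ n) =
      ((τL ^ n : L ≃+* L) : L →+* L).comp (emb H hζ j hγ (k + n * c)) := by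
  induction n generalizing k with
  | zero =>
    ext y
    simp
  | succ n ih =>
    have h1 : x ^ (n + 1) = x.comp (x ^ n) := by rw [pow_succ']; rfl
    rw [h1, ← RingHom.comp_assoc, hc k, RingHom.comp_assoc, ih (k + c)]
    ext y
    have h2 : k + c + (n : ZMod p) * c = k + ((n + 1 : ℕ) : ZMod p) * c := by push_cast; ring
    simp only [RingHom.comp_apply, RingEquiv.coe_toRingHom, h2]
    rw [pow_succ']
    rfl

include hx hxδ hτL in
/-- **`Δ~`-equivariance of the `p` embeddings**: `emb k ∘ x = τL ∘ emb k` for every `k`. -/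
theorem emb_comp_eq (hg₀ : g₀ ≠ 0) {d : ℕ} (hd : Nat.Coprime d p) (hxd : x ^ d = 1)
    (hτLd : τL ^ d = 1) (k : ZMod p) :
    (emb H hζ j hγ k).comp x = (τL : L →+* L).comp (emb H hζ j hγ k) := by
  obtain ⟨c, hc⟩ := exists_translation H hζ j hγ hx hxδ τL hτL hg₀
  have h1 := emb_comp_pow H hζ j hγ hx hxδ τL hτL hg₀ hc d 0
  rw [hxd, hτLd, zero_add] at h1
  have h2 : emb H hζ j hγ 0 = emb H hζ j hγ ((d : ZMod p) * c) := by
    ext y
    have := congrArg (fun φ : F' →+* L => φ y) h1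
    simpa using this
  have h3 : (d : ZMod p) * c = 0 := (emb_injective H hζ j hγ hg₀ h2).symm
  have h4 : IsUnit (d : ZMod p) := by
    rw [← ZMod.coe_unitOfCoprime d hd]
    exact Units.isUnit _
  have hc0 : c = 0 := h4.mul_right_eq_zero.mp h3
  have := hc k
  rwa [hc0, add_zero] at this

include hx hxδ hτL in
/-- pointwise form: `emb k (x y) = τL (emb k y)`. -/
theorem emb_apply_eq (hg₀ : g₀ ≠ 0) {d : ℕ} (hd : Nat.Coprime d p) (hxd : x ^ d = 1)
    (hτLd : τL ^ d = 1) (k : ZMod p) (y : F') :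
    emb H hζ j hγ k (x y) = τL (emb H hζ j hγ k y) := by
  have := congrArg (fun φ : F' →+* L => φ y) (emb_comp_eq H hζ j hγ hx hxδ τL hτL hg₀ hd hxd hτLd k)
  simpa using this

include hx hxδ hτL in
/-- **invariance of pulled-back structures**: any `v : L → α` with `v ∘ τL = v` gives
`w k := v ∘ emb k` with `w k (x y) = w k y`. -/
theorem map_emb_apply_eq (hg₀ : g₀ ≠ 0) {d : ℕ} (hd : Nat.Coprime d p) (hxd : x ^ d = 1)
    (hτLd : τL ^ d = 1) {α : Type*} (v : L → α) (hv : ∀ z, v (τL z) = v z) (k : ZMod p) (y : F') :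
    v (emb H hζ j hγ k (x y)) = v (emb H hζ j hγ k y) := by
  rw [emb_apply_eq H hζ j hγ hx hxδ τL hτL hg₀ hd hxd hτLd k y, hv]

end Equivariance

end Fermat.Agent.GF.KCover.Field
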