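/-
GATE-F (S40) / node GF-KCOVER-INST, FIELD SIDE (L-a) of helper84 6058, file 4 (helper3).
Mathlib-only.  **Assembly: the tame generator as an automorphism + the package consumed by (I2).**

* `deckEquiv H hζ hp : F' ≃+* F'` — `δ` as an automorphism, `deckEquiv_pow_p : δ ^ p = 1`;
* **`exists_tame`** : for `σ` of order dividing `d` (prime to `p`) on `F₁` with `σ ζ = ζ^ω`,
  `σ g₀ = g₀^ω · h^p` there is `x : F' ≃+* F'` with
  `x (algebraMap a) = algebraMap (σ a)`, `x ^ d = 1`, `Commute x δ`;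
* `algebraMap_mem_fixedTame` : `σ a = a → algebraMap a ∈ fixedTame x`  (`F₀ ⊆ F'₀`);
* **`map_emb_normTame`** : for `τL`-invariant multiplicative `v` on `L`:
  `v (emb k (N_Δ~ y)) = v (emb k y) ^ d`  — the valuations `w_{i,k}` (and every pulled-back order)
  of `N_Δ~ y` are `d` times those of `y`, `d = #Δ~` a unit mod `p`  (= helper84 (I2)).
-/
import Mathlib
import Fermat.Agent.GF.KCover.Field.Split
import Fermat.Agent.GF.KCover.Field.Fix

set_option autoImplicit false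

noncomputable section

namespace Fermat.Agent.GF.KCover.Field

open Polynomial

variable {F₁ F' L : Type*} [Field F₁] [Field F'] [Algebra F₁ F'] [Field L]
variable {p : ℕ} {g₀ : F₁} (H : IsAdjoinRoot F' (X ^ p - C g₀ : F₁[X]))
variable {ζ : F₁} (hζ : IsPrimitiveRoot ζ p)

/-- `δ` as a ring automorphism. -/
def deckEquiv (hp : p ≠ 0) : F' ≃+* F' := equivOfPowEqOne (deck H hζ) hp (deck_pow_p H hζ)

@[simp] theorem deckEquiv_apply (hp : p ≠ 0) (y : F') : deckEquiv H hζ hp y = deck H hζ y := rfl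

theorem deckEquiv_pow_p (hp : p ≠ 0) : deckEquiv H hζ hp ^ p = 1 :=
  equivOfPowEqOne_pow_eq_one _ hp _

/-- **the tame generator**: an automorphism `x` of `F'` over `σ`, of order dividing `d`, commuting
with `δ`. -/
theorem exists_tame (hp : p ≠ 0) (hg₀ : g₀ ≠ 0) {σ : F₁ →+* F₁} {d : ℕ} (hd0 : d ≠ 0)
    (hσd : σ ^ d = 1) (hd : Nat.Coprime d p) {ω : ℕ} {h : F₁} (hσζ : σ ζ = ζ ^ ω)
    (hσ : σ g₀ = g₀ ^ ω * h ^ p) :
    ∃ x : F' ≃+* F', (∀ a, x (algebraMap F₁ F' a) = algebraMap F₁ F' (σ a)) ∧ x ^ d = 1 ∧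
      Commute x (deckEquiv H hζ hp) ∧
      IsOver (x : F' →+* F') σ ∧ Commute (x : F' →+* F') (deck H hζ) ∧
      (x : F' →+* F') ^ d = 1 := by
  obtain ⟨x, hx, hxd, hxδ⟩ := exists_lift_pow_eq_one H hζ hp hg₀ hσd hd hσζ hσ
  refine ⟨equivOfPowEqOne x hd0 hxd, fun a => hx a, equivOfPowEqOne_pow_eq_one x hd0 hxd, ?_, ?_,
    ?_, ?_⟩
  · ext y
    have := congrArg (fun φ : F' →+* F' => φ y) hxδ.eq
    exact this
  · exact hx
  · exact hxδ
  · exact hxd

theorem algebraMap_mem_fixedTame {x : F' ≃+* F'} {σ : F₁ →+* F₁}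
    (hx : ∀ a, x (algebraMap F₁ F' a) = algebraMap F₁ F' (σ a)) {a : F₁} (ha : σ a = a) :
    algebraMap F₁ F' a ∈ fixedTame x := by
  rw [mem_fixedTame, hx, ha]

section Norm

variable [NeZero p] (j : F₁ →+* L) {γ : L} (hγ : γ ^ p = j g₀)

/-- **(I2)**: a `τL`-invariant multiplicative function pulled back along `emb k` sends the tame norm
`N_Δ~ y` to the `d`-th power. -/
theorem map_emb_normTame (hg₀ : g₀ ≠ 0) {x : F' ≃+* F'} {τ : F₁ →+* F₁}
    (hx : IsOver (x : F' →+* F') τ) (hxδ : Commute (x : F' →+* F') (deck H hζ)) {d : ℕ}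
    (hd : Nat.Coprime d p) (hxd : (x : F' →+* F') ^ d = 1)
    (τL : L ≃+* L) (hτL : ∀ a, τL (j a) = j (τ a)) (hτLd : τL ^ d = 1)
    {M : Type*} [CommMonoid M] (v : L →* M) (hv : ∀ z, v (τL z) = v z) (k : ZMod p) (y : F') :
    v (emb H hζ j hγ k (normTame x d y)) = v (emb H hζ j hγ k y) ^ d := by
  have h := map_normTame x d (v.comp (emb H hζ j hγ k : F' →* L))
    (fun z => map_emb_apply_eq H hζ j hγ hx hxδ τL hτL hg₀ hd hxd hτLd v hv k z) y
  exact h

end Norm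

end Fermat.Agent.GF.KCover.Field
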