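/-
GATE-F (S44) / node GF-KCOVER-INST, FIELD SIDE (L-a) of helper84 6058, file 6 (helper3).
Mathlib-only.  **`Δ~` acts trivially on the residue fields of the `w_{i,k}`; `f = 1` for
`F'_{K'} / F'_{K0}`.**

1. (`TotRam`) `E = ⊕_{i<n} E₀ ϖ^i` with a valuation `v` on `E` such that the `E₀`-multiples of the
   powers `ϖ^i` (`i < n`) have pairwise distinct values (`K' = K0(ϖ)` totally ramified, `v` a Gauss
   valuation): every `v`-integral `b` is `≡` its `0`-th coordinate `a₀ ∈ E₀` modulo the maximal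
   ideal — `val_sub_coeff_zero_lt_one`, `exists_approx_of_totRam`  (`f(E/E₀) = 1`).
2. (`Inertial`) `τL` on a valued field `L`, preserving `v`: if `z` is `≡` a `τL`-fixed element
   modulo the maximal ideal then `v (τL z − z) < 1` — `val_map_sub_lt_one`; with `j : F₁ →+* L`
   of dense image (modulo the maximal ideal) and `f = 1` downstairs: `inertial_of_dense`.
3. (`Emb`) for the `p` embeddings `emb k : F' →+* L` of `Split.lean` and the tame generator `x`
   (`emb k ∘ x = τL ∘ emb k`): for `y` integral at `w_k := v ∘ emb k`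
   * `val_emb_map_sub_lt_one` : `v (emb k (x y − y)) < 1`   (residue action trivial),
   * `val_emb_pow_sub_lt_one` : the same for every power of `x`,
   * `avgTame x d y := d⁻¹ · ∑_{i<d} xⁱ y ∈ fixedTame x` and
     **`val_emb_sub_avgTame_lt_one`** : `v (emb k (y − avgTame x d y)) < 1`  — ONE element of
     `F'_{K0} = fixedTame x` approximating `y` at ALL the `w_{i,k}` at which `y` is integral
     (so the reduction maps of the `w_{i,k}` are determined by their restrictions to `F'_{K0}`).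
-/
import Mathlib
import Fermat.Agent.GF.KCover.Field.Tame

set_option autoImplicit false

noncomputable section

namespace Fermat.Agent.GF.KCover.Field.Inertia

open Polynomial Fermat.Agent.GF.KCover.Field

variable {Γ₀ : Type*} [LinearOrderedCommGroupWithZero Γ₀]

/-! ### 1. totally ramified ⟹ `f = 1` -/

section TotRam

variable {E₀ E : Type*} [Field E₀] [Field E] [Algebra E₀ E] (v : Valuation E Γ₀)

/-- distinct values of the `E₀ ϖ^i` ⟹ an integral element is congruent to its `0`-th coordinate. -/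
theorem val_sub_coeff_zero_lt_one {n : ℕ} (hn : 0 < n) (ϖ : E)
    (hdist : ∀ i i' : Fin n, ∀ a a' : E₀, a ≠ 0 → a' ≠ 0 →
      v (algebraMap E₀ E a * ϖ ^ (i : ℕ)) = v (algebraMap E₀ E a' * ϖ ^ (i' : ℕ)) → i = i')
    (a : Fin n → E₀) (hvb : v (∑ i, algebraMap E₀ E (a i) * ϖ ^ (i : ℕ)) ≤ 1) :
    v (∑ i, algebraMap E₀ E (a i) * ϖ ^ (i : ℕ) - algebraMap E₀ E (a ⟨0, hn⟩)) < 1 := by
  classical
  set t : Fin n → E := fun i => algebraMap E₀ E (a i) * ϖ ^ (i : ℕ) with ht
  have ht0 : ∀ i, a i = 0 → t i = 0 := by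
    intro i h
    simp [ht, h]
  have hta : ∀ i, t i ≠ 0 → a i ≠ 0 := fun i h h' => h (ht0 i h')
  obtain ⟨m, -, hm⟩ := Finset.exists_max_image Finset.univ (fun i => v (t i))
    ⟨⟨0, hn⟩, Finset.mem_univ _⟩
  -- all terms are integral
  have hle : ∀ i, v (t i) ≤ 1 := by
    by_cases hm0 : t m = 0
    · intro i
      have h := hm i (Finset.mem_univ _)
      rw [hm0, map_zero] at h
      exact h.trans zero_le_one
    · have hlt : ∀ i ∈ Finset.univ.erase m, v (t i) < v (t m) := by
        intro i hi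
        have hne : i ≠ m := (Finset.mem_erase.mp hi).1
        refine lt_of_le_of_ne (hm i (Finset.mem_univ _)) ?_
        intro heq
        have hti : t i ≠ 0 := by
          intro h0
          rw [h0, map_zero] at heq
          exact hm0 ((map_eq_zero v).mp heq.symm)
        exact hne (hdist i m (a i) (a m) (hta i hti) (hta m hm0) heq)
      have hsum : v (∑ i ∈ Finset.univ.erase m, t i) < v (t m) :=
        v.map_sum_lt ((map_ne_zero v).mpr hm0) hlt
      have hb : v (∑ i, t i) = v (t m) := by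
        rw [← Finset.add_sum_erase _ _ (Finset.mem_univ m)]
        exact v.map_add_eq_of_lt_left hsum
      intro i
      exact (hm i (Finset.mem_univ _)).trans (hb ▸ hvb)
  -- the terms of positive index are in the maximal ideal
  have hlt1 : ∀ i ∈ Finset.univ.erase (⟨0, hn⟩ : Fin n), v (t i) < 1 := by
    intro i hi
    have hne : i ≠ ⟨0, hn⟩ := (Finset.mem_erase.mp hi).1
    refine lt_of_le_of_ne (hle i) ?_
    intro heq
    have hti : t i ≠ 0 := by
      intro h0
      rw [h0, map_zero] at heq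
      exact zero_ne_one heq
    apply hne
    apply hdist i ⟨0, hn⟩ (a i) 1 (hta i hti) one_ne_zero
    show v (t i) = _
    rw [heq]
    simp
  have hsplit : ∑ i, t i - algebraMap E₀ E (a ⟨0, hn⟩) =
      ∑ i ∈ Finset.univ.erase (⟨0, hn⟩ : Fin n), t i := by
    rw [← Finset.add_sum_erase _ _ (Finset.mem_univ (⟨0, hn⟩ : Fin n))]
    simp [ht]
  rw [hsplit]
  exact v.map_sum_lt one_ne_zero hlt1

/-- **`f = 1`**: if moreover the `ϖ^i` span `E` over `E₀`, every integral element of `E` is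
congruent to an element of `E₀`. -/
theorem exists_approx_of_totRam {n : ℕ} (hn : 0 < n) (ϖ : E)
    (hdist : ∀ i i' : Fin n, ∀ a a' : E₀, a ≠ 0 → a' ≠ 0 →
      v (algebraMap E₀ E a * ϖ ^ (i : ℕ)) = v (algebraMap E₀ E a' * ϖ ^ (i' : ℕ)) → i = i')
    (hspan : ∀ b : E, ∃ a : Fin n → E₀, b = ∑ i, algebraMap E₀ E (a i) * ϖ ^ (i : ℕ))
    {b : E} (hb : v b ≤ 1) : ∃ a₀ : E₀, v (b - algebraMap E₀ E a₀) < 1 := by
  obtain ⟨a, rfl⟩ := hspan b
  exact ⟨a ⟨0, hn⟩, val_sub_coeff_zero_lt_one v hn ϖ hdist a hb⟩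

/-- the spanning hypothesis from a power basis. -/
theorem exists_sum_of_powerBasis (pb : PowerBasis E₀ E) (b : E) :
    ∃ a : Fin pb.dim → E₀, b = ∑ i, algebraMap E₀ E (a i) * pb.gen ^ (i : ℕ) := by
  refine ⟨fun i => pb.basis.repr b i, ?_⟩
  conv_lhs => rw [← pb.basis.sum_repr b]
  refine Finset.sum_congr rfl fun i _ => ?_
  rw [pb.basis_eq_pow, Algebra.smul_def]

end TotRam

/-! ### 2. inertial automorphisms -/

section Inertial

variable {L : Type*} [Field L] (v : Valuation L Γ₀)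

/-- `τL` preserves `v`, `z ≡ c` modulo the maximal ideal with `τL c = c` ⟹ `τL z ≡ z`. -/
theorem val_map_sub_lt_one (τL : L →+* L) (hτv : ∀ z, v (τL z) = v z) {z c : L} (hc : τL c = c)
    (hzc : v (z - c) < 1) : v (τL z - z) < 1 := by
  have h : τL z - z = τL (z - c) - (z - c) := by
    rw [map_sub, hc]
    ring
  rw [h]
  exact v.map_sub_lt (by rw [hτv]; exact hzc) hzc

/-- **`τL` is inertial** on `L` as soon as `j F₁` is dense in the integers of `L` modulo the
maximal ideal and the integral elements of `F₁` are congruent to `τ`-fixed ones (`f = 1`). -/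
theorem inertial_of_dense {F₁ : Type*} [Field F₁] (j : F₁ →+* L) (τ : F₁ →+* F₁) (τL : L →+* L)
    (hτL : ∀ a, τL (j a) = j (τ a)) (hτv : ∀ z, v (τL z) = v z)
    (hdense : ∀ z, v z ≤ 1 → ∃ b : F₁, v (z - j b) < 1)
    (hF : ∀ b : F₁, v (j b) ≤ 1 → ∃ a : F₁, τ a = a ∧ v (j (b - a)) < 1)
    {z : L} (hz : v z ≤ 1) : v (τL z - z) < 1 := by
  obtain ⟨b, hb⟩ := hdense z hz
  have hjb : v (j b) ≤ 1 := by
    have : j b = z - (z - j b) := by ring
    rw [this]
    exact v.map_sub_le hz hb.le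
  obtain ⟨a, ha, hba⟩ := hF b hjb
  refine val_map_sub_lt_one v τL hτv (c := j a) (by rw [hτL, ha]) ?_
  have : z - j a = (z - j b) + j (b - a) := by
    rw [map_sub]
    ring
  rw [this]
  exact v.map_add_lt hb hba

end Inertial

/-! ### 3. the residue action of `Δ~` on `F'` is trivial; trace average -/

section Emb

variable {F₁ F' L : Type*} [Field F₁] [Field F'] [Algebra F₁ F'] [Field L]
variable {p : ℕ} [NeZero p] {g₀ : F₁} (H : IsAdjoinRoot F' (X ^ p - C g₀ : F₁[X]))
variable {ζ : F₁} (hζ : IsPrimitiveRoot ζ p)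
variable (j : F₁ →+* L) {γ : L} (hγ : γ ^ p = j g₀)
variable {x : F' ≃+* F'} {τ : F₁ →+* F₁} (hx : IsOver (x : F' →+* F') τ)
  (hxδ : Commute (x : F' →+* F') (deck H hζ))
variable (τL : L ≃+* L) (hτL : ∀ a, τL (j a) = j (τ a))
variable (v : Valuation L Γ₀)

include hx hxδ hτL in
/-- **the residue action is trivial**: `x y ≡ y` modulo the maximal ideal of `w_k = v ∘ emb k`. -/
theorem val_emb_map_sub_lt_one (hg₀ : g₀ ≠ 0) {d : ℕ} (hd : Nat.Coprime d p)
    (hxd : (x : F' →+* F') ^ d = 1) (hτLd : τL ^ d = 1)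
    (hin : ∀ z, v z ≤ 1 → v (τL z - z) < 1) (k : ZMod p) {y : F'}
    (hy : v (emb H hζ j hγ k y) ≤ 1) : v (emb H hζ j hγ k (x y - y)) < 1 := by
  have h := emb_apply_eq H hζ j hγ hx hxδ τL hτL hg₀ hd hxd hτLd k y
  rw [map_sub]
  have h' : emb H hζ j hγ k (x y) = τL (emb H hζ j hγ k y) := h
  rw [h']
  exact hin _ hy

include hx hxδ hτL in
/-- invariance of the values under `x`. -/
theorem val_emb_map (hg₀ : g₀ ≠ 0) {d : ℕ} (hd : Nat.Coprime d p)
    (hxd : (x : F' →+* F') ^ d = 1) (hτLd : τL ^ d = 1) (hτv : ∀ z, v (τL z) = v z)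
    (k : ZMod p) (y : F') : v (emb H hζ j hγ k (x y)) = v (emb H hζ j hγ k y) := by
  have h : emb H hζ j hγ k (x y) = τL (emb H hζ j hγ k y) :=
    emb_apply_eq H hζ j hγ hx hxδ τL hτL hg₀ hd hxd hτLd k y
  rw [h, hτv]

include hx hxδ hτL in
/-- the same for all the powers of `x`. -/
theorem val_emb_pow_sub_lt_one (hg₀ : g₀ ≠ 0) {d : ℕ} (hd : Nat.Coprime d p)
    (hxd : (x : F' →+* F') ^ d = 1) (hτLd : τL ^ d = 1) (hτv : ∀ z, v (τL z) = v z)
    (hin : ∀ z, v z ≤ 1 → v (τL z - z) < 1) (k : ZMod p) {y : F'}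
    (hy : v (emb H hζ j hγ k y) ≤ 1) (i : ℕ) :
    v (emb H hζ j hγ k ((x ^ i) y - y)) < 1 := by
  induction i with
  | zero =>
    rw [pow_zero]
    show v (emb H hζ j hγ k (y - y)) < 1
    rw [sub_self, map_zero, map_zero]
    exact zero_lt_one
  | succ i ih =>
    have hsplit : (x ^ (i + 1)) y - y = (x ((x ^ i) y - y)) + (x y - y) := by
      rw [pow_succ', map_sub]
      show x ((x ^ i) y) - y = _
      ring
    rw [hsplit, map_add]
    refine v.map_add_lt ?_ (val_emb_map_sub_lt_one H hζ j hγ hx hxδ τL hτL v hg₀ hd hxd hτLd hin k hy)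
    rw [val_emb_map H hζ j hγ hx hxδ τL hτL v hg₀ hd hxd hτLd hτv k]
    exact ih

/-- the trace average `d⁻¹ ∑_{i<d} xⁱ y`. -/
def avgTame (x : F' ≃+* F') (d : ℕ) (y : F') : F' :=
  (d : F')⁻¹ * ∑ i ∈ Finset.range d, (x ^ i) y

theorem avgTame_mem_fixedTame {x : F' ≃+* F'} {d : ℕ} (hd : x ^ d = 1) (y : F') :
    avgTame x d y ∈ fixedTame x := by
  rw [mem_fixedTame, avgTame, map_mul, map_inv₀, map_natCast, map_sum]
  congr 1
  have h1 : ∀ i, x ((x ^ i) y) = (x ^ (i + 1)) y := fun i => by rw [pow_succ']; rfl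
  simp only [h1]
  cases d with
  | zero => simp
  | succ m =>
    rw [Finset.sum_range_succ, Finset.sum_range_succ' (fun i => (x ^ i) y), hd, pow_zero]

theorem avgTame_of_mem_fixedTame {x : F' ≃+* F'} {d : ℕ} (hd0 : (d : F') ≠ 0) {y : F'}
    (hy : y ∈ fixedTame x) : avgTame x d y = y := by
  rw [mem_fixedTame] at hy
  have h1 : ∀ i : ℕ, (x ^ i) y = y := by
    intro i
    induction i with
    | zero => rfl
    | succ i ih =>
      rw [pow_succ]
      show (x ^ i) (x y) = y
      rw [hy, ih]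
  rw [avgTame, Finset.sum_congr rfl (fun i _ => h1 i), Finset.sum_const, Finset.card_range,
    nsmul_eq_mul, ← mul_assoc, inv_mul_cancel₀ hd0, one_mul]

include hx hxδ hτL in
/-- **`f = 1` for `F' / fixedTame x`**: the trace average of an integral `y` is an element of the
fixed field `F'_{K0}` congruent to `y` modulo the maximal ideal of `w_k` — for EVERY `k` (and every
`L`) at which `y` is integral. -/
theorem val_emb_sub_avgTame_lt_one (hg₀ : g₀ ≠ 0) {d : ℕ} (hd : Nat.Coprime d p)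
    (hxd : (x : F' →+* F') ^ d = 1) (hτLd : τL ^ d = 1) (hτv : ∀ z, v (τL z) = v z)
    (hin : ∀ z, v z ≤ 1 → v (τL z - z) < 1) (hvd : v (d : L) = 1) (k : ZMod p) {y : F'}
    (hy : v (emb H hζ j hγ k y) ≤ 1) :
    v (emb H hζ j hγ k (y - avgTame x d y)) < 1 := by
  have hdL : (d : L) ≠ 0 := by
    intro h0
    rw [h0, map_zero] at hvd
    exact zero_ne_one hvd
  have hdF : (d : F') ≠ 0 := by
    intro h0
    apply hdL
    have := congrArg (emb H hζ j hγ k) h0
    rwa [map_natCast, map_zero] at this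
  have hsplit : y - avgTame x d y = (d : F')⁻¹ * ∑ i ∈ Finset.range d, (y - (x ^ i) y) := by
    rw [avgTame, Finset.sum_sub_distrib, Finset.sum_const, Finset.card_range, nsmul_eq_mul, mul_sub,
      ← mul_assoc, inv_mul_cancel₀ hdF, one_mul]
  rw [hsplit, map_mul, map_inv₀, map_natCast, map_mul, map_inv₀, hvd, inv_one, one_mul, map_sum]
  refine v.map_sum_lt one_ne_zero fun i _ => ?_
  have := val_emb_pow_sub_lt_one H hζ j hγ hx hxδ τL hτL v hg₀ hd hxd hτLd hτv hin k hy i
  rw [← Valuation.map_neg, ← map_neg, neg_sub] at this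
  exact this

end Emb

end Fermat.Agent.GF.KCover.Field.Inertia
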