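/-
GATE-F (S44) / node GF-KCOVER-INST, FIELD SIDE (L-a), file 10 (helper3).
Mathlib + `Field/{Split,Inertia,Compl,Disc}` (+ helper50 `NormDepth/PthPower` through `Compl`).
**THE PACKAGE: the `p` integer-valued valuations `w_k` of a split Kummer cover over a discretely
valued base, with the `δ`-shift, the constants, the `Δ~`-invariance and the trivial residue action.**

Base: `E₁` (= `F_{K'}`) with `v : Valuation E₁ Γ₀` discrete with uniformiser `ϖ` (`h : IsDisc v ϖ`).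
`Lc h := (absD h).Completion` (complete ultrametric normed field), `jc h : E₁ →+* Lc h`.

* `norm_jc`, `ordL h : Lc h → ℤ` (`‖z‖ = base ^ ordL h z`), `ordL_mul`, `ordL_jc = ordD`;
* `tauC h τ hτ : Lc h ≃+* Lc h` for `τ : E₁ ≃+* E₁` preserving `v`; `tauC_jc`, `norm_tauC`,
  `tauC_pow_eq_one`;
* **`exists_root`** : `g₀ = d ^ p * z`, `v (z − 1) ≤ v p ^ 3` ⟹ `∃ γ : Lc h, γ ^ p = jc h g₀`
  (= the NORMDEPTH / GF-ASFORM seam: ONE deep `K'`-rational representative per Gauss valuation);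
* cover `E' = E₁(G)` (`H : IsAdjoinRoot E' (X ^ p − C g₀)`), `γ` as above:
  `wv h H hζ hγ k : E' → ℤ`, `wv_mul`, `wv_one`, **`wv_deck`** (`w_k (δ y) = w_{k+1} y`),
  **`wv_algebraMap`** (`= ordD h` on `E₁`), **`wv_tame`** (`w_k (x y) = w_k y`),
  `norm_emb_tame_sub_lt_one` (`x y ≡ y` modulo the maximal ideal of `w_k`),
  `norm_emb_sub_avgTame_lt_one` (approximation by the `x`-fixed field).
-/
import Mathlib
import Fermat.Agent.GF.KCover.Field.Inertia
import Fermat.Agent.GF.KCover.Field.Compl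
import Fermat.Agent.GF.KCover.Field.Disc

set_option autoImplicit false

noncomputable section

namespace Fermat.Agent.GF.KCover.Field.Pack

open Polynomial UniformSpace Fermat.Agent.GF.KCover.Field Fermat.Agent.GF.KCover.Field.Disc
  Fermat.Agent.GF.KCover.Field.Compl

variable {E₁ : Type*} [Field E₁] {Γ₀ : Type*} [LinearOrderedCommGroupWithZero Γ₀]
variable {v : Valuation E₁ Γ₀} {ϖ : E₁} (h : IsDisc v ϖ)

/-- the completion of the discretely valued base. -/
abbrev Lc : Type _ := (absD h).Completion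

/-- the embedding of the base in its completion. -/
def jc : E₁ →+* Lc h :=
  (Completion.coeRingHom : WithAbs (absD h) →+* Lc h).comp
    ((WithAbs.equiv (absD h)).symm : E₁ →+* WithAbs (absD h))

theorem jc_apply (a : E₁) : jc h a = ((WithAbs.toAbs (absD h) a : WithAbs (absD h)) : Lc h) := rfl

theorem norm_jc (a : E₁) : ‖jc h a‖ = absD h a := by
  rw [jc_apply, Completion.norm_coe]
  rfl

theorem norm_jc_le_one_iff {a : E₁} : ‖jc h a‖ ≤ 1 ↔ v a ≤ 1 := by
  rw [norm_jc, absD_le_one_iff]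

theorem norm_jc_lt_one_iff {a : E₁} : ‖jc h a‖ < 1 ↔ v a < 1 := by
  rw [norm_jc, absD_lt_one_iff]

/-! ### the integer-valued order on the completion -/

theorem exists_zpow_norm {z : Lc h} (hz : z ≠ 0) : ∃ n : ℤ, ‖z‖ = base ^ n := by
  obtain ⟨b, hb0, hb⟩ := Compl.exists_norm_eq (E := WithAbs (absD h)) hz
  refine ⟨ordD h (WithAbs.ofAbs b), ?_⟩
  rw [hb, WithAbs.norm_eq_apply_ofAbs]
  exact absD_of_ne h (by simpa using hb0)

open Classical in
/-- the order of an element of the completion. -/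
def ordL (z : Lc h) : ℤ := if hz : z = 0 then 0 else (exists_zpow_norm h hz).choose

theorem norm_eq_zpow {z : Lc h} (hz : z ≠ 0) : ‖z‖ = base ^ ordL h z := by
  rw [ordL, dif_neg hz]
  exact (exists_zpow_norm h hz).choose_spec

theorem base_zpow_inj {m n : ℤ} (hmn : base ^ m = base ^ n) : m = n :=
  le_antisymm (base_zpow_le_iff.mp hmn.ge) (base_zpow_le_iff.mp hmn.le)

theorem ordL_eq {z : Lc h} (hz : z ≠ 0) {n : ℤ} (hn : ‖z‖ = base ^ n) : ordL h z = n :=
  base_zpow_inj ((norm_eq_zpow h hz).symm.trans hn)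

theorem ordL_mul {z w : Lc h} (hz : z ≠ 0) (hw : w ≠ 0) :
    ordL h (z * w) = ordL h z + ordL h w := by
  apply ordL_eq h (mul_ne_zero hz hw)
  rw [norm_mul, norm_eq_zpow h hz, norm_eq_zpow h hw, zpow_add₀ base_pos.ne']

theorem ordL_one : ordL h (1 : Lc h) = 0 := by
  apply ordL_eq h one_ne_zero
  rw [norm_one, zpow_zero]

theorem ordL_of_norm_eq {z w : Lc h} (hz : z ≠ 0) (hzw : ‖z‖ = ‖w‖) : ordL h z = ordL h w := by
  have hw : w ≠ 0 := by
    rw [← norm_pos_iff, ← hzw]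
    exact norm_pos_iff.mpr hz
  exact ordL_eq h hz (hzw.trans (norm_eq_zpow h hw))

theorem ordL_jc {a : E₁} (ha : a ≠ 0) : ordL h (jc h a) = ordD h a := by
  apply ordL_eq h ((map_ne_zero (jc h)).mpr ha)
  rw [norm_jc, absD_of_ne h ha]

theorem norm_le_one_iff {z : Lc h} (hz : z ≠ 0) : ‖z‖ ≤ 1 ↔ 0 ≤ ordL h z := by
  rw [norm_eq_zpow h hz, ← zpow_zero base, base_zpow_le_iff]

/-! ### automorphisms of the base -/

section Tau

variable (τ : E₁ ≃+* E₁) (hτ : ∀ a, v (τ a) = v a)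

/-- the extension of a `v`-preserving automorphism to the completion. -/
def tauC : Lc h ≃+* Lc h :=
  Compl.extEquiv (WithAbs.congr (absD h) (absD h) τ) (fun a => by
    rw [WithAbs.norm_eq_apply_ofAbs, WithAbs.norm_eq_apply_ofAbs]
    exact absD_map_of_v h hτ _)

theorem tauC_jc (a : E₁) : tauC h τ hτ (jc h a) = jc h (τ a) := by
  rw [jc_apply, tauC, Compl.extEquiv_coe]
  rfl

theorem norm_tauC (z : Lc h) : ‖tauC h τ hτ z‖ = ‖z‖ := Compl.norm_extEquiv _ _ z

theorem tauC_pow_eq_one {d : ℕ} (hd : τ ^ d = 1) : tauC h τ hτ ^ d = 1 := by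
  apply Compl.extEquiv_pow_eq_one
  ext a
  have h1 : ∀ n : ℕ, ∀ a : WithAbs (absD h),
      ((WithAbs.congr (absD h) (absD h) τ) ^ n) a = WithAbs.toAbs (absD h) ((τ ^ n) a.ofAbs) := by
    intro n
    induction n with
    | zero => intro a; rfl
    | succ n ih =>
      intro a
      rw [pow_succ, pow_succ]
      show ((WithAbs.congr (absD h) (absD h) τ) ^ n) ((WithAbs.congr (absD h) (absD h) τ) a) = _
      rw [ih]
      rfl
  rw [h1, hd]
  rfl

/-- `τC` is inertial when the integral elements of the base are congruent to `τ`-fixed ones. -/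
theorem tauC_inertial (hF : ∀ b : E₁, v b ≤ 1 → ∃ a : E₁, τ a = a ∧ v (b - a) < 1)
    {z : Lc h} (hz : ‖z‖ ≤ 1) : ‖tauC h τ hτ z - z‖ < 1 := by
  refine Compl.inertial _ _ (fun b hb => ?_) hz
  rw [WithAbs.norm_eq_apply_ofAbs, absD_le_one_iff] at hb
  obtain ⟨a, ha, hba⟩ := hF _ hb
  refine ⟨WithAbs.toAbs (absD h) a, ?_, ?_⟩
  · show WithAbs.toAbs (absD h) (τ a) = WithAbs.toAbs (absD h) a
    rw [ha]
  · rw [WithAbs.norm_eq_apply_ofAbs, WithAbs.ofAbs_sub, WithAbs.ofAbs_toAbs, absD_lt_one_iff]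
    exact hba

end Tau

/-! ### the `p`-th root of `g₀` -/

/-- **the seam with NORMDEPTH / GF-ASFORM**: one deep `K'`-rational representative of `g₀` gives a
`p`-th root of `g₀` in the completion. -/
theorem exists_root {p : ℕ} (hp0 : (p : E₁) ≠ 0) (hvp : v (p : E₁) < 1) {g₀ d z : E₁}
    (hg : g₀ = d ^ p * z) (hz : v (z - 1) ≤ v (p : E₁) ^ 3) :
    ∃ γ : Lc h, γ ^ p = jc h g₀ := by
  have hcast : ((p : WithAbs (absD h))) = WithAbs.toAbs (absD h) (p : E₁) :=
    (map_natCast ((WithAbs.equiv (absD h)).symm : E₁ →+* WithAbs (absD h)) p).symm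
  have hnorm : ‖(p : WithAbs (absD h))‖ = absD h (p : E₁) := by
    rw [hcast]
    rfl
  have hp0' : (p : WithAbs (absD h)) ≠ 0 := by
    rw [hcast]
    simpa using hp0
  have hκ : ‖(p : WithAbs (absD h))‖ < 1 := by
    rw [hnorm, absD_lt_one_iff]
    exact hvp
  have hz' : ‖(WithAbs.toAbs (absD h) z : WithAbs (absD h)) - 1‖ ≤
      ‖(p : WithAbs (absD h))‖ ^ 3 := by
    rw [hnorm, ← map_pow]
    show absD h (z - 1) ≤ _
    rw [absD_le_iff h (pow_ne_zero 3 hp0), map_pow]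
    exact hz
  obtain ⟨γ, hγ⟩ := Compl.exists_root_of_deep_rep (E := WithAbs (absD h)) hp0' hκ
    (g₀ := WithAbs.toAbs (absD h) g₀) (d := WithAbs.toAbs (absD h) d)
    (z := WithAbs.toAbs (absD h) z) (by rw [hg]; rfl) hz'
  exact ⟨γ, hγ⟩

/-! ### the valuations `w_k` of the cover -/

section Cover

variable {E' : Type*} [Field E'] [Algebra E₁ E'] {p : ℕ} [NeZero p] {g₀ : E₁}
  (H : IsAdjoinRoot E' (X ^ p - C g₀ : E₁[X])) {ζ : E₁} (hζ : IsPrimitiveRoot ζ p)
  {γ : Lc h} (hγ : γ ^ p = jc h g₀)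

/-- **the `p` valuations of the cover above `v`**, integer valued. -/
def wv (k : ZMod p) (y : E') : ℤ := ordL h (emb H hζ (jc h) hγ k y)

theorem wv_mul (k : ZMod p) {y z : E'} (hy : y ≠ 0) (hz : z ≠ 0) :
    wv h H hζ hγ k (y * z) = wv h H hζ hγ k y + wv h H hζ hγ k z := by
  unfold wv
  rw [map_mul]
  exact ordL_mul h ((_root_.map_ne_zero _).mpr hy) ((_root_.map_ne_zero _).mpr hz)

theorem wv_one (k : ZMod p) : wv h H hζ hγ k 1 = 0 := by
  unfold wv
  rw [map_one]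
  exact ordL_one h

/-- **the `δ`-shift** (`CoverFrame.w₁_δ`, `w₂_δ`). -/
theorem wv_deck (k : ZMod p) (y : E') :
    wv h H hζ hγ k (deck H hζ y) = wv h H hζ hγ (k + 1) y := by
  unfold wv
  rw [emb_deck_apply]

/-- **on the base the `w_k` are the order of `v`** (`CoverFrame.w₁_const`, `w₂_const`). -/
theorem wv_algebraMap (k : ZMod p) {a : E₁} (ha : a ≠ 0) :
    wv h H hζ hγ k (algebraMap E₁ E' a) = ordD h a := by
  unfold wv
  rw [emb_algebraMap]
  exact ordL_jc h ha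

/-- integrality at `w_k` in terms of the order. -/
theorem norm_emb_le_one_iff (k : ZMod p) {y : E'} (hy : y ≠ 0) :
    ‖emb H hζ (jc h) hγ k y‖ ≤ 1 ↔ 0 ≤ wv h H hζ hγ k y :=
  norm_le_one_iff h ((_root_.map_ne_zero _).mpr hy)

section Tame

variable {x : E' ≃+* E'} (τ : E₁ ≃+* E₁) (hτ : ∀ a, v (τ a) = v a)
  (hx : IsOver (x : E' →+* E') (τ : E₁ →+* E₁))
  (hxδ : Commute (x : E' →+* E') (deck H hζ))

include hx hxδ in
/-- the fundamental equivariance with the extended automorphism. -/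
theorem emb_tame (hg₀ : g₀ ≠ 0) {d : ℕ} (hd : Nat.Coprime d p)
    (hxd : (x : E' →+* E') ^ d = 1) (hτd : τ ^ d = 1) (k : ZMod p) (y : E') :
    emb H hζ (jc h) hγ k (x y) = tauC h τ hτ (emb H hζ (jc h) hγ k y) :=
  emb_apply_eq H hζ (jc h) hγ hx hxδ (tauC h τ hτ) (fun a => tauC_jc h τ hτ a) hg₀ hd hxd
    (tauC_pow_eq_one h τ hτ hτd) k y

include hx hxδ hτ in
/-- **`Δ~`-invariance of the `w_k`** (`i1`, `i2` of `nl_of_fixed`). -/
theorem wv_tame (hg₀ : g₀ ≠ 0) {d : ℕ} (hd : Nat.Coprime d p)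
    (hxd : (x : E' →+* E') ^ d = 1) (hτd : τ ^ d = 1) (k : ZMod p) {y : E'} (hy : y ≠ 0) :
    wv h H hζ hγ k (x y) = wv h H hζ hγ k y := by
  unfold wv
  rw [emb_tame h H hζ hγ τ hτ hx hxδ hg₀ hd hxd hτd k y]
  exact ordL_of_norm_eq h
    ((_root_.map_ne_zero _).mpr ((_root_.map_ne_zero _).mpr hy)) (norm_tauC h τ hτ _)

include hx hxδ hτ in
/-- **the residue action of `Δ~` is trivial**: `x y ≡ y` modulo the maximal ideal of `w_k`. -/
theorem norm_emb_tame_sub_lt_one (hg₀ : g₀ ≠ 0) {d : ℕ} (hd : Nat.Coprime d p)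
    (hxd : (x : E' →+* E') ^ d = 1) (hτd : τ ^ d = 1)
    (hF : ∀ b : E₁, v b ≤ 1 → ∃ a : E₁, τ a = a ∧ v (b - a) < 1) (k : ZMod p) {y : E'}
    (hy : ‖emb H hζ (jc h) hγ k y‖ ≤ 1) : ‖emb H hζ (jc h) hγ k (x y - y)‖ < 1 := by
  rw [map_sub, emb_tame h H hζ hγ τ hτ hx hxδ hg₀ hd hxd hτd k y]
  exact tauC_inertial h τ hτ hF hy

include hx hxδ hτ in
/-- **approximation by the fixed field of `Δ~`** (`f = 1`): the trace average of an integral `y`
is `x`-fixed and congruent to `y` modulo the maximal ideal of EVERY `w_k` at which `y` is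
integral. -/
theorem norm_emb_sub_avgTame_lt_one (hg₀ : g₀ ≠ 0) {d : ℕ} (hd : Nat.Coprime d p)
    (hxd : (x : E' →+* E') ^ d = 1) (hτd : τ ^ d = 1)
    (hF : ∀ b : E₁, v b ≤ 1 → ∃ a : E₁, τ a = a ∧ v (b - a) < 1) (hvd : v (d : E₁) = 1)
    (k : ZMod p) {y : E'} (hy : ‖emb H hζ (jc h) hγ k y‖ ≤ 1) :
    ‖emb H hζ (jc h) hγ k (y - Inertia.avgTame x d y)‖ < 1 := by
  have hval : ∀ z : Lc h, (NormedField.valuation (K := Lc h) z : NNReal) ≤ 1 ↔ ‖z‖ ≤ 1 := by
    intro z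
    rw [← NNReal.coe_le_coe]
    rfl
  have hval' : ∀ z : Lc h, (NormedField.valuation (K := Lc h) z : NNReal) < 1 ↔ ‖z‖ < 1 := by
    intro z
    rw [← NNReal.coe_lt_coe]
    rfl
  have hdL : NormedField.valuation (K := Lc h) ((d : ℕ) : Lc h) = 1 := by
    have h1 : ((d : ℕ) : Lc h) = jc h (d : E₁) := (map_natCast (jc h) d).symm
    have h2 : ‖jc h (d : E₁)‖ = 1 := by
      rw [norm_jc]
      have := (absD_eq_iff h (a := (d : E₁)) (b := 1)).mpr (by rw [hvd, map_one])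
      rw [this, map_one]
    rw [h1]
    apply NNReal.coe_injective
    exact h2
  have key := Inertia.val_emb_sub_avgTame_lt_one H hζ (jc h) hγ hx hxδ (tauC h τ hτ)
    (fun a => tauC_jc h τ hτ a) (NormedField.valuation (K := Lc h)) hg₀ hd hxd
    (tauC_pow_eq_one h τ hτ hτd)
    (fun z => by
      apply NNReal.coe_injective
      exact norm_tauC h τ hτ z)
    (fun z hz => (hval' _).mpr (tauC_inertial h τ hτ hF ((hval z).mp hz)))
    hdL k ((hval _).mpr hy)
  exact (hval' _).mp key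

end Tame

end Cover

end Fermat.Agent.GF.KCover.Field.Pack
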