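/-
GATE-F (S44) / node GF-KCOVER-INST, FIELD SIDE (L-a) of helper84 6058, file 5 (helper3).
Mathlib-only.  **Galois descent of the Kummer cover: the `Γ`-fixed field of `F' = F₁(G)` is
`F₁^Γ(G)`.**

`H : IsAdjoinRoot F' (X ^ p - C g₀ : F₁[X])` (`p ≠ 0`), a group `Γ` acting on `F₁` and on `F'` by ring
automorphisms, compatibly with `algebraMap F₁ F'`, and FIXING the Kummer generator `G = H.root`
(in the gate: `Γ = I' = Gal(ℚ̄/K')` acting through helper31's `KummerExt.lift`, which fixes `G`).

* `fixedAlgebra` : `Algebra (FixedPoints.subfield Γ F₁) (FixedPoints.subfield Γ F')`;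
* `smul_map` : `ρ • H.map q = H.map (q.map ρ)` (semilinearity of the polynomial presentation);
* `exists_fixed_poly` : a `Γ`-fixed `y : F'` is `H.map q` for a polynomial `q` with `Γ`-fixed
  coefficients (uniqueness of the reduced representative);
* **`fixedIsAdjoinRoot`** : `IsAdjoinRoot (FixedPoints.subfield Γ F') (X ^ p - C ⟨g₀, _⟩)` over
  `FixedPoints.subfield Γ F₁`, with root `⟨G, _⟩` (`fixedIsAdjoinRoot_root`).

So everything in `Lift / Split / Fix / Tame` (stated for an arbitrary `IsAdjoinRoot`) applies to the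
pair `(F_{K'}, F'_{K'}) = (F₁^Γ, F'^Γ)` of `K'`-rational functions, whose units are the
`fixedUnits Γ F'` of `GF/KCover/Frame`.
-/
import Mathlib

set_option autoImplicit false

noncomputable section

namespace Fermat.Agent.GF.KCover.Field.Descent

open Polynomial

variable {F₁ F' : Type*} [Field F₁] [Field F'] [Algebra F₁ F']
variable {p : ℕ} {g₀ : F₁} (H : IsAdjoinRoot F' (X ^ p - C g₀ : F₁[X]))
variable (Γ : Type*) [Group Γ] [MulSemiringAction Γ F₁] [MulSemiringAction Γ F']

/-- the compatibility of the two actions -/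
def Compat : Prop := ∀ (ρ : Γ) (a : F₁), ρ • algebraMap F₁ F' a = algebraMap F₁ F' (ρ • a)

variable {Γ}

/-- `algebraMap` restricted to the fixed fields. -/
def fixedMap (hc : Compat (F₁ := F₁) (F' := F') Γ) :
    FixedPoints.subfield Γ F₁ →+* FixedPoints.subfield Γ F' :=
  ((algebraMap F₁ F').comp (FixedPoints.subfield Γ F₁).subtype).codRestrict
    (FixedPoints.subfield Γ F') (fun a ρ => by
      show ρ • algebraMap F₁ F' (a : F₁) = algebraMap F₁ F' (a : F₁)
      rw [hc ρ, a.2 ρ])

/-- the algebra structure of `F'^Γ` over `F₁^Γ`. -/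
@[reducible] def fixedAlgebra (hc : Compat (F₁ := F₁) (F' := F') Γ) :
    Algebra (FixedPoints.subfield Γ F₁) (FixedPoints.subfield Γ F') :=
  (fixedMap hc).toAlgebra

theorem coe_fixedMap (hc : Compat (F₁ := F₁) (F' := F') Γ) (a : FixedPoints.subfield Γ F₁) :
    ((fixedMap hc a : FixedPoints.subfield Γ F') : F') = algebraMap F₁ F' (a : F₁) := rfl

include H in
theorem root_pow' : H.root ^ p = algebraMap F₁ F' g₀ := by
  have h := H.aeval_root_self
  rw [map_sub, map_pow, aeval_X, aeval_C, sub_eq_zero] at h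
  exact h

include H in
/-- `g₀` is `Γ`-fixed. -/
theorem smul_g₀ (hc : Compat (F₁ := F₁) (F' := F') Γ) (hroot : ∀ ρ : Γ, ρ • H.root = H.root)
    (ρ : Γ) : ρ • g₀ = g₀ := by
  apply (algebraMap F₁ F').injective
  rw [← hc ρ, ← root_pow' H, smul_pow', hroot ρ]

include H in
/-- semilinearity of the presentation: `ρ • H.map q = H.map (q.map ρ)`. -/
theorem smul_map (hc : Compat (F₁ := F₁) (F' := F') Γ) (hroot : ∀ ρ : Γ, ρ • H.root = H.root)
    (ρ : Γ) (q : F₁[X]) :
    ρ • H.map q = H.map (q.map (MulSemiringAction.toRingHom Γ F₁ ρ)) := by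
  rw [← H.aeval_root_eq_map]
  show MulSemiringAction.toRingHom Γ F' ρ (eval₂ (algebraMap F₁ F') H.root q) =
    eval₂ (algebraMap F₁ F') H.root (q.map (MulSemiringAction.toRingHom Γ F₁ ρ))
  rw [hom_eval₂, eval₂_map]
  have h1 : (MulSemiringAction.toRingHom Γ F' ρ).comp (algebraMap F₁ F') =
      (algebraMap F₁ F').comp (MulSemiringAction.toRingHom Γ F₁ ρ) := by
    ext a
    exact hc ρ a
  have h2 : MulSemiringAction.toRingHom Γ F' ρ H.root = H.root := hroot ρ
  rw [h1, h2]

include H in
/-- **a `Γ`-fixed element has a presentation with `Γ`-fixed coefficients.** -/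
theorem exists_fixed_poly (hp : p ≠ 0) (hc : Compat (F₁ := F₁) (F' := F') Γ)
    (hroot : ∀ ρ : Γ, ρ • H.root = H.root) {y : F'} (hy : ∀ ρ : Γ, ρ • y = y) :
    ∃ q : (FixedPoints.subfield Γ F₁)[X],
      H.map (q.map (FixedPoints.subfield Γ F₁).subtype) = y := by
  have hmonic : (X ^ p - C g₀ : F₁[X]).Monic := monic_X_pow_sub_C g₀ hp
  let H' : IsAdjoinRootMonic F' (X ^ p - C g₀ : F₁[X]) := { H with monic := hmonic }
  set q₀ : F₁[X] := H'.modByMonicHom y with hq₀
  have hq₀y : H.map q₀ = y := H'.map_modByMonicHom y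
  have hdeg : q₀.degree < (X ^ p - C g₀ : F₁[X]).degree := by
    have : q₀ = q₀ %ₘ (X ^ p - C g₀ : F₁[X]) := by
      have h := H'.modByMonicHom_map q₀
      rw [show H'.map q₀ = y from hq₀y] at h
      exact h
    rw [this]
    exact degree_modByMonic_lt _ hmonic
  -- every coefficient is fixed
  have hfix : ∀ ρ : Γ, q₀.map (MulSemiringAction.toRingHom Γ F₁ ρ) = q₀ := by
    intro ρ
    have h1 : H.map (q₀.map (MulSemiringAction.toRingHom Γ F₁ ρ)) = y := by
      rw [← smul_map H hc hroot, hq₀y, hy ρ]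
    have h2 := H'.modByMonicHom_map (q₀.map (MulSemiringAction.toRingHom Γ F₁ ρ))
    rw [show H'.map (q₀.map (MulSemiringAction.toRingHom Γ F₁ ρ)) = y from h1] at h2
    have h3 : (q₀.map (MulSemiringAction.toRingHom Γ F₁ ρ)).degree <
        (X ^ p - C g₀ : F₁[X]).degree :=
      lt_of_le_of_lt degree_map_le hdeg
    rw [(modByMonic_eq_self_iff hmonic).mpr h3] at h2
    exact h2.symm
  have hcoeff : ∀ n : ℕ, q₀.coeff n ∈ FixedPoints.subfield Γ F₁ := by
    intro n ρ
    have := congrArg (fun r : F₁[X] => r.coeff n) (hfix ρ)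
    simpa [coeff_map] using this
  have hlift : q₀ ∈ lifts (FixedPoints.subfield Γ F₁).subtype := by
    rw [lifts_iff_coeff_lifts]
    intro n
    exact ⟨⟨q₀.coeff n, hcoeff n⟩, rfl⟩
  obtain ⟨q, hq⟩ := (mem_lifts _).mp hlift
  exact ⟨q, by rw [hq, hq₀y]⟩

/-- the Kummer generator in the fixed field. -/
def fixedRoot (hroot : ∀ ρ : Γ, ρ • H.root = H.root) : FixedPoints.subfield Γ F' :=
  ⟨H.root, hroot⟩

/-- `g₀` in the fixed field. -/
def fixedG₀ (hc : Compat (F₁ := F₁) (F' := F') Γ) (hroot : ∀ ρ : Γ, ρ • H.root = H.root) :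
    FixedPoints.subfield Γ F₁ :=
  ⟨g₀, smul_g₀ H hc hroot⟩

/-- coercion of the evaluation at `G` in the fixed field. -/
theorem coe_aeval_fixedRoot (hc : Compat (F₁ := F₁) (F' := F') Γ)
    (hroot : ∀ ρ : Γ, ρ • H.root = H.root) (q : (FixedPoints.subfield Γ F₁)[X]) :
    letI := fixedAlgebra hc
    ((aeval (fixedRoot H hroot) q : FixedPoints.subfield Γ F') : F') =
      H.map (q.map (FixedPoints.subfield Γ F₁).subtype) := by
  let _ := fixedAlgebra hc
  rw [← H.aeval_root_eq_map]
  show (FixedPoints.subfield Γ F').subtype (eval₂ (fixedMap hc) (fixedRoot H hroot) q) =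
    eval₂ (algebraMap F₁ F') H.root (q.map (FixedPoints.subfield Γ F₁).subtype)
  rw [hom_eval₂, eval₂_map]
  rfl

/-- **Galois descent of the Kummer cover.** -/
def fixedIsAdjoinRoot (hp : p ≠ 0) (hc : Compat (F₁ := F₁) (F' := F') Γ)
    (hroot : ∀ ρ : Γ, ρ • H.root = H.root) :
    letI := fixedAlgebra hc
    IsAdjoinRoot (FixedPoints.subfield Γ F')
      (X ^ p - C (fixedG₀ H hc hroot) : (FixedPoints.subfield Γ F₁)[X]) :=
  letI := fixedAlgebra hc
  { map := aeval (fixedRoot H hroot)
    map_surjective := by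
      intro y
      obtain ⟨q, hq⟩ := exists_fixed_poly H hp hc hroot (y := (y : F')) y.2
      refine ⟨q, ?_⟩
      apply Subtype.ext
      rw [coe_aeval_fixedRoot H hc hroot q, hq]
    ker_map := by
      have hmonic : (X ^ p - C (fixedG₀ H hc hroot) : (FixedPoints.subfield Γ F₁)[X]).Monic :=
        monic_X_pow_sub_C _ hp
      have hmap : (X ^ p - C (fixedG₀ H hc hroot) : (FixedPoints.subfield Γ F₁)[X]).map
          (FixedPoints.subfield Γ F₁).subtype = (X ^ p - C g₀ : F₁[X]) := by
        simp [fixedG₀]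
      ext q
      rw [RingHom.mem_ker, Ideal.mem_span_singleton]
      constructor
      · intro h
        have h1 : H.map (q.map (FixedPoints.subfield Γ F₁).subtype) = 0 := by
          rw [← coe_aeval_fixedRoot H hc hroot q]
          have : (aeval (fixedRoot H hroot) q : FixedPoints.subfield Γ F') = 0 := h
          rw [this]
          rfl
        rw [H.map_eq_zero_iff, ← hmap] at h1
        -- divisibility descends along the injective `map`
        rw [← modByMonic_eq_zero_iff_dvd hmonic]
        apply map_injective _ (FixedPoints.subfield Γ F₁).subtype_injective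
        rw [map_modByMonic _ hmonic, Polynomial.map_zero,
          modByMonic_eq_zero_iff_dvd (hmonic.map _)]
        exact h1
      · rintro ⟨r, rfl⟩
        show aeval (fixedRoot H hroot) _ = 0
        rw [map_mul]
        have : aeval (fixedRoot H hroot)
            (X ^ p - C (fixedG₀ H hc hroot) : (FixedPoints.subfield Γ F₁)[X]) = 0 := by
          apply Subtype.ext
          rw [coe_aeval_fixedRoot H hc hroot, hmap, H.map_self]
          rfl
        rw [this, zero_mul] }

theorem fixedIsAdjoinRoot_root (hp : p ≠ 0) (hc : Compat (F₁ := F₁) (F' := F') Γ)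
    (hroot : ∀ ρ : Γ, ρ • H.root = H.root) :
    letI := fixedAlgebra hc
    (fixedIsAdjoinRoot H hp hc hroot).root = fixedRoot H hroot := by
  let _ := fixedAlgebra hc
  show aeval (fixedRoot H hroot) X = fixedRoot H hroot
  rw [aeval_X]

end Fermat.Agent.GF.KCover.Field.Descent
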