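/-
GATE-F (S44) / node GF-KCOVER-INST-FIELD-MOD, file 1 (helper3).
**helper31's `T.WData` (the valuation fields of the concrete cover frame) + the dictionary `hvK`,
from the abstract field side (`Field/Pack`) on the `K'`-rational pair `(F₁, E') = (F_N^Γ, T.Fp^Γ)`.**

`T : TameDatum N p A ζ`, `Γ = tameGroup A ζ = I'`, `V₁ V₂ : GalVal N A` (the two Gauss valuations;
in the gate `galVal1 N A`, `galVal2 N A h`).  INPUTS (hypothesis form):
* `hint_i` : `V_i.W.valuation` is `ℤ`-valued in `(1 − ζ)`-units on the `Γ`-fixed functions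
  (= helper56 `Int.exists_zpow_valuation_of_fixed₁/₂` VERBATIM);
* `γ_i : Lc h_i` with `γ_i ^ p = g₀` — supplied by `exists_root₁/₂` from ONE deep `Γ`-fixed
  representative `g₀ = d ^ p * z`, `V_i.W.valuation (z − 1) ≤ V_i.W.valuation p ^ 3` (GF-ASFORM).

OUTPUT: `wData … : T.WData` with `w_i k y = Pack.wv h_i H' hζ' hγ_i k ⟨y, _⟩` DEFINITIONALLY (so all of
`Field/Pack` — `wv_tame`, trivial residue action, approximation by the fixed field — applies to it),
and **`hvK`** : `A.valuation c₀ = A.valuation (1 − ζ) ^ (wData …).vK c` for `K'`-rational constants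
(the binder `hvK` of `TameDatum.econst` VERBATIM).
-/
import Fermat.Agent.GF.F2Asm.Inst
import Fermat.Agent.GF.F2Asm.PeuBridge
import Fermat.Agent.GF.KCover.Field.Pack
import Fermat.Agent.GF.KCover.Field.Descent
import Fermat.Agent.GK.SS.GalSide
import Fermat.Agent.GL.Local.InertiaField

set_option autoImplicit false
set_option linter.unusedSectionVars false

noncomputable section

namespace Fermat.Agent.GF.KCover.Field.WDataOf

open AlgebraicCurve ModularCurve Polynomial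
open Fermat.Agent.GJ.KumGroup Fermat.Agent.GJ.Kum.KumType Fermat.Agent.GK.SS
open Fermat.Agent.GF.F2Asm.KummerExt Fermat.Agent.GF.F2Asm.Inst Fermat.Agent.GF.KCover
open Fermat.Agent.GF.Peu Fermat.Agent.GF.F2Asm.PeuBridge
open Fermat.Agent.GF.KCover.Field Fermat.Agent.GF.KCover.Field.Disc

local notation "GQ" => (AlgebraicClosure ℚ ≃ₐ[ℚ] AlgebraicClosure ℚ)

variable {N : ℕ} [NeZero N] {p : ℕ} [hpF : Fact p.Prime] {A : ValuationSubring Kb} {ζ : Kb}

/-- the coefficientwise action of `Γ = I'` on `F_N`. -/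
@[reducible] def actFK (N : ℕ) [NeZero N] (A : ValuationSubring Kb) (ζ : Kb) :
    MulSemiringAction (tameGroup A ζ) (FK N) :=
  MulSemiringAction.compHom (FK N)
    ((arithmeticGalois (modularFunctionFieldFull N)).comp (tameGroup A ζ).subtype)

attribute [local instance] actFK

theorem smul_FK (ρ : tameGroup A ζ) (y : FK N) :
    ρ • y = arithmeticGalois (modularFunctionFieldFull N) ρ.1 • y := rfl

theorem smul_FK' (ρ : tameGroup A ζ) (y : FK N) :
    ρ • y = arithmeticRingAut (modularFunctionFieldFull N) ρ.1 y := rfl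

/-- the `K'`-rational functions `F_{K'} = F_N^Γ`. -/
abbrev F₁ (N : ℕ) [NeZero N] (A : ValuationSubring Kb) (ζ : Kb) : Subfield (FK N) :=
  FixedPoints.subfield (tameGroup A ζ) (FK N)

theorem mem_F₁ {y : FK N} : y ∈ F₁ N A ζ ↔
    ∀ ρ : GQ, IsTameFix A ζ ρ → arithmeticRingAut (modularFunctionFieldFull N) ρ y = y :=
  ⟨fun h ρ hρ => h ⟨ρ, hρ⟩, fun h ρ => h ρ.1 ρ.2⟩

/-- a `Γ`-fixed constant as an element of `F₁`. -/
def constF₁ (c : Kb) (hc : ∀ ρ : GQ, IsTameFix A ζ ρ → ρ c = c) : F₁ N A ζ :=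
  ⟨algebraMap Kb (FK N) c, fun ρ => by
    show arithmeticGalois (modularFunctionFieldFull N) ρ.1 • algebraMap Kb (FK N) c = _
    rw [SemilinearAut.smul_algebraMap]
    congr 1
    exact hc ρ.1 ρ.2⟩

variable (T : TameDatum N p A ζ)

/-- the `K'`-rational functions of the cover `F'_{K'} = T.Fp^Γ`. -/
abbrev E' : Subfield T.Fp := FixedPoints.subfield (tameGroup A ζ) T.Fp

/-- the cover as `IsAdjoinRoot`. -/
def isAdj : IsAdjoinRoot T.Fp (X ^ p - C T.g₀ : (FK N)[X]) :=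
  AdjoinRoot.isAdjoinRoot (kpoly p T.g₀)

theorem isAdj_root : (isAdj T).root = T.G :=
  AdjoinRoot.isAdjoinRoot_root_eq_root _

theorem compat : Descent.Compat (F₁ := FK N) (F' := T.Fp) (tameGroup A ζ) :=
  fun ρ a => T.smul_algebraMap ρ a

theorem root_fixed (ρ : tameGroup A ζ) : ρ • (isAdj T).root = (isAdj T).root := by
  rw [isAdj_root]
  exact T.smul_G ρ

/-- the algebra structure of `F'_{K'}` over `F_{K'}`. -/
@[reducible] def algE' : Algebra (F₁ N A ζ) (E' T) := Descent.fixedAlgebra (compat T)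

attribute [local instance] algE'

theorem coe_algebraMap_E' (a : F₁ N A ζ) :
    ((algebraMap (F₁ N A ζ) (E' T) a : E' T) : T.Fp) = algebraMap (FK N) T.Fp (a : FK N) := rfl

/-- `g₀` as a `K'`-rational function. -/
def g₁ : F₁ N A ζ := Descent.fixedG₀ (isAdj T) (compat T) (root_fixed T)

theorem coe_g₁ : ((g₁ T : F₁ N A ζ) : FK N) = T.g₀ := rfl

/-- **the `K'`-rational cover is `F_{K'}(G)`** (Galois descent). -/
def isAdj' : IsAdjoinRoot (E' T) (X ^ p - C (g₁ T) : (F₁ N A ζ)[X]) :=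
  Descent.fixedIsAdjoinRoot (isAdj T) hpF.out.ne_zero (compat T) (root_fixed T)

theorem coe_isAdj'_root : (((isAdj' T).root : E' T) : T.Fp) = T.G := by
  have h := Descent.fixedIsAdjoinRoot_root (isAdj T) hpF.out.ne_zero (compat T) (root_fixed T)
  have h2 : (isAdj' T).root = Descent.fixedRoot (isAdj T) (root_fixed T) := h
  rw [h2]
  exact isAdj_root T

/-- `ζ` as a `K'`-rational function. -/
def ζ₁ (_T : TameDatum N p A ζ) : F₁ N A ζ := constF₁ ζ (fun _ hρ => hρ.2)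

theorem ζ₁_prim : IsPrimitiveRoot (ζ₁ T) p := by
  have h1 : IsPrimitiveRoot (algebraMap Kb (FK N) ζ) p :=
    T.prim.map_of_injective (algebraMap Kb (FK N)).injective
  exact IsPrimitiveRoot.of_map_of_injective (f := (F₁ N A ζ).subtype) h1
    (F₁ N A ζ).subtype_injective

/-- `1 − ζ` as a `K'`-rational function. -/
def ϖ₁ (_T : TameDatum N p A ζ) : F₁ N A ζ :=
  constF₁ (1 - ζ) (fun ρ hρ => by rw [map_sub, map_one, hρ.2])

/-- a Gauss valuation restricted to the `K'`-rational functions. -/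
def valF₁ (_T : TameDatum N p A ζ) (V : GalVal N A) : Valuation (F₁ N A ζ) V.W.ValueGroup :=
  V.W.valuation.comap (F₁ N A ζ).subtype

theorem valF₁_apply (V : GalVal N A) (a : F₁ N A ζ) :
    valF₁ T V a = V.W.valuation (a : FK N) := rfl

/-- the integrality hypothesis (= helper56 `exists_zpow_valuation_of_fixed`). -/
def IntHyp (_T : TameDatum N p A ζ) (V : GalVal N A) : Prop :=
  ∀ u : FK N, u ≠ 0 →
    (∀ ρ : GQ, IsTameFix A ζ ρ → arithmeticRingAut (modularFunctionFieldFull N) ρ u = u) →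
    ∃ n : ℤ, V.W.valuation u = V.W.valuation (algebraMap Kb (FK N) (1 - ζ)) ^ n

/-- **the restricted Gauss valuation is discrete with uniformiser `1 − ζ`.** -/
theorem isDisc (hA : (p : Kb) ∈ A.nonunits) (V : GalVal N A) (hint : IntHyp T V) :
    IsDisc (valF₁ T V) (ϖ₁ T) where
  lt_one := by
    show V.W.valuation (algebraMap Kb (FK N) (1 - ζ)) < 1
    exact V.val_const_lt_one ((A.mem_nonunits_iff).mp
      (Fermat.Agent.GL.Local.InertiaField.one_sub_zeta_mem_nonunits A hpF.out hA T.prim))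
  ne_zero := by
    intro h0
    have h1 : algebraMap Kb (FK N) (1 - ζ) = 0 := congrArg Subtype.val h0
    rw [map_eq_zero] at h1
    exact Fermat.Agent.GL.Local.InertiaField.one_sub_zeta_ne_zero hpF.out T.prim h1
  exists_zpow := by
    intro a ha
    have ha' : (a : FK N) ≠ 0 := fun h => ha (Subtype.ext h)
    exact hint (a : FK N) ha' (mem_F₁.mp a.2)

/-! ### the valuations of the cover on the `K'`-rational functions -/

section WOf

/-- a `K'`-rational unit of the cover as an element of `F'_{K'}`. -/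
def toE' (y : fixedUnits (tameGroup A ζ) T.Fp) : E' T := ⟨((y : T.Fpˣ) : T.Fp), y.2⟩

theorem coe_toE' (y : fixedUnits (tameGroup A ζ) T.Fp) :
    ((toE' T y : E' T) : T.Fp) = ((y : T.Fpˣ) : T.Fp) := rfl

theorem toE'_ne_zero (y : fixedUnits (tameGroup A ζ) T.Fp) : toE' T y ≠ 0 := by
  intro h
  have := congrArg Subtype.val h
  exact (y : T.Fpˣ).ne_zero this

theorem toE'_mul (y z : fixedUnits (tameGroup A ζ) T.Fp) :
    toE' T (y * z) = toE' T y * toE' T z := rfl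

variable {V : GalVal N A} (hD : IsDisc (valF₁ T V) (ϖ₁ T)) {γ : Pack.Lc hD}
  (hγ : γ ^ p = Pack.jc hD (g₁ T))

/-- **the `p` valuations of the cover above the Gauss valuation `V`**, on the `K'`-rational
functions: `Pack.wv` through the Galois descent. -/
def wOf (k : ZMod p) (y : fixedUnits (tameGroup A ζ) T.Fp) : ℤ :=
  Pack.wv hD (isAdj' T) (ζ₁_prim T) hγ k (toE' T y)

theorem wOf_mul (k : ZMod p) (y z : fixedUnits (tameGroup A ζ) T.Fp) :
    wOf T hD hγ k (y * z) = wOf T hD hγ k y + wOf T hD hγ k z := by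
  unfold wOf
  rw [toE'_mul]
  exact Pack.wv_mul hD (isAdj' T) (ζ₁_prim T) hγ k (toE'_ne_zero T y) (toE'_ne_zero T z)

/-- `T.δ` restricted to the `K'`-rational functions is the deck transformation of the descended
cover. -/
theorem coe_deck (e : E' T) :
    ((deck (isAdj' T) (ζ₁_prim T) e : E' T) : T.Fp) = T.δ (e : T.Fp) := by
  have key : ((E' T).subtype : E' T →+* T.Fp).comp (deck (isAdj' T) (ζ₁_prim T)) =
      ((T.δ : T.Fp ≃+* T.Fp) : T.Fp →+* T.Fp).comp (E' T).subtype := by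
    refine ringHom_ext (isAdj' T) (fun a => ?_) ?_
    · show ((deck (isAdj' T) (ζ₁_prim T) (algebraMap (F₁ N A ζ) (E' T) a) : E' T) : T.Fp) =
        T.δ ((algebraMap (F₁ N A ζ) (E' T) a : E' T) : T.Fp)
      rw [deck_algebraMap, coe_algebraMap_E', T.δ_algebraMap]
    · show ((deck (isAdj' T) (ζ₁_prim T) (isAdj' T).root : E' T) : T.Fp) =
        T.δ (((isAdj' T).root : E' T) : T.Fp)
      rw [deck_root, coe_isAdj'_root, T.δ_G]
      show ((algebraMap (F₁ N A ζ) (E' T) (ζ₁ T) : E' T) : T.Fp) *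
        (((isAdj' T).root : E' T) : T.Fp) = _
      rw [coe_algebraMap_E', coe_isAdj'_root]
      congr 1
  exact RingHom.congr_fun key e

theorem wOf_δ (k : ZMod p) (y y' : fixedUnits (tameGroup A ζ) T.Fp)
    (hy : ((y' : T.Fpˣ) : T.Fp) = T.δ ((y : T.Fpˣ) : T.Fp)) :
    wOf T hD hγ k y' = wOf T hD hγ (k + 1) y := by
  unfold wOf
  have h1 : toE' T y' = deck (isAdj' T) (ζ₁_prim T) (toE' T y) := by
    apply Subtype.ext
    rw [coe_deck, coe_toE', coe_toE', hy]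
  rw [h1]
  exact Pack.wv_deck hD (isAdj' T) (ζ₁_prim T) hγ k (toE' T y)

/-- a `K'`-rational constant of the cover comes from a `Γ`-fixed constant of `ℚ̄`. -/
theorem exists_const (c : fixedUnits (tameGroup A ζ) T.Fp) (hc : ((c : T.Fpˣ) : T.Fp) ∈ T.C) :
    ∃ (c₀ : Kb) (hfix : ∀ ρ : GQ, IsTameFix A ζ ρ → ρ c₀ = c₀), c₀ ≠ 0 ∧
      ((c : T.Fpˣ) : T.Fp) = algebraMap Kb T.Fp c₀ ∧
      toE' T c = algebraMap (F₁ N A ζ) (E' T) (constF₁ c₀ hfix) := by
  obtain ⟨c₀, hc₀⟩ := T.mem_C.mp hc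
  have hfix : ∀ ρ : GQ, IsTameFix A ζ ρ → ρ c₀ = c₀ := by
    intro ρ hρ
    have h1 := c.2 ⟨ρ, hρ⟩
    rw [hc₀, T.smul_const] at h1
    exact (algebraMap Kb T.Fp).injective h1
  refine ⟨c₀, hfix, ?_, hc₀, ?_⟩
  · rintro rfl
    rw [map_zero] at hc₀
    exact (c : T.Fpˣ).ne_zero hc₀
  · apply Subtype.ext
    rw [coe_toE', coe_algebraMap_E', hc₀]
    exact IsScalarTower.algebraMap_apply Kb (FK N) T.Fp c₀

/-- the order of a `Γ`-fixed constant at a Gauss valuation is its order at `A` (in `(1 − ζ)`-units). -/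
theorem ordD_const {c₀ : Kb} (hfix : ∀ ρ : GQ, IsTameFix A ζ ρ → ρ c₀ = c₀) (hc0 : c₀ ≠ 0) {m : ℤ}
    (hm : A.valuation c₀ = A.valuation (1 - ζ) ^ m) :
    ordD hD (constF₁ (N := N) c₀ hfix) = m := by
  have hπ0 : (1 - ζ : Kb) ≠ 0 :=
    Fermat.Agent.GL.Local.InertiaField.one_sub_zeta_ne_zero hpF.out T.prim
  have hne : constF₁ (N := N) c₀ hfix ≠ 0 := by
    intro h0
    have h1 : algebraMap Kb (FK N) c₀ = 0 := congrArg Subtype.val h0
    rw [map_eq_zero] at h1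
    exact hc0 h1
  apply ordD_eq hD hne
  show V.W.valuation (algebraMap Kb (FK N) c₀) = V.W.valuation (algebraMap Kb (FK N) (1 - ζ)) ^ m
  have hvd : A.valuation (1 - ζ) ≠ 0 := (Valuation.ne_zero_iff _).mpr hπ0
  have h1 : A.valuation (c₀ / (1 - ζ) ^ m) = 1 := by
    rw [map_div₀, map_zpow₀, hm, div_self (zpow_ne_zero m hvd)]
  have h2 := V.val_const_eq_one h1
  rw [map_div₀, map_zpow₀, map_div₀, map_zpow₀] at h2
  have hd' : V.W.valuation (algebraMap Kb (FK N) (1 - ζ)) ≠ 0 :=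
    (Valuation.ne_zero_iff _).mpr ((map_ne_zero_iff _ (algebraMap Kb (FK N)).injective).2 hπ0)
  exact (div_eq_one_iff_eq (zpow_ne_zero m hd')).mp h2

/-- **on the `K'`-rational constants `w_k` is the order at `A` in `(1 − ζ)`-units.** -/
theorem wOf_const (k : ZMod p) (c : fixedUnits (tameGroup A ζ) T.Fp) {c₀ : Kb}
    (hc₀ : ((c : T.Fpˣ) : T.Fp) = algebraMap Kb T.Fp c₀) {m : ℤ}
    (hm : A.valuation c₀ = A.valuation (1 - ζ) ^ m) : wOf T hD hγ k c = m := by
  have hc : ((c : T.Fpˣ) : T.Fp) ∈ T.C := T.mem_C.mpr ⟨c₀, hc₀⟩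
  obtain ⟨c₁, hfix, hc10, hc1, hE⟩ := exists_const T c hc
  have h01 : c₀ = c₁ := (algebraMap Kb T.Fp).injective (hc₀.symm.trans hc1)
  subst h01
  unfold wOf
  rw [hE, Pack.wv_algebraMap hD (isAdj' T) (ζ₁_prim T) hγ k (a := constF₁ c₀ hfix)]
  · exact ordD_const T hD hfix hc10 hm
  · intro h0
    have h1 : algebraMap Kb (FK N) c₀ = 0 := congrArg Subtype.val h0
    rw [map_eq_zero] at h1
    exact hc10 h1

end WOf

/-! ### the `WData` -/

section WData

variable (hA : (p : Kb) ∈ A.nonunits) {V₁ V₂ : GalVal N A}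
  (hD₁ : IsDisc (valF₁ T V₁) (ϖ₁ T)) (hD₂ : IsDisc (valF₁ T V₂) (ϖ₁ T))
  {γ₁ : Pack.Lc hD₁} (hγ₁ : γ₁ ^ p = Pack.jc hD₁ (g₁ T))
  {γ₂ : Pack.Lc hD₂} (hγ₂ : γ₂ ^ p = Pack.jc hD₂ (g₁ T))

include hA in
/-- the order at `A` of a `K'`-rational constant exists. -/
theorem exists_zpow_const (c : fixedUnits (tameGroup A ζ) T.Fp)
    (hc : ((c : T.Fpˣ) : T.Fp) ∈ T.C) :
    ∃ (c₀ : Kb) (m : ℤ), ((c : T.Fpˣ) : T.Fp) = algebraMap Kb T.Fp c₀ ∧
      A.valuation c₀ = A.valuation (1 - ζ) ^ m := by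
  obtain ⟨c₀, hfix, hc0, hc₀, -⟩ := exists_const T c hc
  obtain ⟨m, hm⟩ := exists_zpow_of_fixed hA T.prim hc0 hfix
  exact ⟨c₀, m, hc₀, hm⟩

/-- **helper31's `T.WData` from the field side.** -/
def wData : T.WData where
  w₁ := wOf T hD₁ hγ₁
  w₂ := wOf T hD₂ hγ₂
  w₁_mul := wOf_mul T hD₁ hγ₁
  w₂_mul := wOf_mul T hD₂ hγ₂
  vK := wOf T hD₁ hγ₁ 0
  w₁_const := by
    intro k c hc
    obtain ⟨c₀, m, hc₀, hm⟩ := exists_zpow_const T hA c hc
    rw [wOf_const T hD₁ hγ₁ k c hc₀ hm, wOf_const T hD₁ hγ₁ 0 c hc₀ hm]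
  w₂_const := by
    intro k c hc
    obtain ⟨c₀, m, hc₀, hm⟩ := exists_zpow_const T hA c hc
    rw [wOf_const T hD₂ hγ₂ k c hc₀ hm, wOf_const T hD₁ hγ₁ 0 c hc₀ hm]
  w₁_δ := wOf_δ T hD₁ hγ₁
  w₂_δ := wOf_δ T hD₂ hγ₂

@[simp] theorem wData_w₁ (k : ZMod p) (y : fixedUnits (tameGroup A ζ) T.Fp) :
    (wData T hA hD₁ hD₂ hγ₁ hγ₂).w₁ k y = wOf T hD₁ hγ₁ k y := rfl

@[simp] theorem wData_w₂ (k : ZMod p) (y : fixedUnits (tameGroup A ζ) T.Fp) :
    (wData T hA hD₁ hD₂ hγ₁ hγ₂).w₂ k y = wOf T hD₂ hγ₂ k y := rfl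

/-- **the dictionary `hvK` of `TameDatum.econst` VERBATIM.** -/
theorem hvK (c : fixedUnits (tameGroup A ζ) T.Fp) (c₀ : Kb)
    (hc₀ : ((c : T.Fpˣ) : T.Fp) = algebraMap Kb T.Fp c₀) :
    A.valuation c₀ = A.valuation (1 - ζ) ^ (wData T hA hD₁ hD₂ hγ₁ hγ₂).vK c := by
  have hc : ((c : T.Fpˣ) : T.Fp) ∈ T.C := T.mem_C.mpr ⟨c₀, hc₀⟩
  obtain ⟨c₁, m, hc₁, hm⟩ := exists_zpow_const T hA c hc
  have h01 : c₀ = c₁ := (algebraMap Kb T.Fp).injective (hc₀.symm.trans hc₁)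
  subst h01
  show A.valuation c₀ = A.valuation (1 - ζ) ^ wOf T hD₁ hγ₁ 0 c
  rw [wOf_const T hD₁ hγ₁ 0 c hc₀ hm]
  exact hm

end WData

/-! ### the `p`-th roots from deep representatives -/

section Root

variable (hA : (p : Kb) ∈ A.nonunits) {V : GalVal N A} (hD : IsDisc (valF₁ T V) (ϖ₁ T))

include hA in
/-- **the seam with GF-ASFORM**: ONE deep `Γ`-fixed representative `g₀ = d ^ p * z` at the Gauss
valuation `V` gives the `p`-th root `γ` in the completion. -/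
theorem exists_root {d z : FK N} (hd : d ∈ F₁ N A ζ) (hz : z ∈ F₁ N A ζ)
    (hg : T.g₀ = d ^ p * z)
    (hdeep : V.W.valuation (z - 1) ≤ V.W.valuation (algebraMap Kb (FK N) (p : Kb)) ^ 3) :
    ∃ γ : Pack.Lc hD, γ ^ p = Pack.jc hD (g₁ T) := by
  have hp0 : ((p : ℕ) : F₁ N A ζ) ≠ 0 := by
    have : ((p : ℕ) : F₁ N A ζ) = constF₁ (p : Kb) (fun ρ _ => map_natCast ρ p) := by
      apply Subtype.ext
      show ((p : ℕ) : FK N) = algebraMap Kb (FK N) (p : Kb)
      rw [map_natCast]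
    rw [this]
    intro h0
    have h1 : algebraMap Kb (FK N) (p : Kb) = 0 := congrArg Subtype.val h0
    rw [map_eq_zero] at h1
    exact (Nat.cast_ne_zero.mpr hpF.out.ne_zero) h1
  have hcast : (((p : ℕ) : F₁ N A ζ) : FK N) = algebraMap Kb (FK N) (p : Kb) := by
    rw [map_natCast]
    rfl
  have hvp : valF₁ T V ((p : ℕ) : F₁ N A ζ) < 1 := by
    rw [valF₁_apply, hcast]
    exact V.val_const_lt_one ((A.mem_nonunits_iff).mp hA)
  refine Pack.exists_root hD hp0 hvp (g₀ := g₁ T) (d := ⟨d, hd⟩) (z := ⟨z, hz⟩) ?_ ?_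
  · apply Subtype.ext
    exact hg
  · rw [valF₁_apply, valF₁_apply, hcast]
    exact hdeep

end Root

end Fermat.Agent.GF.KCover.Field.WDataOf
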