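/-
GATE-F (S44) / node GF-KCOVER-INST-FIELD-MOD, file 2 (helper3).
**The supplier `WData + hvK + hbase` of the F2 assembly, from ONE deep `K'`-rational representative
per Gauss valuation.**

`T : TameDatum N p A ζ`, `Γ = tameGroup A ζ = I'`, `V₁ = galVal1 N A`, `V₂ = galVal2 N A h`
(`h : ExactDvd q N`).  With helper56's `Int.isDisc_valFix₁/₂` (the two Gauss valuations are discrete
with uniformiser `1 − ζ` on `F_{K'}`) the only remaining inputs of `WDataOf.wData` are the two deep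
representatives

  `DeepRep T V` : `∃ d z ∈ F_{K'}`, `T.g₀ = d ^ p * z`, `V (z − 1) ≤ V (p) ^ 3`

(GF-ASFORM / GF-NORMDEPTH-INST: helper86 `exists_rat_deep_{one,two}_of_close` with `e := p ^ 3`, the
constant `a_i ∈ K'^{×p}` absorbed in `d`: helper13 6555).

* `isDisc₁`, `isDisc₂`     : the `IsDisc` records in `WDataOf` spelling;
* `root₁`, `root₂`         : the chosen `p`-th roots `γ_i : Pack.Lc (isDisc_i)` of `g₁ T`;
* **`wDataOfDeep`**        : the `T.WData`; `wDataOfDeep_w₁/w₂` (`rfl`): `w_i k y = WDataOf.wOf …`;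
* **`hvK`**                : the binder `hvK` of `TameDatum.econst` / `Y0.econst_Y0` VERBATIM;
* **`hbase₁`, `hbase₂`**   : on the image of a function `y₀` of `F_N` the `w_i k` are the order of the
  Gauss valuation `V_i` in `(1 − ζ)`-units (helper31 6558, consumed by GF-F2-ETAUNIT);
* `exists_wData`           : the three clauses in existential form.
-/
import Fermat.Agent.GF.KCover.Field.WDataOf
import Fermat.Agent.GF.KCover.Int.FixedVal

set_option autoImplicit false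
set_option linter.unusedSectionVars false

noncomputable section

namespace Fermat.Agent.GF.KCover.Field.WDataFinal

open AlgebraicCurve ModularCurve Polynomial
open Fermat.Agent.GJ.KumGroup Fermat.Agent.GJ.Kum.KumType Fermat.Agent.GK.SS
open Fermat.Agent.GF.F2Asm.KummerExt Fermat.Agent.GF.F2Asm.Inst Fermat.Agent.GF.KCover
open Fermat.Agent.GF.Peu Fermat.Agent.GF.F2Asm.PeuBridge
open Fermat.Agent.GF.KCover.Field Fermat.Agent.GF.KCover.Field.Disc
open Fermat.Agent.GF.KCover.Field.WDataOf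

local notation "GQ" => (AlgebraicClosure ℚ ≃ₐ[ℚ] AlgebraicClosure ℚ)

variable {N : ℕ} [NeZero N] {p : ℕ} [hpF : Fact p.Prime] {A : ValuationSubring Kb} {ζ : Kb}

attribute [local instance] actFK algE'

variable (T : TameDatum N p A ζ)

/-- **ONE deep `K'`-rational representative of `T.g₀` at the valuation `V`.** -/
def DeepRep (V : GalVal N A) : Prop :=
  ∃ d z : FK N, d ∈ F₁ N A ζ ∧ z ∈ F₁ N A ζ ∧ T.g₀ = d ^ p * z ∧
    V.W.valuation (z - 1) ≤ V.W.valuation (algebraMap Kb (FK N) (p : Kb)) ^ 3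

/-! ### on the base the `w_k` are the order of the Gauss valuation -/

section Base

variable {V : GalVal N A} (hD : IsDisc (valF₁ T V) (ϖ₁ T)) {γ : Pack.Lc hD}
  (hγ : γ ^ p = Pack.jc hD (g₁ T))

/-- a function of `F_N` whose image in the cover is `Γ`-fixed is `Γ`-fixed. -/
theorem mem_F₁_of_fixed (y : fixedUnits (tameGroup A ζ) T.Fp) (y₀ : FK N)
    (hy : ((y : T.Fpˣ) : T.Fp) = algebraMap (FK N) T.Fp y₀) : y₀ ∈ F₁ N A ζ := by
  intro ρ
  have h1 := y.2 ρ
  rw [hy, compat T ρ y₀] at h1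
  exact (algebraMap (FK N) T.Fp).injective h1

/-- **`hbase`**: `w_k` on the image of `y₀ ∈ F_N` is the order of `V` at `y₀` in `(1 − ζ)`-units. -/
theorem wOf_base (k : ZMod p) (y : fixedUnits (tameGroup A ζ) T.Fp) (y₀ : FK N)
    (hy : ((y : T.Fpˣ) : T.Fp) = algebraMap (FK N) T.Fp y₀) (n : ℤ)
    (hn : V.W.valuation y₀ = V.W.valuation (algebraMap Kb (FK N) (1 - ζ)) ^ n) :
    wOf T hD hγ k y = n := by
  have hmem : y₀ ∈ F₁ N A ζ := mem_F₁_of_fixed T y y₀ hy
  have hy0 : y₀ ≠ 0 := by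
    rintro rfl
    rw [map_zero] at hy
    exact (y : T.Fpˣ).ne_zero hy
  have hne : (⟨y₀, hmem⟩ : F₁ N A ζ) ≠ 0 := fun h0 => hy0 (congrArg Subtype.val h0)
  have hE : toE' T y = algebraMap (F₁ N A ζ) (E' T) ⟨y₀, hmem⟩ := by
    apply Subtype.ext
    rw [coe_toE', coe_algebraMap_E', hy]
  unfold wOf
  rw [hE, Pack.wv_algebraMap hD (isAdj' T) (ζ₁_prim T) hγ k hne]
  exact ordD_eq hD hne hn

end Base

/-! ### the two discrete valuations and the two roots -/

section Final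

variable (hA : (p : Kb) ∈ A.nonunits) {q : ℕ} (h : Fermat.Agent.GK.AL.ExactDvd q N)

include hA in
/-- the first Gauss valuation is discrete on `F_{K'}` (helper56 `Int.isDisc_valFix₁`). -/
theorem isDisc₁ : IsDisc (valF₁ T (galVal1 N A)) (ϖ₁ T) :=
  Fermat.Agent.GF.KCover.Int.isDisc_valFix₁ N A hA T.prim

include hA in
/-- the second Gauss valuation is discrete on `F_{K'}` (helper56 `Int.isDisc_valFix₂`). -/
theorem isDisc₂ : IsDisc (valF₁ T (galVal2 N A h)) (ϖ₁ T) :=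
  Fermat.Agent.GF.KCover.Int.isDisc_valFix₂ N A h hA T.prim

variable (h₁ : DeepRep T (galVal1 N A)) (h₂ : DeepRep T (galVal2 N A h))

include h₁ in
theorem exists_root₁ : ∃ γ : Pack.Lc (isDisc₁ T hA), γ ^ p = Pack.jc (isDisc₁ T hA) (g₁ T) := by
  obtain ⟨d, z, hd, hz, hg, hdeep⟩ := h₁
  exact exists_root T hA (isDisc₁ T hA) hd hz hg hdeep

include h₂ in
theorem exists_root₂ :
    ∃ γ : Pack.Lc (isDisc₂ T hA h), γ ^ p = Pack.jc (isDisc₂ T hA h) (g₁ T) := by
  obtain ⟨d, z, hd, hz, hg, hdeep⟩ := h₂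
  exact exists_root T hA (isDisc₂ T hA h) hd hz hg hdeep

/-- the chosen `p`-th root of `g₀` in the completion of `F_{K'}` at the first Gauss valuation. -/
def root₁ : Pack.Lc (isDisc₁ T hA) := (exists_root₁ T hA h₁).choose

theorem root₁_pow : root₁ T hA h₁ ^ p = Pack.jc (isDisc₁ T hA) (g₁ T) :=
  (exists_root₁ T hA h₁).choose_spec

/-- the chosen `p`-th root of `g₀` in the completion of `F_{K'}` at the second Gauss valuation. -/
def root₂ : Pack.Lc (isDisc₂ T hA h) := (exists_root₂ T hA h h₂).choose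

theorem root₂_pow : root₂ T hA h h₂ ^ p = Pack.jc (isDisc₂ T hA h) (g₁ T) :=
  (exists_root₂ T hA h h₂).choose_spec

/-- **the `WData` of the concrete cover frame.** -/
def wDataOfDeep : T.WData :=
  wData T hA (isDisc₁ T hA) (isDisc₂ T hA h) (root₁_pow T hA h₁) (root₂_pow T hA h h₂)

theorem wDataOfDeep_w₁ (k : ZMod p) (y : fixedUnits (tameGroup A ζ) T.Fp) :
    (wDataOfDeep T hA h h₁ h₂).w₁ k y = wOf T (isDisc₁ T hA) (root₁_pow T hA h₁) k y := rfl

theorem wDataOfDeep_w₂ (k : ZMod p) (y : fixedUnits (tameGroup A ζ) T.Fp) :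
    (wDataOfDeep T hA h h₁ h₂).w₂ k y = wOf T (isDisc₂ T hA h) (root₂_pow T hA h h₂) k y := rfl

/-- **the dictionary `hvK` of `TameDatum.econst` VERBATIM.** -/
theorem hvK (c : fixedUnits (tameGroup A ζ) T.Fp) (c₀ : Kb)
    (hc₀ : ((c : T.Fpˣ) : T.Fp) = algebraMap Kb T.Fp c₀) :
    A.valuation c₀ = A.valuation (1 - ζ) ^ (wDataOfDeep T hA h h₁ h₂).vK c :=
  WDataOf.hvK T hA (isDisc₁ T hA) (isDisc₂ T hA h) (root₁_pow T hA h₁) (root₂_pow T hA h h₂) c c₀ hc₀

/-- **`hbase₁`**. -/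
theorem hbase₁ (k : ZMod p) (y : fixedUnits (tameGroup A ζ) T.Fp) (y₀ : FK N)
    (hy : ((y : T.Fpˣ) : T.Fp) = algebraMap (FK N) T.Fp y₀) (n : ℤ)
    (hn : (galVal1 N A).W.valuation y₀ =
      (galVal1 N A).W.valuation (algebraMap Kb (FK N) (1 - ζ)) ^ n) :
    (wDataOfDeep T hA h h₁ h₂).w₁ k y = n :=
  wOf_base T (isDisc₁ T hA) (root₁_pow T hA h₁) k y y₀ hy n hn

/-- **`hbase₂`**. -/
theorem hbase₂ (k : ZMod p) (y : fixedUnits (tameGroup A ζ) T.Fp) (y₀ : FK N)
    (hy : ((y : T.Fpˣ) : T.Fp) = algebraMap (FK N) T.Fp y₀) (n : ℤ)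
    (hn : (galVal2 N A h).W.valuation y₀ =
      (galVal2 N A h).W.valuation (algebraMap Kb (FK N) (1 - ζ)) ^ n) :
    (wDataOfDeep T hA h h₁ h₂).w₂ k y = n :=
  wOf_base T (isDisc₂ T hA h) (root₂_pow T hA h h₂) k y y₀ hy n hn

include hA h₁ h₂ in
/-- **the supplier `WData + hvK + hbase`** (existential form, helper31 6558). -/
theorem exists_wData :
    ∃ Wd : T.WData,
      (∀ (c : fixedUnits (tameGroup A ζ) T.Fp) (c₀ : Kb),
        ((c : T.Fpˣ) : T.Fp) = algebraMap Kb T.Fp c₀ →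
          A.valuation c₀ = A.valuation (1 - ζ) ^ Wd.vK c) ∧
      (∀ (k : ZMod p) (y : fixedUnits (tameGroup A ζ) T.Fp) (y₀ : FK N),
        ((y : T.Fpˣ) : T.Fp) = algebraMap (FK N) T.Fp y₀ → ∀ n : ℤ,
          (galVal1 N A).W.valuation y₀ =
            (galVal1 N A).W.valuation (algebraMap Kb (FK N) (1 - ζ)) ^ n → Wd.w₁ k y = n) ∧
      (∀ (k : ZMod p) (y : fixedUnits (tameGroup A ζ) T.Fp) (y₀ : FK N),
        ((y : T.Fpˣ) : T.Fp) = algebraMap (FK N) T.Fp y₀ → ∀ n : ℤ,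
          (galVal2 N A h).W.valuation y₀ =
            (galVal2 N A h).W.valuation (algebraMap Kb (FK N) (1 - ζ)) ^ n → Wd.w₂ k y = n) :=
  ⟨wDataOfDeep T hA h h₁ h₂, hvK T hA h h₁ h₂, hbase₁ T hA h h₁ h₂, hbase₂ T hA h h₁ h₂⟩

end Final

end Fermat.Agent.GF.KCover.Field.WDataFinal
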