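/-
GATE-F (S44) / seam (U17) RESCALE, RAW ADAPTER (helper3; answer to helper48 6999).
**The Artin–Schreier frame `RescaleMod.frameAS` from the RAW Artin–Schreier datum** in the shape of
helper48 `AuxLevel/ASUp.ASData` (level-generic, no chart):

  `u g1 : FK N`, `u ≠ 0`, `u ∈ F₁ N A ζ`, `g1 ∈ F₁ N A ζ`,
  `hg0 : T.g₀ = u ^ p * (1 + algebraMap ℚ̄ (FK N) ((ζ − 1) ^ p) * g1)`.

* `vRaw hu = u⁻¹`, `gRaw hg1 = g1` as elements of `F₁`; `vRaw_ne_zero`; **`hrel_raw`** (= the binder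
  `hrel` of `RescaleMod`);
* `frameRaw`, `frameRawb`, `Zraw` := the frames / the Artin–Schreier variable of `RescaleMod` at
  `(vRaw, gRaw)`; `frameRaw_root_eq` (= `hZ'`), `hroot_raw`, `wOf_eq_wv_frameRaw` (= `hw_i`),
  `sheetK_frameRawb`;
* `coe_Zraw : ↑Zraw = ((algebraMap u)⁻¹ * T.G − 1) / algebraMap (ζ − 1)` in `T.Fp` (= helper48 `ASData.Z'`),
  `coe_root_raw`, `hAS_raw : (1 + c Z') ^ p = 1 + c ^ p g1` in `T.Fp`.
-/
import Fermat.Agent.GF.KCover.Field.RescaleMod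

set_option autoImplicit false
set_option linter.unusedSectionVars false

noncomputable section

namespace Fermat.Agent.GF.KCover.Field.RescaleRaw

open AlgebraicCurve ModularCurve Polynomial
open Fermat.Agent.GJ.KumGroup Fermat.Agent.GJ.Kum.KumType Fermat.Agent.GK.SS
open Fermat.Agent.GF.F2Asm.KummerExt Fermat.Agent.GF.F2Asm.Inst Fermat.Agent.GF.KCover
open Fermat.Agent.GF.Peu
open Fermat.Agent.GF.KCover.Field Fermat.Agent.GF.KCover.Field.Disc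
open Fermat.Agent.GF.KCover.Field.WDataOf Fermat.Agent.GF.KCover.Field.RescaleTop
open Fermat.Agent.GF.KCover.Field.RescaleMod
open Fermat.Agent.GF.KCover.Compl Fermat.Agent.GF.KCover.Compl.Bridge

variable {N : ℕ} [NeZero N] {p : ℕ} [hpF : Fact p.Prime] {A : ValuationSubring Kb} {ζ : Kb}

attribute [local instance] actFK algE'

variable (T : TameDatum N p A ζ)

variable {u g1 : FK N}

/-- `v = u⁻¹` as a `K'`-rational function. -/
def vRaw (hu : u ∈ F₁ N A ζ) : F₁ N A ζ := ⟨u⁻¹, (F₁ N A ζ).inv_mem hu⟩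

/-- `g1` as a `K'`-rational function. -/
def gRaw (hg1 : g1 ∈ F₁ N A ζ) : F₁ N A ζ := ⟨g1, hg1⟩

theorem coe_vRaw (hu : u ∈ F₁ N A ζ) : ((vRaw hu : F₁ N A ζ) : FK N) = u⁻¹ := rfl

theorem coe_gRaw (hg1 : g1 ∈ F₁ N A ζ) : ((gRaw hg1 : F₁ N A ζ) : FK N) = g1 := rfl

theorem vRaw_ne_zero (hu0 : u ≠ 0) (hu : u ∈ F₁ N A ζ) : vRaw hu ≠ 0 := by
  intro h0
  have h1 : ((vRaw hu : F₁ N A ζ) : FK N) = 0 := by rw [h0]; rfl
  rw [coe_vRaw] at h1
  exact hu0 (inv_eq_zero.mp h1)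

section Rel

variable (hu0 : u ≠ 0) (hu : u ∈ F₁ N A ζ) (hg1 : g1 ∈ F₁ N A ζ)
  (hg0 : T.g₀ = u ^ p * (1 + algebraMap Kb (FK N) ((ζ - 1) ^ p) * g1))

include hu0 hg0 in
/-- **the binder `hrel` of `RescaleMod`** from the raw Artin–Schreier form of `T.g₀`. -/
theorem hrel_raw : 1 + cz T ^ p * gRaw hg1 = g₁ T * vRaw hu ^ p := by
  apply Subtype.ext
  show (1 : FK N) + ((cz T : F₁ N A ζ) : FK N) ^ p * g1 = T.g₀ * (u⁻¹) ^ p
  rw [coe_cz, hg0, map_pow, inv_pow]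
  have hup : u ^ p ≠ 0 := pow_ne_zero _ hu0
  field_simp

/-- the Artin–Schreier frame of `E' T / F₁` of the raw datum. -/
def frameRaw :
    IsAdjoinRoot (E' T) (X ^ p - C (1 + cz T ^ p * gRaw hg1) : (F₁ N A ζ)[X]) :=
  frameAS T (vRaw_ne_zero hu0 hu) (hrel_raw T hu0 hu hg1 hg0)

/-- the Artin–Schreier frame of `T.Fp / F_N` of the raw datum. -/
def frameRawb :
    IsAdjoinRoot T.Fp
      (X ^ p - C ((F₁ N A ζ).subtype (1 + cz T ^ p * gRaw hg1)) : (FK N)[X]) :=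
  frameASb T (vRaw_ne_zero hu0 hu) (hrel_raw T hu0 hu hg1 hg0)

/-- the Artin–Schreier variable of the raw datum. -/
def Zraw : E' T := Zas T (vRaw_ne_zero hu0 hu) (hrel_raw T hu0 hu hg1 hg0)

/-- **`hZ'`**. -/
theorem frameRaw_root_eq :
    (frameRaw T hu0 hu hg1 hg0).root =
      1 + algebraMap (F₁ N A ζ) (E' T) (cz T) * Zraw T hu0 hu hg1 hg0 :=
  frameAS_root_eq T (vRaw_ne_zero hu0 hu) (hrel_raw T hu0 hu hg1 hg0)

/-- **`hroot`**. -/
theorem hroot_raw :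
    (E' T).subtype (frameRaw T hu0 hu hg1 hg0).root = (frameRawb T hu0 hu hg1 hg0).root :=
  hroot_AS T (vRaw_ne_zero hu0 hu) (hrel_raw T hu0 hu hg1 hg0)

theorem coe_root_raw :
    (((frameRaw T hu0 hu hg1 hg0).root : E' T) : T.Fp) = (algebraMap (FK N) T.Fp u)⁻¹ * T.G := by
  unfold frameRaw
  rw [coe_frameAS_root, coe_vRaw, map_inv₀]

theorem frameRawb_root :
    (frameRawb T hu0 hu hg1 hg0).root = (algebraMap (FK N) T.Fp u)⁻¹ * T.G := by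
  rw [← hroot_raw]
  exact coe_root_raw T hu0 hu hg1 hg0

/-- **`Z'` in `T.Fp`** (= helper48 `ASData.Z'`). -/
theorem coe_Zraw :
    ((Zraw T hu0 hu hg1 hg0 : E' T) : T.Fp) =
      ((algebraMap (FK N) T.Fp u)⁻¹ * T.G - 1) /
        algebraMap (FK N) T.Fp (algebraMap Kb (FK N) (ζ - 1)) := by
  unfold Zraw Zas
  show ((((frameAS T (vRaw_ne_zero hu0 hu) (hrel_raw T hu0 hu hg1 hg0)).root : E' T) : T.Fp) - 1) /
      ((algebraMap (F₁ N A ζ) (E' T) (cz T) : E' T) : T.Fp) = _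
  rw [coe_algebraMap_E', coe_cz]
  congr 2
  exact coe_root_raw T hu0 hu hg1 hg0

/-- the root in `T.Fp` in Artin–Schreier form. -/
theorem coe_root_eq :
    (algebraMap (FK N) T.Fp u)⁻¹ * T.G =
      1 + algebraMap (FK N) T.Fp (algebraMap Kb (FK N) (ζ - 1)) *
        ((Zraw T hu0 hu hg1 hg0 : E' T) : T.Fp) := by
  have h := congrArg (E' T).subtype (frameRaw_root_eq T hu0 hu hg1 hg0)
  have h2 : (((frameRaw T hu0 hu hg1 hg0).root : E' T) : T.Fp) =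
      1 + ((algebraMap (F₁ N A ζ) (E' T) (cz T) : E' T) : T.Fp) *
        ((Zraw T hu0 hu hg1 hg0 : E' T) : T.Fp) := h
  rw [coe_root_raw, coe_algebraMap_E', coe_cz] at h2
  exact h2

/-- **`hAS` in `T.Fp`**: `(1 + c Z') ^ p = 1 + c ^ p g1`. -/
theorem hAS_raw :
    (1 + algebraMap (FK N) T.Fp (algebraMap Kb (FK N) (ζ - 1)) *
        ((Zraw T hu0 hu hg1 hg0 : E' T) : T.Fp)) ^ p =
      1 + algebraMap (FK N) T.Fp (algebraMap Kb (FK N) ((ζ - 1) ^ p)) *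
        algebraMap (FK N) T.Fp g1 := by
  rw [← coe_root_eq, mul_pow, T.G_pow, hg0, inv_pow, ← map_pow, ← map_mul, ← map_one
    (algebraMap (FK N) T.Fp), ← map_add, ← map_inv₀, ← map_mul]
  congr 1
  have hup : u ^ p ≠ 0 := pow_ne_zero _ hu0
  field_simp

section Wv

variable {V : GalVal N A} (hD : IsDisc (valF₁ T V) (ϖ₁ T)) {γ : Pack.Lc hD}
  (hγ : γ ^ p = Pack.jc hD (g₁ T))

include hu0 hg0 hγ in
theorem rootRaw_pow :
    (Pack.jc hD (vRaw hu) * γ) ^ p = Pack.jc hD (1 + cz T ^ p * gRaw hg1) :=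
  rootAS_pow T (hrel_raw T hu0 hu hg1 hg0) hD hγ

/-- **`hw_i`**: `wOf` read on the raw Artin–Schreier frame. -/
theorem wOf_eq_wv_frameRaw (k : ZMod p) (y : fixedUnits (tameGroup A ζ) T.Fp) :
    wOf T hD hγ k y =
      Pack.wv hD (frameRaw T hu0 hu hg1 hg0) (ζ₁_prim T) (rootRaw_pow T hu0 hu hg1 hg0 hD hγ) k
        (toE' T y) :=
  wOf_eq_wv_frameAS T (vRaw_ne_zero hu0 hu) (hrel_raw T hu0 hu hg1 hg0) hD hγ k y

end Wv

section Sheets

open Fermat.Agent.GJ.J1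

variable {k Ft : Type*} [Field k] [Field Ft] [Algebra k Ft]
  (R : RedData Kb (FK N) k Ft)
  {vR : Valuation (F₁ N A ζ) (ValuationSubring.ValueGroup R.Rw)}
  (hincl : ∀ a : F₁ N A ζ, R.Rw.valuation ((F₁ N A ζ).subtype a) = vR a)
  (hD : IsDisc vR (ϖ₁ T))
  (harch : ∀ γ : ValuationSubring.ValueGroup R.Rw, γ ≠ 0 → ∃ n : ℕ, vR (ϖ₁ T) ^ n < γ)
  {γ : Pack.Lc hD} (hγ : γ ^ p = Pack.jc hD (g₁ T))

include hu0 hg0 hγ in
theorem rootRaw_pow' :
    (Pack.jc hD (vRaw hu) * γ) ^ p = Pack.jc hD (1 + cz T ^ p * gRaw hg1) :=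
  rootAS_pow' T (hrel_raw T hu0 hu hg1 hg0) R hD hγ

/-- **the sheets of the raw Artin–Schreier frame are the sheets of the `T`-frame.** -/
theorem sheetK_frameRawb (i : ZMod p) :
    sheetK R (F₁ N A ζ).subtype hincl hD harch (ζ₁_prim T)
        (rootRaw_pow' T hu0 hu hg1 hg0 R hD hγ) (frameRawb T hu0 hu hg1 hg0) i =
      sheetK R (F₁ N A ζ).subtype hincl hD harch (ζ₁_prim T) hγ (isAdj T) i :=
  sheetK_frameASb T (vRaw_ne_zero hu0 hu) (hrel_raw T hu0 hu hg1 hg0) R hincl hD harch hγ i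

end Sheets

end Rel

end Fermat.Agent.GF.KCover.Field.RescaleRaw
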