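/-
GATE-F (S44) / seam (U17) RESCALE, SHEET + VALUATION BOOKKEEPING (helper3).
The Artin–Schreier frames `RescaleMod.frameASb` / `RescaleRaw.frameRawb` read in helper19's sheet
vocabulary (`Compl/SheetsMod`: `sheetT`, `sheet₁`, `sheet₂`) and the frame-side valuation binders of
helper84 `NlNodeData.nl_node_data` / helper42 `NlNodeSheets.nl_node_sheets` on these frames.

* `nodeOrd_congr` : `nodeOrd` only depends on the reduction datum;
* `sheetT_frameASb`, `sheet₁_frameASb`, `sheet₂_frameASb` : `Bridge.sheetK … (frameASb T hv hrel) i`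
  IS `sheetT … i` / `sheet₁ … i` / `sheet₂ … i`; `nodeOrd_sheetT_frameASb`, `nodeOrd_sheet₁_frameASb`
  (the conclusion of `nl_node_data` rewritten into the sheets of `NLSupplyK` / `FourDown`);
* the same for the raw frame : `sheetT_frameRawb`, `sheet₁_frameRawb`, `sheet₂_frameRawb`,
  `nodeOrd_sheet₁_frameRawb`;
* valuations: `val_cz_lt_one₁/₂` (= `hcA hcB`), `val_natCast_lt_one₁/₂` (= `hpA hpB`),
  `val_gRaw_le_one₁/₂` (= `hg₁A hg₁B` from `g1 ∈ Rw₁`, `g1 ∈ Rw₂`); `hg₁` of `nl_node_data` is `rfl`.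
-/
import Fermat.Agent.GF.KCover.Compl.SheetsMod
import Fermat.Agent.GF.KCover.Field.RescaleRaw

set_option autoImplicit false
set_option linter.unusedSectionVars false

noncomputable section

namespace Fermat.Agent.GF.KCover.Field.RescaleSheets

open AlgebraicCurve ModularCurve Polynomial
open Fermat.Agent.GJ.J1 Fermat.Agent.GJ.J1.Val Fermat.Agent.S24 Fermat.Agent.GF.Trop
open Fermat.Agent.GJ.KumGroup Fermat.Agent.GK.SS Fermat.Agent.GK.AL
open Fermat.Agent.GF.F2Asm.KummerExt Fermat.Agent.GF.F2Asm.Inst Fermat.Agent.GF.KCover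
open Fermat.Agent.GF.KCover.Field Fermat.Agent.GF.KCover.Field.Disc
open Fermat.Agent.GF.KCover.Field.WDataOf
open Fermat.Agent.GF.KCover.Field.RescaleTop Fermat.Agent.GF.KCover.Field.RescaleMod
open Fermat.Agent.GF.KCover.Field.RescaleRaw
open Fermat.Agent.GF.KCover.Compl Fermat.Agent.GF.KCover.Compl.Bridge
open Fermat.Agent.GF.KCover.Compl.RedCompl Fermat.Agent.GF.KCover.Compl.SheetsMod
open Fermat.Agent.GF.KCover.Node.OrdRedExt

/-! ### `nodeOrd` only depends on the reduction datum -/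

section Congr

variable {K F' k Ft : Type*} [Field K] [Field F'] [Algebra K F'] [Field k] [Field Ft]
  [Algebra k Ft]

theorem nodeOrd_congr {R' R'' : RedData K F' k Ft} (hR : R' = R'') (hun' : Unram R')
    (hun'' : Unram R'') (Pl : Place k Ft) (S : Subgroup F'ˣ) (y : S) :
    nodeOrd R' hun' Pl S y = nodeOrd R'' hun'' Pl S y := by
  subst hR
  rfl

end Congr

variable {N : ℕ} [NeZero N] {p : ℕ} [hpF : Fact p.Prime] {A : ValuationSubring Kb} {ζ : Kb}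

attribute [local instance] actFK algE'

variable (T : TameDatum N p A ζ)

/-! ### the Artin–Schreier frame in the sheet vocabulary -/

section Frame

variable {v g1 : F₁ N A ζ} (hv : v ≠ 0)
  (hrel : 1 + cz T ^ p * g1 = g₁ T * v ^ p)

section General

variable {k Ft : Type*} [Field k] [Field Ft] [Algebra k Ft] (R : RedData Kb (FK N) k Ft)
  {vR : Valuation (F₁ N A ζ) (ValuationSubring.ValueGroup R.Rw)}
  (hincl : ∀ a : F₁ N A ζ, R.Rw.valuation ((F₁ N A ζ).subtype a) = vR a)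
  (hD : IsDisc vR (ϖ₁ T))
  (harch : ∀ γ : ValuationSubring.ValueGroup R.Rw, γ ≠ 0 → ∃ n : ℕ, vR (ϖ₁ T) ^ n < γ)
  {γ : Pack.Lc hD} (hγ : γ ^ p = Pack.jc hD (g₁ T))

/-- the sheets of the Artin–Schreier frame are helper19's `sheetT`. -/
theorem sheetT_frameASb (i : ZMod p) :
    sheetK R (F₁ N A ζ).subtype hincl hD harch (ζ₁_prim T) (rootAS_pow' T hrel R hD hγ)
        (frameASb T hv hrel) i = sheetT T R hincl hD harch hγ i :=
  sheetK_frameASb T hv hrel R hincl hD harch hγ i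

theorem nodeOrd_sheetT_frameASb (hun : Unram R) (Pl : Place k Ft) (S : Subgroup T.Fpˣ) (y : S)
    (i : ZMod p) :
    nodeOrd (sheetK R (F₁ N A ζ).subtype hincl hD harch (ζ₁_prim T) (rootAS_pow' T hrel R hD hγ)
        (frameASb T hv hrel) i)
      (unram_sheetK R (F₁ N A ζ).subtype hincl hD harch (ζ₁_prim T) (rootAS_pow' T hrel R hD hγ)
        (frameASb T hv hrel) hun i) Pl S y =
      nodeOrd (sheetT T R hincl hD harch hγ i) (unram_sheetT T R hincl hD harch hγ hun i) Pl S y :=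
  nodeOrd_congr (sheetT_frameASb T hv hrel R hincl hD harch hγ i) _ _ Pl S y

end General

section First

variable (hA : (p : Kb) ∈ A.nonunits)
  (hD₁ : IsDisc (valF₁ T (galVal1 N A)) (ϖ₁ T))
  {γ₁ : Pack.Lc hD₁} (hγ₁ : γ₁ ^ p = Pack.jc hD₁ (g₁ T))

/-- the sheets of the Artin–Schreier frame above the first Gauss valuation are `sheet₁`. -/
theorem sheet₁_frameASb (i : ZMod p) :
    sheetK (redDataBar N A) (F₁ N A ζ).subtype (hincl₁ T) hD₁ (harch₁ T hA) (ζ₁_prim T)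
        (rootAS_pow' T hrel (redDataBar N A) hD₁ hγ₁) (frameASb T hv hrel) i =
      sheet₁ T hA hD₁ hγ₁ i :=
  sheetT_frameASb T hv hrel (redDataBar N A) (hincl₁ T) hD₁ (harch₁ T hA) hγ₁ i

theorem nodeOrd_sheet₁_frameASb
    (Pl : Place (IsLocalRing.ResidueField A) (FresBar N A)) (S : Subgroup T.Fpˣ) (y : S)
    (i : ZMod p) :
    nodeOrd (sheetK (redDataBar N A) (F₁ N A ζ).subtype (hincl₁ T) hD₁ (harch₁ T hA) (ζ₁_prim T)
        (rootAS_pow' T hrel (redDataBar N A) hD₁ hγ₁) (frameASb T hv hrel) i)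
      (unram_sheetK (redDataBar N A) (F₁ N A ζ).subtype (hincl₁ T) hD₁ (harch₁ T hA) (ζ₁_prim T)
        (rootAS_pow' T hrel (redDataBar N A) hD₁ hγ₁) (frameASb T hv hrel)
        (Fermat.Agent.GS.F.unram_redDataBar N A) i) Pl S y =
      nodeOrd (sheet₁ T hA hD₁ hγ₁ i) (unram_sheet₁ T hA hD₁ hγ₁ i) Pl S y :=
  nodeOrd_congr (sheet₁_frameASb T hv hrel hA hD₁ hγ₁ i) _ _ Pl S y

end First

section Second

variable {q : ℕ} (h : ExactDvd q N) (hA : (p : Kb) ∈ A.nonunits)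
  (hD₂ : IsDisc (valF₁ T (galVal2 N A h)) (ϖ₁ T))
  {γ₂ : Pack.Lc hD₂} (hγ₂ : γ₂ ^ p = Pack.jc hD₂ (g₁ T))

/-- the sheets of the Artin–Schreier frame above the second Gauss valuation are `sheet₂`. -/
theorem sheet₂_frameASb (i : ZMod p) :
    sheetK (redData2 N A h) (F₁ N A ζ).subtype (hincl₂ T h) hD₂ (harch₂ T h hA) (ζ₁_prim T)
        (rootAS_pow' T hrel (redData2 N A h) hD₂ hγ₂) (frameASb T hv hrel) i =
      sheet₂ T h hA hD₂ hγ₂ i :=
  sheetT_frameASb T hv hrel (redData2 N A h) (hincl₂ T h) hD₂ (harch₂ T h hA) hγ₂ i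

theorem nodeOrd_sheet₂_frameASb
    (Pl : Place (IsLocalRing.ResidueField A) (FresBar N A)) (S : Subgroup T.Fpˣ) (y : S)
    (i : ZMod p) :
    nodeOrd (sheetK (redData2 N A h) (F₁ N A ζ).subtype (hincl₂ T h) hD₂ (harch₂ T h hA)
        (ζ₁_prim T) (rootAS_pow' T hrel (redData2 N A h) hD₂ hγ₂) (frameASb T hv hrel) i)
      (unram_sheetK (redData2 N A h) (F₁ N A ζ).subtype (hincl₂ T h) hD₂ (harch₂ T h hA)
        (ζ₁_prim T) (rootAS_pow' T hrel (redData2 N A h) hD₂ hγ₂) (frameASb T hv hrel)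
        (Fermat.Agent.GS.F.unram_redData2 N A h) i) Pl S y =
      nodeOrd (sheet₂ T h hA hD₂ hγ₂ i) (unram_sheet₂ T h hA hD₂ hγ₂ i) Pl S y :=
  nodeOrd_congr (sheet₂_frameASb T hv hrel h hA hD₂ hγ₂ i) _ _ Pl S y

end Second

end Frame

/-! ### the frame-side valuation binders -/

section Val

/-- **`hcA`**. -/
theorem val_cz_lt_one₁ (hA : (p : Kb) ∈ A.nonunits) : valF₁ T (galVal1 N A) (cz T) < 1 :=
  valF₁_cz_lt_one T hA (galVal1 N A)

/-- **`hcB`**. -/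
theorem val_cz_lt_one₂ {q : ℕ} (h : ExactDvd q N) (hA : (p : Kb) ∈ A.nonunits) :
    valF₁ T (galVal2 N A h) (cz T) < 1 :=
  valF₁_cz_lt_one T hA (galVal2 N A h)

/-- `p` is topologically nilpotent for every Gauss valuation above `A ∣ p`. -/
theorem val_natCast_lt_one (hA : (p : Kb) ∈ A.nonunits) (V : GalVal N A) :
    valF₁ T V ((p : ℕ) : F₁ N A ζ) < 1 := by
  show V.W.valuation ((((p : ℕ) : F₁ N A ζ) : F₁ N A ζ) : FK N) < 1
  have e : ((((p : ℕ) : F₁ N A ζ) : F₁ N A ζ) : FK N) = algebraMap Kb (FK N) ((p : ℕ) : Kb) := by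
    rw [map_natCast]
    exact map_natCast (F₁ N A ζ).subtype p
  rw [e]
  exact V.val_const_lt_one ((A.mem_nonunits_iff).mp hA)

/-- **`hpA`**. -/
theorem val_natCast_lt_one₁ (hA : (p : Kb) ∈ A.nonunits) :
    valF₁ T (galVal1 N A) ((p : ℕ) : F₁ N A ζ) < 1 :=
  val_natCast_lt_one T hA (galVal1 N A)

/-- **`hpB`**. -/
theorem val_natCast_lt_one₂ {q : ℕ} (h : ExactDvd q N) (hA : (p : Kb) ∈ A.nonunits) :
    valF₁ T (galVal2 N A h) ((p : ℕ) : F₁ N A ζ) < 1 :=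
  val_natCast_lt_one T hA (galVal2 N A h)

variable {g1 : FK N}

/-- integrality of a `K'`-rational function for a Gauss valuation. -/
theorem val_gRaw_le_one (V : GalVal N A) (hg1 : g1 ∈ F₁ N A ζ) (hgV : g1 ∈ V.W) :
    valF₁ T V (gRaw hg1) ≤ 1 :=
  (V.W.valuation_le_one_iff g1).mpr hgV

/-- **`hg₁A`**. -/
theorem val_gRaw_le_one₁ (hg1 : g1 ∈ F₁ N A ζ) (hg1a : g1 ∈ (redDataBar N A).Rw) :
    valF₁ T (galVal1 N A) (gRaw hg1) ≤ 1 :=
  val_gRaw_le_one T (galVal1 N A) hg1 hg1a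

/-- **`hg₁B`**. -/
theorem val_gRaw_le_one₂ {q : ℕ} (h : ExactDvd q N) (hg1 : g1 ∈ F₁ N A ζ)
    (hg1b : g1 ∈ (redData2 N A h).Rw) :
    valF₁ T (galVal2 N A h) (gRaw hg1) ≤ 1 :=
  val_gRaw_le_one T (galVal2 N A h) hg1 hg1b

end Val

/-! ### the raw frame in the sheet vocabulary -/

section Raw

variable {u g1 : FK N} (hu0 : u ≠ 0) (hu : u ∈ F₁ N A ζ) (hg1 : g1 ∈ F₁ N A ζ)
  (hg0 : T.g₀ = u ^ p * (1 + algebraMap Kb (FK N) ((ζ - 1) ^ p) * g1))

section General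

variable {k Ft : Type*} [Field k] [Field Ft] [Algebra k Ft] (R : RedData Kb (FK N) k Ft)
  {vR : Valuation (F₁ N A ζ) (ValuationSubring.ValueGroup R.Rw)}
  (hincl : ∀ a : F₁ N A ζ, R.Rw.valuation ((F₁ N A ζ).subtype a) = vR a)
  (hD : IsDisc vR (ϖ₁ T))
  (harch : ∀ γ : ValuationSubring.ValueGroup R.Rw, γ ≠ 0 → ∃ n : ℕ, vR (ϖ₁ T) ^ n < γ)
  {γ : Pack.Lc hD} (hγ : γ ^ p = Pack.jc hD (g₁ T))

theorem sheetT_frameRawb (i : ZMod p) :
    sheetK R (F₁ N A ζ).subtype hincl hD harch (ζ₁_prim T)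
        (rootRaw_pow' T hu0 hu hg1 hg0 R hD hγ) (frameRawb T hu0 hu hg1 hg0) i =
      sheetT T R hincl hD harch hγ i :=
  sheetK_frameRawb T hu0 hu hg1 hg0 R hincl hD harch hγ i

theorem nodeOrd_sheetT_frameRawb (hun : Unram R) (Pl : Place k Ft) (S : Subgroup T.Fpˣ) (y : S)
    (i : ZMod p) :
    nodeOrd (sheetK R (F₁ N A ζ).subtype hincl hD harch (ζ₁_prim T)
        (rootRaw_pow' T hu0 hu hg1 hg0 R hD hγ) (frameRawb T hu0 hu hg1 hg0) i)
      (unram_sheetK R (F₁ N A ζ).subtype hincl hD harch (ζ₁_prim T)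
        (rootRaw_pow' T hu0 hu hg1 hg0 R hD hγ) (frameRawb T hu0 hu hg1 hg0) hun i) Pl S y =
      nodeOrd (sheetT T R hincl hD harch hγ i) (unram_sheetT T R hincl hD harch hγ hun i) Pl S y :=
  nodeOrd_congr (sheetT_frameRawb T hu0 hu hg1 hg0 R hincl hD harch hγ i) _ _ Pl S y

end General

section First

variable (hA : (p : Kb) ∈ A.nonunits)
  (hD₁ : IsDisc (valF₁ T (galVal1 N A)) (ϖ₁ T))
  {γ₁ : Pack.Lc hD₁} (hγ₁ : γ₁ ^ p = Pack.jc hD₁ (g₁ T))

theorem sheet₁_frameRawb (i : ZMod p) :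
    sheetK (redDataBar N A) (F₁ N A ζ).subtype (hincl₁ T) hD₁ (harch₁ T hA) (ζ₁_prim T)
        (rootRaw_pow' T hu0 hu hg1 hg0 (redDataBar N A) hD₁ hγ₁) (frameRawb T hu0 hu hg1 hg0) i =
      sheet₁ T hA hD₁ hγ₁ i :=
  sheetT_frameRawb T hu0 hu hg1 hg0 (redDataBar N A) (hincl₁ T) hD₁ (harch₁ T hA) hγ₁ i

/-- **the conclusion of `nl_node_data` on the raw frame = the clause of `NLSupplyK`.** -/
theorem nodeOrd_sheet₁_frameRawb
    (Pl : Place (IsLocalRing.ResidueField A) (FresBar N A)) (S : Subgroup T.Fpˣ) (y : S)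
    (i : ZMod p) :
    nodeOrd (sheetK (redDataBar N A) (F₁ N A ζ).subtype (hincl₁ T) hD₁ (harch₁ T hA) (ζ₁_prim T)
        (rootRaw_pow' T hu0 hu hg1 hg0 (redDataBar N A) hD₁ hγ₁) (frameRawb T hu0 hu hg1 hg0) i)
      (unram_sheetK (redDataBar N A) (F₁ N A ζ).subtype (hincl₁ T) hD₁ (harch₁ T hA) (ζ₁_prim T)
        (rootRaw_pow' T hu0 hu hg1 hg0 (redDataBar N A) hD₁ hγ₁) (frameRawb T hu0 hu hg1 hg0)
        (Fermat.Agent.GS.F.unram_redDataBar N A) i) Pl S y =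
      nodeOrd (sheet₁ T hA hD₁ hγ₁ i) (unram_sheet₁ T hA hD₁ hγ₁ i) Pl S y :=
  nodeOrd_congr (sheet₁_frameRawb T hu0 hu hg1 hg0 hA hD₁ hγ₁ i) _ _ Pl S y

end First

section Second

variable {q : ℕ} (h : ExactDvd q N) (hA : (p : Kb) ∈ A.nonunits)
  (hD₂ : IsDisc (valF₁ T (galVal2 N A h)) (ϖ₁ T))
  {γ₂ : Pack.Lc hD₂} (hγ₂ : γ₂ ^ p = Pack.jc hD₂ (g₁ T))

theorem sheet₂_frameRawb (i : ZMod p) :
    sheetK (redData2 N A h) (F₁ N A ζ).subtype (hincl₂ T h) hD₂ (harch₂ T h hA) (ζ₁_prim T)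
        (rootRaw_pow' T hu0 hu hg1 hg0 (redData2 N A h) hD₂ hγ₂) (frameRawb T hu0 hu hg1 hg0) i =
      sheet₂ T h hA hD₂ hγ₂ i :=
  sheetT_frameRawb T hu0 hu hg1 hg0 (redData2 N A h) (hincl₂ T h) hD₂ (harch₂ T h hA) hγ₂ i

end Second

end Raw

end Fermat.Agent.GF.KCover.Field.RescaleSheets
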