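/-
GATE-F (S44) / node GF-KCOVER-INST, FIELD SIDE, (U17) RESCALE core (helper13).
Mathlib + `Field/{Lift,Split}` only.

**Rescaling the Kummer generator.**  `H : IsAdjoinRoot F' (X ^ p - C g₀)` (`G = H.root`,
`G ^ p = g₀`) and `u : F₁`, `u ≠ 0`.  Then `F' = F₁(u G)` as well:

* `rescale H u hu : IsAdjoinRoot F' (X ^ p - C (g₀ * u ^ p))` with
  `rescale_root : (rescale H u hu).root = algebraMap F₁ F' u * H.root`;
* `deck_rescale : deck (rescale H u hu) hζ = deck H hζ` (SAME deck transformation);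
* `emb_rescale : emb (rescale H u hu) hζ j hγ' k = emb H hζ j hγ k` for `γ' = j u * γ`
  (SAME `p` embeddings, as ring homs `F' →+* L`), hence every structure pulled back along the
  embeddings (valuations `wv`, sheets) is the same for the two frames.

USE: the tame datum has `T.G ^ p = T.g₀ = (α h) ^ p * (1 + c ^ p * g₁)`; with `u := (α h)⁻¹` the
rescaled frame has root `1 + c * Z'` and `g₀' = 1 + c ^ p * g₁`, the shape the node leaves
(`FixedGenPlug`, `SheetIdx`, `ResLift`, `ASRel`) ask for, while `wData` / `sheetK` are unchanged.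
-/
import Mathlib
import Fermat.Agent.GF.KCover.Field.Lift
import Fermat.Agent.GF.KCover.Field.Split

set_option autoImplicit false

noncomputable section

namespace Fermat.Agent.GF.KCover.Field

open Polynomial

section Rescale

variable {F₁ F' : Type*} [Field F₁] [Field F'] [Algebra F₁ F']
variable {p : ℕ} {g₀ : F₁} (H : IsAdjoinRoot F' (X ^ p - C g₀ : F₁[X]))

/-- the substitution `X ↦ u X` as an algebra endomorphism of `F₁[X]`. -/
def scaleX (u : F₁) : F₁[X] →ₐ[F₁] F₁[X] := aeval (C u * X)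

@[simp] theorem scaleX_X (u : F₁) : scaleX u X = C u * X := aeval_X _

@[simp] theorem scaleX_C (u a : F₁) : scaleX u (C a) = C a := aeval_C _ a

theorem scaleX_comp_scaleX {u v : F₁} (huv : u * v = 1) :
    (scaleX u).comp (scaleX v) = AlgHom.id F₁ F₁[X] := by
  apply Polynomial.algHom_ext
  rw [AlgHom.comp_apply, scaleX_X, map_mul, scaleX_C, scaleX_X, AlgHom.id_apply, ← mul_assoc,
    ← C_mul, mul_comm v u, huv, C_1, one_mul]

theorem scaleX_scaleX {u v : F₁} (huv : u * v = 1) (q : F₁[X]) : scaleX u (scaleX v q) = q := by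
  have h := AlgHom.congr_fun (scaleX_comp_scaleX huv) q
  rwa [AlgHom.comp_apply, AlgHom.id_apply] at h

/-- `(X ^ p - C (g₀ u ^ p))(u X) = u ^ p (X ^ p - C g₀)`. -/
theorem scaleX_kummer (u : F₁) :
    scaleX u (X ^ p - C (g₀ * u ^ p) : F₁[X]) = C (u ^ p) * (X ^ p - C g₀) := by
  rw [map_sub, map_pow, scaleX_X, scaleX_C, mul_pow, ← C_pow, C_mul, mul_sub]
  ring

/-- `(X ^ p - C g₀)(u⁻¹ X) = u⁻ᵖ (X ^ p - C (g₀ u ^ p))`. -/
theorem scaleX_inv_kummer {u : F₁} (hu : u ≠ 0) :
    scaleX u⁻¹ (X ^ p - C g₀ : F₁[X]) = C ((u⁻¹) ^ p) * (X ^ p - C (g₀ * u ^ p)) := by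
  rw [map_sub, map_pow, scaleX_X, scaleX_C, mul_pow, ← C_pow, mul_sub, ← C_mul]
  congr 2
  rw [inv_pow, mul_comm g₀, ← mul_assoc, inv_mul_cancel₀ (pow_ne_zero p hu), one_mul]

/-- **the rescaled Kummer frame**: `F' = F₁(u G)`, `(u G) ^ p = g₀ u ^ p`. -/
def rescale (u : F₁) (hu : u ≠ 0) : IsAdjoinRoot F' (X ^ p - C (g₀ * u ^ p) : F₁[X]) where
  map := H.map.comp (scaleX u)
  map_surjective := by
    intro y
    obtain ⟨q, rfl⟩ := H.map_surjective y
    refine ⟨scaleX u⁻¹ q, ?_⟩
    rw [AlgHom.comp_apply, scaleX_scaleX (mul_inv_cancel₀ hu)]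
  ker_map := by
    ext q
    rw [RingHom.mem_ker, Ideal.mem_span_singleton]
    show H.map (scaleX u q) = 0 ↔ _
    rw [H.map_eq_zero_iff]
    constructor
    · rintro ⟨r, hr⟩
      refine ⟨C ((u⁻¹) ^ p) * scaleX u⁻¹ r, ?_⟩
      have h1 := congrArg (scaleX u⁻¹) hr
      rw [scaleX_scaleX (inv_mul_cancel₀ hu), map_mul, scaleX_inv_kummer hu] at h1
      rw [h1]
      ring
    · rintro ⟨r, hr⟩
      refine ⟨C (u ^ p) * scaleX u r, ?_⟩
      rw [hr, map_mul, scaleX_kummer]
      ring

@[simp] theorem rescale_root (u : F₁) (hu : u ≠ 0) :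
    (rescale H u hu).root = algebraMap F₁ F' u * H.root := by
  show H.map (scaleX u X) = _
  rw [scaleX_X, map_mul, H.map_X, ← H.algebraMap_apply]

/-- the old root in terms of the new one. -/
theorem root_eq_rescale_root (u : F₁) (hu : u ≠ 0) :
    H.root = algebraMap F₁ F' u⁻¹ * (rescale H u hu).root := by
  rw [rescale_root, ← mul_assoc, ← map_mul, inv_mul_cancel₀ hu, map_one, one_mul]

section Deck

variable {ζ : F₁} (hζ : IsPrimitiveRoot ζ p)

/-- **the deck transformation does not see the rescaling.** -/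
theorem deck_rescale (u : F₁) (hu : u ≠ 0) : deck (rescale H u hu) hζ = deck H hζ := by
  refine ringHom_ext H (fun a => ?_) ?_
  · rw [deck_algebraMap, deck_algebraMap]
  · have hu' : algebraMap F₁ F' u ≠ 0 := (map_ne_zero (algebraMap F₁ F')).mpr hu
    rw [root_eq_rescale_root H u hu, map_mul, deck_algebraMap, deck_root, ← root_eq_rescale_root,
      deck_root, rescale_root, map_inv₀]
    field_simp

end Deck

section Emb

variable {L : Type*} [Field L] [NeZero p] {ζ : F₁} (hζ : IsPrimitiveRoot ζ p)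
variable (j : F₁ →+* L) {γ : L} (hγ : γ ^ p = j g₀)

omit [NeZero p] in
include hγ in
/-- the root of the rescaled equation in `L`. -/
theorem rescale_root_pow (u : F₁) : (j u * γ) ^ p = j (g₀ * u ^ p) := by
  rw [mul_pow, hγ, map_mul, map_pow, mul_comm]

/-- **the `p` embeddings do not see the rescaling** (equality of ring homs `F' →+* L`). -/
theorem emb_rescale (u : F₁) (hu : u ≠ 0) {γ' : L} (hγ' : γ' ^ p = j (g₀ * u ^ p))
    (hγγ' : γ' = j u * γ) (k : ZMod p) :
    emb (rescale H u hu) hζ j hγ' k = emb H hζ j hγ k := by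
  refine ringHom_ext H (fun a => ?_) ?_
  · rw [emb_algebraMap, emb_algebraMap]
  · have hu' : j u ≠ 0 := (map_ne_zero j).mpr hu
    rw [root_eq_rescale_root H u hu, map_mul, emb_algebraMap, emb_root, ← root_eq_rescale_root,
      emb_root, hγγ', map_inv₀]
    field_simp

/-- the same with the canonical root `j u * γ`. -/
theorem emb_rescale' (u : F₁) (hu : u ≠ 0) (k : ZMod p) :
    emb (rescale H u hu) hζ j (rescale_root_pow j hγ u) k = emb H hζ j hγ k :=
  emb_rescale H hζ j hγ u hu (rescale_root_pow j hγ u) rfl k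

end Emb

/-! ### the same with the new constant given up to a propositional equality

Consumers often have the rescaled constant in another spelling (`incl (g₀ * u ^ p)` versus
`incl g₀ * incl u ^ p`); `rescaleTo` takes any `g'` with a proof `g' = g₀ * u ^ p`. -/

section To

/-- `rescale` with the new constant `g'` given by a propositional equality. -/
def rescaleTo (u : F₁) (hu : u ≠ 0) {g' : F₁} (hg' : g' = g₀ * u ^ p) :
    IsAdjoinRoot F' (X ^ p - C g' : F₁[X]) :=
  hg' ▸ rescale H u hu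

@[simp] theorem rescaleTo_root (u : F₁) (hu : u ≠ 0) {g' : F₁} (hg' : g' = g₀ * u ^ p) :
    (rescaleTo H u hu hg').root = algebraMap F₁ F' u * H.root := by
  subst hg'
  exact rescale_root H u hu

theorem root_eq_rescaleTo_root (u : F₁) (hu : u ≠ 0) {g' : F₁} (hg' : g' = g₀ * u ^ p) :
    H.root = algebraMap F₁ F' u⁻¹ * (rescaleTo H u hu hg').root := by
  subst hg'
  exact root_eq_rescale_root H u hu

theorem deck_rescaleTo {ζ : F₁} (hζ : IsPrimitiveRoot ζ p) (u : F₁) (hu : u ≠ 0) {g' : F₁}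
    (hg' : g' = g₀ * u ^ p) : deck (rescaleTo H u hu hg') hζ = deck H hζ := by
  subst hg'
  exact deck_rescale H hζ u hu

theorem emb_rescaleTo {L : Type*} [Field L] [NeZero p] {ζ : F₁} (hζ : IsPrimitiveRoot ζ p)
    (j : F₁ →+* L) {γ : L} (hγ : γ ^ p = j g₀) (u : F₁) (hu : u ≠ 0) {g' : F₁}
    (hg' : g' = g₀ * u ^ p) {γ' : L} (hγ' : γ' ^ p = j g') (hγγ' : γ' = j u * γ) (k : ZMod p) :
    emb (rescaleTo H u hu hg') hζ j hγ' k = emb H hζ j hγ k := by
  subst hg'
  exact emb_rescale H hζ j hγ u hu hγ' hγγ' k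

/-- a rescaled frame is over the same base: `IsOver` statements are about maps, not frames; this
records that a ring hom is determined by the OLD data through the NEW frame as well. -/
theorem ringHom_ext_rescaleTo {T : Type*} [CommRing T] (u : F₁) (hu : u ≠ 0) {g' : F₁}
    (hg' : g' = g₀ * u ^ p) {φ ψ : F' →+* T}
    (h1 : ∀ a, φ (algebraMap F₁ F' a) = ψ (algebraMap F₁ F' a))
    (h2 : φ (rescaleTo H u hu hg').root = ψ (rescaleTo H u hu hg').root) : φ = ψ :=
  ringHom_ext (rescaleTo H u hu hg') h1 h2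

end To

end Rescale

end Fermat.Agent.GF.KCover.Field
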