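/-
GATE-F (S44) / seam (U17) RESCALE, LAYER on top of the core (helper3; helper13 6864/6924).
**Everything built on a Kummer frame is unchanged when the root is rescaled by an element of the
base**: `H.root ↦ u · H.root`, `g₀ ↦ g₀ · u ^ p`.

Stated over the RELATION (so it applies to helper13's `Field/Rescale.rescale` through
`rescale_root`, and to any other pair of frames): `H : IsAdjoinRoot F' (X ^ p − C g₀)`,
`H' : IsAdjoinRoot F' (X ^ p − C g₀')` of the SAME extension `F' / F₁` with
`hroot : H'.root = algebraMap F₁ F' u * H.root`.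

* `g₀'_eq`            : `g₀' = g₀ * u ^ p`;  `root_eq_of_root` (`u ≠ 0`): `H.root = u⁻¹ · H'.root`;
* `emb_eq_of_root`    : `γ' = j u * γ` ⟹ `Split.emb H' hζ j hγ' k = Split.emb H hζ j hγ k` (ring homs);
* `deck_eq_of_root`   : `deck H' hζ = deck H hζ` (ring homs);  `deckEquiv_eq_of_root`;
* `wv_eq_of_root`     : `Pack.wv h H' hζ hγ' k = Pack.wv h H hζ hγ k`;
* the two-frame bridge (helper19 `Compl/Bridge`): `H₁ H₁'` over `E₁` (rescaled by `u`), `Hb Hb'` over
  the big field `F` (rescaled by `incl u`):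
  `beta_mul`, `embV_eq_of_root`, `embK_eq_of_root`, **`sheetK_eq_of_root`** (the SAME `RedData`),
  `hroot_of_root` (the binder `hroot : incl' H₁'.root = Hb'.root` of `Bridge.emb_incl` for the
  rescaled pair).
-/
import Fermat.Agent.GF.KCover.Field.Pack
import Fermat.Agent.GF.KCover.Field.Tame
import Fermat.Agent.GF.KCover.Compl.Bridge

set_option autoImplicit false
set_option linter.unusedSectionVars false

noncomputable section

namespace Fermat.Agent.GF.KCover.Field.RescaleTop

open Polynomial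
open Fermat.Agent.GF.KCover.Field Fermat.Agent.GF.KCover.Field.Disc
open Fermat.Agent.GF.KCover.Field.Pack
open Fermat.Agent.GF.KCover.Compl Fermat.Agent.GF.KCover.Compl.Bridge

/-! ### the frames -/

section Frames

variable {F₁ F' L : Type*} [Field F₁] [Field F'] [Algebra F₁ F'] [Field L]
variable {p : ℕ} {g₀ g₀' : F₁}
  (H : IsAdjoinRoot F' (X ^ p - C g₀ : F₁[X])) (H' : IsAdjoinRoot F' (X ^ p - C g₀' : F₁[X]))
  {u : F₁} (hroot : H'.root = algebraMap F₁ F' u * H.root)

include H H' hroot in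
/-- the Kummer functions of the two frames. -/
theorem g₀'_eq : g₀' = g₀ * u ^ p := by
  apply (algebraMap F₁ F').injective
  rw [← root_pow H', hroot, mul_pow, root_pow H, map_mul, map_pow, mul_comm]

include hroot in
theorem root_eq_of_root (hu : u ≠ 0) : H.root = algebraMap F₁ F' u⁻¹ * H'.root := by
  rw [hroot, ← mul_assoc, ← map_mul, inv_mul_cancel₀ hu, map_one, one_mul]

variable [NeZero p] {ζ : F₁} (hζ : IsPrimitiveRoot ζ p)

include hroot in
/-- **the embeddings of the two frames coincide** (roots matched by `γ' = j u * γ`). -/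
theorem emb_eq_of_root (j : F₁ →+* L) {γ γ' : L} (hγ : γ ^ p = j g₀) (hγ' : γ' ^ p = j g₀')
    (hγγ' : γ' = j u * γ) (k : ZMod p) : emb H' hζ j hγ' k = emb H hζ j hγ k := by
  refine ringHom_ext H' (fun a => ?_) ?_
  · rw [emb_algebraMap, emb_algebraMap]
  · rw [emb_root, hroot, map_mul, emb_algebraMap, emb_root, hγγ']
    ring

include hroot in
/-- **the deck transformations of the two frames coincide.** -/
theorem deck_eq_of_root : deck H' hζ = deck H hζ := by
  refine ringHom_ext H' (fun a => ?_) ?_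
  · rw [deck_algebraMap, deck_algebraMap]
  · rw [deck_root, hroot, map_mul, deck_algebraMap, deck_root]
    ring

include hroot in
theorem deckEquiv_eq_of_root (hp : p ≠ 0) : deckEquiv H' hζ hp = deckEquiv H hζ hp := by
  ext y
  rw [deckEquiv_apply, deckEquiv_apply, deck_eq_of_root H H' hroot hζ]

end Frames

/-! ### the valuations `w_k` -/

section Wv

variable {E₁ : Type*} [Field E₁] {Γ₀ : Type*} [LinearOrderedCommGroupWithZero Γ₀]
variable {v : Valuation E₁ Γ₀} {ϖ : E₁} (h : IsDisc v ϖ)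
variable {E' : Type*} [Field E'] [Algebra E₁ E'] {p : ℕ} [NeZero p] {g₀ g₀' : E₁}
  (H : IsAdjoinRoot E' (X ^ p - C g₀ : E₁[X])) (H' : IsAdjoinRoot E' (X ^ p - C g₀' : E₁[X]))
  {u : E₁} (hroot : H'.root = algebraMap E₁ E' u * H.root)
  {ζ : E₁} (hζ : IsPrimitiveRoot ζ p)
  {γ γ' : Lc h} (hγ : γ ^ p = jc h g₀) (hγ' : γ' ^ p = jc h g₀') (hγγ' : γ' = jc h u * γ)

include hroot hγγ' in
/-- **the `w_k` of the two frames coincide.** -/
theorem wv_eq_of_root (k : ZMod p) (y : E') :
    wv h H' hζ hγ' k y = wv h H hζ hγ k y := by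
  unfold wv
  rw [emb_eq_of_root H H' hroot hζ (jc h) hγ hγ' hγγ' k]

include H H' hroot hγ in
/-- the rescaled root is a root of the rescaled Kummer function. -/
theorem root_mul_pow : (jc h u * γ) ^ p = jc h g₀' := by
  rw [g₀'_eq H H' hroot, mul_pow, hγ, map_mul, map_pow, mul_comm]

end Wv

/-! ### the two-frame bridge -/

section BridgeTwo

variable {E₁ : Type*} [Field E₁] {Γ₀ : Type*} [LinearOrderedCommGroupWithZero Γ₀]
variable {v : Valuation E₁ Γ₀} {ϖ : E₁} (h : IsDisc v ϖ)
variable {F : Type*} [Field F] (V : Valuation F Γ₀)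
variable (incl : E₁ →+* F) (hincl : ∀ a, V (incl a) = v a)
variable (harch : ∀ γ : Γ₀, γ ≠ 0 → ∃ n : ℕ, v ϖ ^ n < γ)
variable {E' : Type*} [Field E'] [Algebra E₁ E'] {p : ℕ} [NeZero p] {g₀ g₀' : E₁}
  (H₁ : IsAdjoinRoot E' (X ^ p - C g₀ : E₁[X])) (H₁' : IsAdjoinRoot E' (X ^ p - C g₀' : E₁[X]))
  {u : E₁} (hroot₁ : H₁'.root = algebraMap E₁ E' u * H₁.root)
  {ζ : E₁} (hζ : IsPrimitiveRoot ζ p)
  {γ γ' : Lc h} (hγ : γ ^ p = jc h g₀) (hγ' : γ' ^ p = jc h g₀') (hγγ' : γ' = jc h u * γ)
variable {F' : Type*} [Field F'] [Algebra F F']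
  (Hb : IsAdjoinRoot F' (X ^ p - C (incl g₀) : F[X]))
  (Hb' : IsAdjoinRoot F' (X ^ p - C (incl g₀') : F[X]))
  (hrootb : Hb'.root = algebraMap F F' (incl u) * Hb.root)
  (incl' : E' →+* F')
  (hincl' : ∀ a : E₁, incl' (algebraMap E₁ E' a) = algebraMap F F' (incl a))
  (hroot : incl' H₁.root = Hb.root)

include hγγ' in
theorem beta_mul : beta h V incl hincl harch γ' =
    j V (incl u) * beta h V incl hincl harch γ := by
  rw [hγγ', map_mul, beta_jc]

include hrootb hγγ' in
/-- **the big embeddings of the two frames coincide.** -/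
theorem embV_eq_of_root (k : ZMod p) :
    embV h V incl hincl harch hζ hγ' Hb' k = embV h V incl hincl harch hζ hγ Hb k := by
  unfold embV
  exact emb_eq_of_root Hb Hb' hrootb (isPrimitiveRoot_incl incl hζ) (j V)
    (beta_root h V incl hincl harch hγ) (beta_root h V incl hincl harch hγ')
    (beta_mul h V incl hincl harch hγγ') k

include hincl' hroot hroot₁ hrootb in
/-- the binder `hroot` of `Bridge.emb_incl` for the rescaled pair of frames. -/
theorem hroot_of_root : incl' H₁'.root = Hb'.root := by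
  rw [hroot₁, map_mul, hincl', hroot, hrootb]

end BridgeTwo

/-! ### the sheets -/

section Sheets

open Fermat.Agent.GJ.J1 Fermat.Agent.GF.Trop Fermat.Agent.GF.KCover.Compl.RedCompl

variable {K F k Ft : Type*} [Field K] [Field F] [Algebra K F] [Field k] [Field Ft] [Algebra k Ft]
variable (R : RedData K F k Ft)
variable {F' : Type*} [Field F'] [Algebra K F'] [Algebra F F'] [IsScalarTower K F F']

/-- `sheet` only depends on the embedding. -/
theorem sheet_congr {e e' : F' →ₐ[K] LR R} (hee' : e = e')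
    (he : ∀ x : F, e (algebraMap F F' x) = algebraMap F (LR R) x)
    (he' : ∀ x : F, e' (algebraMap F F' x) = algebraMap F (LR R) x) :
    sheet R e he = sheet R e' he' := by
  subst hee'
  rfl

variable {E₁ : Type*} [Field E₁] {ϖ : E₁} {v : Valuation E₁ (ValuationSubring.ValueGroup R.Rw)}
variable (incl : E₁ →+* F) (hincl : ∀ a : E₁, R.Rw.valuation (incl a) = v a)
variable (h : IsDisc v ϖ)
variable (harch : ∀ γ : ValuationSubring.ValueGroup R.Rw, γ ≠ 0 → ∃ n : ℕ, v ϖ ^ n < γ)
variable {p : ℕ} [NeZero p] {g₀ g₀' : E₁} {u : E₁}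
  {ζ : E₁} (hζ : IsPrimitiveRoot ζ p)
  {γ γ' : Lc h} (hγ : γ ^ p = jc h g₀) (hγ' : γ' ^ p = jc h g₀') (hγγ' : γ' = jc h u * γ)
  (Hb : IsAdjoinRoot F' (X ^ p - C (incl g₀) : F[X]))
  (Hb' : IsAdjoinRoot F' (X ^ p - C (incl g₀') : F[X]))
  (hrootb : Hb'.root = algebraMap F F' (incl u) * Hb.root)

include hrootb hγγ' in
theorem embK_eq_of_root (i : ZMod p) :
    embK R incl hincl h harch hζ hγ' Hb' i = embK R incl hincl h harch hζ hγ Hb i := by
  apply AlgHom.ext
  intro y
  show embV h R.Rw.valuation incl hincl harch hζ hγ' Hb' i y =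
    embV h R.Rw.valuation incl hincl harch hζ hγ Hb i y
  rw [embV_eq_of_root h R.Rw.valuation incl hincl harch hζ hγ hγ' hγγ' Hb Hb' hrootb i]

include hrootb hγγ' in
/-- **the sheets of the two frames are the SAME reduction datum.** -/
theorem sheetK_eq_of_root (i : ZMod p) :
    sheetK R incl hincl h harch hζ hγ' Hb' i = sheetK R incl hincl h harch hζ hγ Hb i := by
  unfold sheetK
  exact sheet_congr R (embK_eq_of_root R incl hincl h harch hζ hγ hγ' hγγ' Hb Hb' hrootb i) _ _

end Sheets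

end Fermat.Agent.GF.KCover.Field.RescaleTop
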