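/-
GATE-F (S44) / seam (U17) RESCALE, MODULAR LAYER (helper3; helper13 6864/6924).
**The Artin–Schreier frame of the concrete cover**: the tame datum has
`T.G ^ p = T.g₀ = (α h) ^ p (1 + c ^ p g1)` (`c = ζ − 1`, helper40 `ASFormChart.exists_asForm_chart` +
helper31 `RepUnique.rep_unique`), so with `v := (α h)⁻¹ ∈ F_{K'}` the rescaled Kummer frame of
`E' T / F₁` has root `G' = v · T.G = 1 + c Z'` and `g₀' = 1 + c ^ p g1` — the shape of the node leaves
(`FixedGenPlug`, `SheetIdx`, `ResLift`, `ASRel`, helper42 `nl_node_sheets`: `hζc`, `hZ'`) — while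
`wOf` / `wData` / `Bridge.sheetK` of helper31's `NodeSupply` are UNCHANGED.

INPUT (one relation in `F₁ = F_{K'}`): `v g1 : F₁ N A ζ`, `v ≠ 0`,
`hrel : 1 + (ζ₁ T − 1) ^ p * g1 = g₁ T * v ^ p`.

* `cz T = ζ₁ T − 1`, `ζ₁_eq`, `cz_ne_zero`, `valF₁_cz_lt_one`;
* `frameAS T v hv hrel : IsAdjoinRoot (E' T) (X ^ p − C (1 + cz T ^ p * g1))`, `frameAS_root`,
  `Zas`, **`frameAS_root_eq : root = 1 + algebraMap (cz T) * Zas`** (`hZ'`), `coe_Zas`;
* `deck_frameAS`, `deckEquiv_frameAS` : the deck transformation is the one of `isAdj' T`;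
* `rootAS_pow`, **`wOf_eq_wv_frameAS`** : `wOf T hD hγ k y = Pack.wv hD (frameAS …) … k (toE' T y)`;
* the big frame `frameASb T v hv hrel : IsAdjoinRoot T.Fp (X ^ p − C ↑(1 + cz T ^ p * g1))` over
  `F_N`, `frameASb_root`, **`hroot_AS`** (binder `hroot` of `Bridge.emb_incl` / `nl_node_sheets`),
  `hincl'_AS` (binder `hincl'`), **`sheetK_frameASb`** : the sheets of the AS frame are the sheets of
  the `T`-frame (the SAME `RedData`).
-/
import Fermat.Agent.GF.KCover.Field.WDataOf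
import Fermat.Agent.GF.KCover.Field.Rescale
import Fermat.Agent.GF.KCover.Field.RescaleTop

set_option autoImplicit false
set_option linter.unusedSectionVars false

noncomputable section

namespace Fermat.Agent.GF.KCover.Field.RescaleMod

open AlgebraicCurve ModularCurve Polynomial
open Fermat.Agent.GJ.KumGroup Fermat.Agent.GJ.Kum.KumType Fermat.Agent.GK.SS
open Fermat.Agent.GF.F2Asm.KummerExt Fermat.Agent.GF.F2Asm.Inst Fermat.Agent.GF.KCover
open Fermat.Agent.GF.Peu
open Fermat.Agent.GF.KCover.Field Fermat.Agent.GF.KCover.Field.Disc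
open Fermat.Agent.GF.KCover.Field.WDataOf Fermat.Agent.GF.KCover.Field.RescaleTop
open Fermat.Agent.GF.KCover.Compl Fermat.Agent.GF.KCover.Compl.Bridge

local notation "GQ" => (AlgebraicClosure ℚ ≃ₐ[ℚ] AlgebraicClosure ℚ)

variable {N : ℕ} [NeZero N] {p : ℕ} [hpF : Fact p.Prime] {A : ValuationSubring Kb} {ζ : Kb}

attribute [local instance] actFK algE'

variable (T : TameDatum N p A ζ)

/-! ### the Artin–Schreier constant `c = ζ − 1` -/

/-- `c = ζ − 1` as a `K'`-rational function. -/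
def cz : F₁ N A ζ := ζ₁ T - 1

theorem ζ₁_eq : ζ₁ T = 1 + cz T := by
  unfold cz
  ring

theorem cz_eq_neg : cz T = -ϖ₁ T := by
  apply Subtype.ext
  show algebraMap Kb (FK N) ζ - 1 = -(algebraMap Kb (FK N) (1 - ζ))
  rw [map_sub, map_one]
  ring

theorem coe_cz : ((cz T : F₁ N A ζ) : FK N) = algebraMap Kb (FK N) (ζ - 1) := by
  show algebraMap Kb (FK N) ζ - 1 = _
  rw [map_sub, map_one]

theorem cz_ne_zero : cz T ≠ 0 := by
  intro h0
  have h1 : ζ₁ T = 1 := by rw [ζ₁_eq, h0, add_zero]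
  exact (ζ₁_prim T).ne_one hpF.out.one_lt h1

theorem valF₁_cz_lt_one (hA : (p : Kb) ∈ A.nonunits) (V : GalVal N A) :
    valF₁ T V (cz T) < 1 := by
  rw [cz_eq_neg, Valuation.map_neg]
  show V.W.valuation (algebraMap Kb (FK N) (1 - ζ)) < 1
  exact V.val_const_lt_one ((A.mem_nonunits_iff).mp
    (Fermat.Agent.GL.Local.InertiaField.one_sub_zeta_mem_nonunits A hpF.out hA T.prim))

/-! ### the Artin–Schreier frame of `E' T / F₁` -/

section Frame

variable {v g1 : F₁ N A ζ} (hv : v ≠ 0)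
  (hrel : 1 + cz T ^ p * g1 = g₁ T * v ^ p)

/-- **the Artin–Schreier frame**: `E' T = F₁(G')`, `G' = v · T.G`, `G' ^ p = 1 + c ^ p g1`. -/
def frameAS : IsAdjoinRoot (E' T) (X ^ p - C (1 + cz T ^ p * g1) : (F₁ N A ζ)[X]) :=
  rescaleTo (isAdj' T) v hv hrel

theorem frameAS_root :
    (frameAS T hv hrel).root = algebraMap (F₁ N A ζ) (E' T) v * (isAdj' T).root :=
  rescaleTo_root (isAdj' T) v hv hrel

theorem coe_frameAS_root :
    (((frameAS T hv hrel).root : E' T) : T.Fp) = algebraMap (FK N) T.Fp (v : FK N) * T.G := by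
  rw [frameAS_root]
  show ((algebraMap (F₁ N A ζ) (E' T) v : E' T) : T.Fp) * (((isAdj' T).root : E' T) : T.Fp) = _
  rw [coe_algebraMap_E', coe_isAdj'_root]

/-- the Artin–Schreier variable `Z' = (G' − 1) / c`. -/
def Zas : E' T :=
  ((frameAS T hv hrel).root - 1) / algebraMap (F₁ N A ζ) (E' T) (cz T)

/-- **`hZ'`**: `G' = 1 + c Z'`. -/
theorem frameAS_root_eq :
    (frameAS T hv hrel).root = 1 + algebraMap (F₁ N A ζ) (E' T) (cz T) * Zas T hv hrel := by
  have hc : algebraMap (F₁ N A ζ) (E' T) (cz T) ≠ 0 :=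
    (map_ne_zero (algebraMap (F₁ N A ζ) (E' T))).mpr (cz_ne_zero T)
  unfold Zas
  rw [mul_div_cancel₀ _ hc]
  ring

/-- the Artin–Schreier equation `(1 + c Z') ^ p = 1 + c ^ p g1`. -/
theorem one_add_mul_Zas_pow :
    (1 + algebraMap (F₁ N A ζ) (E' T) (cz T) * Zas T hv hrel) ^ p =
      algebraMap (F₁ N A ζ) (E' T) (1 + cz T ^ p * g1) := by
  rw [← frameAS_root_eq]
  exact root_pow (frameAS T hv hrel)

theorem deck_frameAS :
    deck (frameAS T hv hrel) (ζ₁_prim T) = deck (isAdj' T) (ζ₁_prim T) :=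
  deck_rescaleTo (isAdj' T) (ζ₁_prim T) v hv hrel

theorem deckEquiv_frameAS :
    deckEquiv (frameAS T hv hrel) (ζ₁_prim T) hpF.out.ne_zero =
      deckEquiv (isAdj' T) (ζ₁_prim T) hpF.out.ne_zero :=
  deckEquiv_eq_of_root (isAdj' T) (frameAS T hv hrel) (frameAS_root T hv hrel) (ζ₁_prim T)
    hpF.out.ne_zero

/-! ### the valuations -/

section Wv

variable {V : GalVal N A} (hD : IsDisc (valF₁ T V) (ϖ₁ T)) {γ : Pack.Lc hD}
  (hγ : γ ^ p = Pack.jc hD (g₁ T))

include hγ hrel in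
/-- the root of the Artin–Schreier frame in the completion. -/
theorem rootAS_pow : (Pack.jc hD v * γ) ^ p = Pack.jc hD (1 + cz T ^ p * g1) := by
  rw [hrel, mul_pow, hγ, map_mul, map_pow, mul_comm]

/-- **`wOf` read on the Artin–Schreier frame.** -/
theorem wOf_eq_wv_frameAS (k : ZMod p) (y : fixedUnits (tameGroup A ζ) T.Fp) :
    wOf T hD hγ k y =
      Pack.wv hD (frameAS T hv hrel) (ζ₁_prim T) (rootAS_pow T hrel hD hγ) k (toE' T y) := by
  unfold wOf
  exact (wv_eq_of_root hD (isAdj' T) (frameAS T hv hrel) (frameAS_root T hv hrel) (ζ₁_prim T) hγ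
    (rootAS_pow T hrel hD hγ) rfl k (toE' T y)).symm

/-- the same for an arbitrary element of `E' T`. -/
theorem wv_frameAS (k : ZMod p) (y : E' T) :
    Pack.wv hD (frameAS T hv hrel) (ζ₁_prim T) (rootAS_pow T hrel hD hγ) k y =
      Pack.wv hD (isAdj' T) (ζ₁_prim T) hγ k y :=
  wv_eq_of_root hD (isAdj' T) (frameAS T hv hrel) (frameAS_root T hv hrel) (ζ₁_prim T) hγ
    (rootAS_pow T hrel hD hγ) rfl k y

end Wv

/-! ### the big frame over `F_N` and the sheets -/

include hv in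
theorem coe_v_ne_zero : ((v : F₁ N A ζ) : FK N) ≠ 0 := fun h0 => hv (Subtype.ext h0)

include hrel in
theorem coe_hrel :
    (F₁ N A ζ).subtype (1 + cz T ^ p * g1) = T.g₀ * ((v : F₁ N A ζ) : FK N) ^ p := by
  rw [hrel, map_mul, map_pow]
  rfl

/-- **the Artin–Schreier frame of the big cover** `T.Fp / F_N`. -/
def frameASb :
    IsAdjoinRoot T.Fp (X ^ p - C ((F₁ N A ζ).subtype (1 + cz T ^ p * g1)) : (FK N)[X]) :=
  rescaleTo (isAdj T) ((v : F₁ N A ζ) : FK N) (coe_v_ne_zero hv) (coe_hrel T hrel)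

theorem frameASb_root :
    (frameASb T hv hrel).root = algebraMap (FK N) T.Fp ((v : F₁ N A ζ) : FK N) * (isAdj T).root :=
  rescaleTo_root (isAdj T) _ (coe_v_ne_zero hv) (coe_hrel T hrel)

/-- the binder `hincl'` of `Bridge.emb_incl` / `nl_node_sheets` (`incl' := (E' T).subtype`). -/
theorem hincl'_AS (a : F₁ N A ζ) :
    (E' T).subtype (algebraMap (F₁ N A ζ) (E' T) a) =
      algebraMap (FK N) T.Fp ((F₁ N A ζ).subtype a) := rfl

/-- the binder `hroot` for the `T`-frame. -/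
theorem hroot_T : (E' T).subtype (isAdj' T).root = (isAdj T).root := by
  show (((isAdj' T).root : E' T) : T.Fp) = _
  rw [coe_isAdj'_root, isAdj_root]

/-- **the binder `hroot` for the Artin–Schreier frames.** -/
theorem hroot_AS : (E' T).subtype (frameAS T hv hrel).root = (frameASb T hv hrel).root := by
  show (((frameAS T hv hrel).root : E' T) : T.Fp) = _
  rw [coe_frameAS_root, frameASb_root, isAdj_root]

section Sheets

open Fermat.Agent.GJ.J1

variable {k Ft : Type*} [Field k] [Field Ft] [Algebra k Ft]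
  (R : RedData Kb (FK N) k Ft)
  {vR : Valuation (F₁ N A ζ) (ValuationSubring.ValueGroup R.Rw)}
  (hincl : ∀ a : F₁ N A ζ, R.Rw.valuation ((F₁ N A ζ).subtype a) = vR a)
  (hD : IsDisc vR (ϖ₁ T))
  (harch : ∀ γ : ValuationSubring.ValueGroup R.Rw, γ ≠ 0 → ∃ n : ℕ, vR (ϖ₁ T) ^ n < γ)
  {γ : Pack.Lc hD} (hγ : γ ^ p = Pack.jc hD (g₁ T))

include hγ hrel in
theorem rootAS_pow' : (Pack.jc hD v * γ) ^ p = Pack.jc hD (1 + cz T ^ p * g1) := by
  rw [hrel, mul_pow, hγ, map_mul, map_pow, mul_comm]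

/-- **the sheets of the Artin–Schreier frame are the sheets of the `T`-frame.** -/
theorem sheetK_frameASb (i : ZMod p) :
    sheetK R (F₁ N A ζ).subtype hincl hD harch (ζ₁_prim T) (rootAS_pow' T hrel R hD hγ)
        (frameASb T hv hrel) i =
      sheetK R (F₁ N A ζ).subtype hincl hD harch (ζ₁_prim T) hγ (isAdj T) i :=
  sheetK_eq_of_root R (F₁ N A ζ).subtype hincl hD harch (ζ₁_prim T) hγ
    (rootAS_pow' T hrel R hD hγ) rfl (isAdj T) (frameASb T hv hrel) (frameASb_root T hv hrel) i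

end Sheets

end Frame

end Fermat.Agent.GF.KCover.Field.RescaleMod
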