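/-
GATE-F (S44) / node GF-KCOVER-INST, FIELD SIDE (L-a) of helper84 6058, file 7 (helper3).
Mathlib + helper84's `Node/Norm` (for the cross-check only).
**`Δ~ = ⟨x⟩` acting on a stable group `S` of units and the descent of the node lemma (I2).**

`x : F' ≃+* F'` (the tame generator), `S : Subgroup F'ˣ` with `x S ⊆ S` (in the gate: the
`K'`-rational functions of the cover whose divisor is divisible by `p` at the horizontal primes
through one node).

* `actS x S hS : S →* S` — `x` on `S`; `coe_actS`;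
* `nrmS x S hS d u = ∏_{i<d} xⁱ u ∈ S`; `coe_nrmS` (`= normTame x d u`), `map_nrmS`
  (`w (N u) = d · w u` for additive `x`-invariant `w`), `map_coe_nrmS` (`x (N u) = N u` when
  `x ^ d` fixes `u`);
* **`nl_of_fixedTame`** — the field form of `Node.Norm.nl_of_fixed`: `w1 w2 n : S → ℤ` additive
  and `x`-invariant, `d` prime to `p`, `x ^ d` trivial on `S`; the node lemma
  `w1 u = 0 → w2 u = 0 → p ∣ n u` for the `x`-FIXED `u ∈ S` implies it for all `u ∈ S`;
* `tameAction x S hS hS' : MulDistribMulAction (tame x) S` (the literal `Δ~`-action on `U`) and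
  `nl_of_fixedTame'` = `Node.Norm.nl_of_fixed` instantiated with it (shape check).
-/
import Mathlib
import Fermat.Agent.GF.KCover.Field.Fix
import Fermat.Agent.GF.KCover.Node.Norm

set_option autoImplicit false

noncomputable section

namespace Fermat.Agent.GF.KCover.Field.Act

open Fermat.Agent.GF.KCover.Field

variable {F' : Type*} [Field F']

section Stable

variable (x : F' ≃+* F') (S : Subgroup F'ˣ)
  (hS : ∀ u ∈ S, Units.map ((x : F' ≃+* F') : F' →* F') u ∈ S)

/-- `x` on the stable group `S`. -/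
def actS : S →* S :=
  ((Units.map ((x : F' ≃+* F') : F' →* F')).comp S.subtype).codRestrict S (fun u => hS u u.2)

@[simp] theorem coe_actS (u : S) : (((actS x S hS u : S) : F'ˣ) : F') = x ((u : F'ˣ) : F') := rfl

theorem coe_actS_iterate (i : ℕ) (u : S) :
    (((((actS x S hS)^[i]) u : S) : F'ˣ) : F') = (x ^ i) ((u : F'ˣ) : F') := by
  induction i generalizing u with
  | zero => rfl
  | succ i ih =>
    rw [Function.iterate_succ_apply, ih, coe_actS, pow_succ]
    rfl

/-- the norm `∏_{i<d} xⁱ u` in `S`. -/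
def nrmS (d : ℕ) (u : S) : S := ∏ i ∈ Finset.range d, ((actS x S hS)^[i]) u

theorem coe_nrmS (d : ℕ) (u : S) :
    (((nrmS x S hS d u : S) : F'ˣ) : F') = normTame x d ((u : F'ˣ) : F') := by
  unfold nrmS normTame
  have h1 : ∀ (s : Finset ℕ) (g : ℕ → S),
      ((((∏ i ∈ s, g i : S)) : F'ˣ) : F') = ∏ i ∈ s, (((g i : S) : F'ˣ) : F') := by
    intro s g
    classical
    induction s using Finset.induction_on with
    | empty => simp
    | insert a s ha ih =>
      rw [Finset.prod_insert ha, Finset.prod_insert ha, ← ih]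
      rfl
  rw [h1]
  exact Finset.prod_congr rfl fun i _ => coe_actS_iterate x S hS i u

/-- an additive `x`-invariant function is multiplied by `d` by the norm. -/
theorem map_nrmS (w : S → ℤ) (hmul : ∀ y z, w (y * z) = w y + w z)
    (hinv : ∀ u : S, w (actS x S hS u) = w u) (d : ℕ) (u : S) :
    w (nrmS x S hS d u) = (d : ℤ) * w u := by
  have hone : w 1 = 0 := by
    have h := hmul 1 1
    rw [mul_one] at h
    linarith
  have hit : ∀ i : ℕ, ∀ u : S, w (((actS x S hS)^[i]) u) = w u := by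
    intro i
    induction i with
    | zero => intro u; rfl
    | succ i ih =>
      intro u
      rw [Function.iterate_succ_apply, ih, hinv]
  unfold nrmS
  induction d with
  | zero => simp [hone]
  | succ d ih =>
    rw [Finset.prod_range_succ, hmul, ih, hit]
    push_cast
    ring

/-- the norm is `x`-fixed as soon as `x ^ d` fixes `u`. -/
theorem map_coe_nrmS {d : ℕ} (u : S) (hxd : (x ^ d) ((u : F'ˣ) : F') = ((u : F'ˣ) : F')) :
    x (((nrmS x S hS d u : S) : F'ˣ) : F') = (((nrmS x S hS d u : S) : F'ˣ) : F') := by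
  rw [coe_nrmS]
  set y : F' := ((u : F'ˣ) : F') with hy
  unfold normTame
  rw [map_prod]
  have h1 : ∀ i, x ((x ^ i) y) = (x ^ (i + 1)) y := fun i => by rw [pow_succ']; rfl
  simp only [h1]
  cases d with
  | zero => simp
  | succ m =>
    rw [Finset.prod_range_succ, Finset.prod_range_succ' (fun i => (x ^ i) y), hxd, pow_zero]
    rfl

/-- **(I2), field form**: the node lemma descends from the `x`-fixed elements of `S` to `S`. -/
theorem nl_of_fixedTame {p d : ℕ} (hcop : Nat.Coprime d p)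
    (hxd : ∀ u : S, (x ^ d) ((u : F'ˣ) : F') = ((u : F'ˣ) : F'))
    (w1 w2 n : S → ℤ)
    (h1 : ∀ y z, w1 (y * z) = w1 y + w1 z) (h2 : ∀ y z, w2 (y * z) = w2 y + w2 z)
    (hn : ∀ y z, n (y * z) = n y + n z)
    (i1 : ∀ u : S, w1 (actS x S hS u) = w1 u) (i2 : ∀ u : S, w2 (actS x S hS u) = w2 u)
    (inn : ∀ u : S, n (actS x S hS u) = n u)
    (NL0 : ∀ u : S, x ((u : F'ˣ) : F') = ((u : F'ˣ) : F') → w1 u = 0 → w2 u = 0 →
      (p : ℤ) ∣ n u)
    (u : S) (hu1 : w1 u = 0) (hu2 : w2 u = 0) : (p : ℤ) ∣ n u := by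
  have h := NL0 (nrmS x S hS d u) (map_coe_nrmS x S hS u (hxd u))
    (by rw [map_nrmS x S hS w1 h1 i1, hu1, mul_zero])
    (by rw [map_nrmS x S hS w2 h2 i2, hu2, mul_zero])
  rw [map_nrmS x S hS n hn inn] at h
  have hcop' : IsCoprime (p : ℤ) (d : ℤ) := by
    exact_mod_cast (Nat.isCoprime_iff_coprime.2 hcop.symm)
  exact hcop'.dvd_of_dvd_mul_left h

end Stable

/-! ### the literal action of `Δ~ = tame x` -/

section Action

variable (x : F' ≃+* F') (S : Subgroup F'ˣ)

/-- `S` is stable under every element of `Δ~`. -/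
theorem stable_of_mem_tame
    (hS : ∀ u ∈ S, Units.map ((x : F' ≃+* F') : F' →* F') u ∈ S)
    (hS' : ∀ u ∈ S, Units.map ((x⁻¹ : F' ≃+* F') : F' →* F') u ∈ S)
    {g : F' ≃+* F'} (hg : g ∈ tame x) {u : F'ˣ} (hu : u ∈ S) :
    Units.map ((g : F' ≃+* F') : F' →* F') u ∈ S := by
  obtain ⟨n, rfl⟩ := Subgroup.mem_zpowers_iff.mp hg
  clear hg
  induction n using Int.induction_on generalizing u with
  | zero =>
    have : Units.map (((x ^ (0 : ℤ) : F' ≃+* F')) : F' →* F') u = u := by
      ext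
      simp
    rw [this]
    exact hu
  | succ n ih =>
    have : Units.map (((x ^ ((n : ℤ) + 1) : F' ≃+* F')) : F' →* F') u =
        Units.map (((x ^ (n : ℤ) : F' ≃+* F')) : F' →* F')
          (Units.map ((x : F' ≃+* F') : F' →* F') u) := by
      ext
      rw [zpow_add, zpow_one]
      rfl
    rw [this]
    exact ih (hS u hu)
  | pred n ih =>
    have : Units.map (((x ^ (-(n : ℤ) - 1) : F' ≃+* F')) : F' →* F') u =
        Units.map (((x ^ (-(n : ℤ)) : F' ≃+* F')) : F' →* F')
          (Units.map ((x⁻¹ : F' ≃+* F') : F' →* F') u) := by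
      ext
      rw [sub_eq_add_neg, zpow_add, zpow_neg_one]
      rfl
    rw [this]
    exact ih (hS' u hu)

/-- **the action of `Δ~ = tame x` on the stable group `S`.** -/
@[reducible] def tameAction
    (hS : ∀ u ∈ S, Units.map ((x : F' ≃+* F') : F' →* F') u ∈ S)
    (hS' : ∀ u ∈ S, Units.map ((x⁻¹ : F' ≃+* F') : F' →* F') u ∈ S) :
    MulDistribMulAction (tame x) S where
  smul g u := ⟨Units.map (((g : F' ≃+* F')) : F' →* F') (u : F'ˣ),
    stable_of_mem_tame x S hS hS' g.2 u.2⟩
  one_smul u := by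
    apply Subtype.ext
    apply Units.ext
    rfl
  mul_smul g h u := by
    apply Subtype.ext
    apply Units.ext
    rfl
  smul_mul g u v := by
    apply Subtype.ext
    apply Units.ext
    show (g : F' ≃+* F') (((u : F'ˣ) : F') * ((v : F'ˣ) : F')) = _
    rw [map_mul]
    rfl
  smul_one g := by
    apply Subtype.ext
    apply Units.ext
    show (g : F' ≃+* F') 1 = 1
    rw [map_one]

theorem coe_tameAction_smul
    (hS : ∀ u ∈ S, Units.map ((x : F' ≃+* F') : F' →* F') u ∈ S)
    (hS' : ∀ u ∈ S, Units.map ((x⁻¹ : F' ≃+* F') : F' →* F') u ∈ S) (g : tame x) (u : S) :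
    letI := tameAction x S hS hS'
    ((((g • u : S)) : F'ˣ) : F') = (g : F' ≃+* F') ((u : F'ˣ) : F') := rfl

/-- `Node.Norm.nl_of_fixed` instantiated with the literal `Δ~`-action (shape check of (I2)). -/
theorem nl_of_fixedTame' {p : ℕ} (hx : IsOfFinOrder x)
    (hcop : Nat.Coprime (orderOf x) p)
    (hS : ∀ u ∈ S, Units.map ((x : F' ≃+* F') : F' →* F') u ∈ S)
    (hS' : ∀ u ∈ S, Units.map ((x⁻¹ : F' ≃+* F') : F' →* F') u ∈ S)
    (w1 w2 n : S → ℤ)
    (h1 : ∀ y z, w1 (y * z) = w1 y + w1 z) (h2 : ∀ y z, w2 (y * z) = w2 y + w2 z)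
    (hn : ∀ y z, n (y * z) = n y + n z)
    (i1 : letI := tameAction x S hS hS'; ∀ (τ : tame x) (u : S), w1 (τ • u) = w1 u)
    (i2 : letI := tameAction x S hS hS'; ∀ (τ : tame x) (u : S), w2 (τ • u) = w2 u)
    (inn : letI := tameAction x S hS hS'; ∀ (τ : tame x) (u : S), n (τ • u) = n u)
    (NL0 : letI := tameAction x S hS hS';
      ∀ u : S, (∀ τ : tame x, τ • u = u) → w1 u = 0 → w2 u = 0 → (p : ℤ) ∣ n u)
    (u : S) (hu1 : w1 u = 0) (hu2 : w2 u = 0) : (p : ℤ) ∣ n u := by
  letI := tameAction x S hS hS'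
  have hcard : Nat.card (tame x) = orderOf x := Nat.card_zpowers x
  haveI : Finite (tame x) :=
    Nat.finite_of_card_ne_zero (by rw [hcard]; exact hx.orderOf_pos.ne')
  letI : Fintype (tame x) := Fintype.ofFinite _
  have hc : IsCoprime (p : ℤ) (Fintype.card (tame x) : ℤ) := by
    rw [Fintype.card_eq_nat_card, hcard]
    exact_mod_cast (Nat.isCoprime_iff_coprime.2 hcop.symm)
  exact Fermat.Agent.GF.KCover.Node.Norm.nl_of_fixed hc w1 w2 n h1 h2 hn i1 i2 inn NL0 u hu1 hu2

end Action

end Fermat.Agent.GF.KCover.Field.Act
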