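/-
GATE-F (S44) / node GF-KCOVER-INST, FIELD SIDE (L-a), file 8 (helper3).
Mathlib + helper50's `GF/NormDepth/PthPower`.
**The completion `L` of an ultrametric normed field `E`: what the field side consumes.**

`E` an ultrametric normed field (in the gate: the `K'`-rational functions `F_{K'}` with the norm of
a Gauss valuation, see `Disc.lean`), `L := UniformSpace.Completion E`.

* `instUltrametricCompletion : IsUltrametricDist (Completion E)`;
* `exists_norm_sub_lt` (density), `exists_norm_eq` (`L` has the same value group as `E`);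
* `extEquiv τ hτ : L ≃+* L` — the extension of a norm-preserving automorphism `τ` of `E`;
  `extEquiv_coe`, `norm_extEquiv`, `extEquiv_pow_eq_one` (`τ ^ d = 1 → τL ^ d = 1`);
* `exists_pow_eq_coe` — **deep principal units of `E` are `p`-th powers in `L`** (Newton, helper50);
  `exists_root_of_deep_rep` : `g₀ = d ^ p * z` in `E`, `‖z − 1‖ ≤ ‖p‖ ^ 3` ⟹ `∃ γ : L, γ ^ p = g₀`;
* `inertial` : `τL` is inertial on `L` when the integral elements of `E` are congruent to `τ`-fixed
  ones (`Inertia.inertial_of_dense` with the density of `E` in `L`).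
-/
import Mathlib
import Fermat.Agent.GF.NormDepth.PthPower

set_option autoImplicit false

noncomputable section

namespace Fermat.Agent.GF.KCover.Field.Compl

open UniformSpace

variable {E : Type*} [NormedField E] [IsUltrametricDist E]

/-- the completion of an ultrametric normed field is ultrametric. -/
instance instUltrametricCompletion : IsUltrametricDist (Completion E) := by
  apply IsUltrametricDist.isUltrametricDist_of_forall_norm_add_le_max_norm
  intro x y
  refine Completion.induction_on₂ x y ?_ ?_
  · exact isClosed_le (continuous_norm.comp continuous_add)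
      ((continuous_norm.comp continuous_fst).max (continuous_norm.comp continuous_snd))
  · intro a b
    rw [← Completion.coe_add, Completion.norm_coe, Completion.norm_coe, Completion.norm_coe]
    exact IsUltrametricDist.norm_add_le_max a b

/-- ultrametric inequality for a difference. -/
theorem norm_sub_le_max' {A : Type*} [SeminormedAddCommGroup A] [IsUltrametricDist A] (x y : A) :
    ‖x - y‖ ≤ max ‖x‖ ‖y‖ := by
  rw [sub_eq_add_neg]
  exact (IsUltrametricDist.norm_add_le_max x (-y)).trans (by rw [norm_neg])

/-- density of `E` in its completion. -/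
theorem exists_norm_sub_lt (z : Completion E) {ε : ℝ} (hε : 0 < ε) :
    ∃ b : E, ‖z - (b : Completion E)‖ < ε := by
  obtain ⟨b, hb⟩ := Completion.denseRange_coe.exists_dist_lt z hε
  exact ⟨b, by rwa [dist_eq_norm] at hb⟩

/-- the completion has the same value group. -/
theorem exists_norm_eq {z : Completion E} (hz : z ≠ 0) : ∃ b : E, b ≠ 0 ∧ ‖z‖ = ‖b‖ := by
  have hz' : 0 < ‖z‖ := norm_pos_iff.mpr hz
  obtain ⟨b, hb⟩ := exists_norm_sub_lt z hz'
  have h1 : ‖(b : Completion E)‖ = ‖z‖ := by
    have e1 : (b : Completion E) = z - (z - (b : Completion E)) := by ring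
    have e2 : z = (b : Completion E) + (z - (b : Completion E)) := by ring
    apply le_antisymm
    · rw [e1]
      exact (norm_sub_le_max' _ _).trans (max_le le_rfl hb.le)
    · by_contra hlt
      rw [not_le] at hlt
      have : ‖z‖ ≤ max ‖(b : Completion E)‖ ‖z - (b : Completion E)‖ := by
        conv_lhs => rw [e2]
        exact IsUltrametricDist.norm_add_le_max _ _
      exact absurd this (not_le.mpr (max_lt hlt hb))
  rw [Completion.norm_coe] at h1
  refine ⟨b, ?_, h1.symm⟩
  rintro rfl
  rw [norm_zero] at h1
  exact hz'.ne h1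

/-! ### extension of norm-preserving automorphisms -/

section Ext

variable (τ : E ≃+* E) (hτ : ∀ a, ‖τ a‖ = ‖a‖)

include hτ in
theorem norm_symm (a : E) : ‖τ.symm a‖ = ‖a‖ := by
  rw [← hτ (τ.symm a), τ.apply_symm_apply]

include hτ in
theorem isometry_of_norm : Isometry τ := AddMonoidHomClass.isometry_of_norm τ hτ

/-- the extension of `τ` to the completion. -/
def extEquiv : Completion E ≃+* Completion E :=
  Completion.mapRingEquiv τ (isometry_of_norm τ hτ).continuous
    (isometry_of_norm τ.symm (norm_symm τ hτ)).continuous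

theorem extEquiv_apply (z : Completion E) : extEquiv τ hτ z = Completion.map τ z := rfl

@[simp] theorem extEquiv_coe (a : E) : extEquiv τ hτ (a : Completion E) = ((τ a : E) : Completion E) := by
  rw [extEquiv_apply]
  exact Completion.map_coe (isometry_of_norm τ hτ).uniformContinuous a

theorem continuous_extEquiv : Continuous (extEquiv τ hτ) := by
  have : ⇑(extEquiv τ hτ) = Completion.map τ := rfl
  rw [this]
  exact Completion.continuous_map

theorem norm_extEquiv (z : Completion E) : ‖extEquiv τ hτ z‖ = ‖z‖ := by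
  refine Completion.induction_on z ?_ ?_
  · exact isClosed_eq (continuous_norm.comp (continuous_extEquiv τ hτ)) continuous_norm
  · intro a
    rw [extEquiv_coe, Completion.norm_coe, Completion.norm_coe, hτ]

theorem extEquiv_pow_coe (n : ℕ) (a : E) :
    ((extEquiv τ hτ) ^ n) (a : Completion E) = (((τ ^ n) a : E) : Completion E) := by
  induction n generalizing a with
  | zero => rfl
  | succ n ih =>
    rw [pow_succ, pow_succ]
    show ((extEquiv τ hτ) ^ n) (extEquiv τ hτ (a : Completion E)) = _
    rw [extEquiv_coe, ih]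
    rfl

theorem continuous_extEquiv_pow (n : ℕ) : Continuous ((extEquiv τ hτ) ^ n) := by
  induction n with
  | zero => exact continuous_id
  | succ n ih =>
    have : ⇑((extEquiv τ hτ) ^ (n + 1)) = ⇑((extEquiv τ hτ) ^ n) ∘ ⇑(extEquiv τ hτ) := by
      rw [pow_succ]
      rfl
    rw [this]
    exact ih.comp (continuous_extEquiv τ hτ)

/-- `τ ^ d = 1 → τL ^ d = 1`. -/
theorem extEquiv_pow_eq_one {d : ℕ} (hd : τ ^ d = 1) : (extEquiv τ hτ) ^ d = 1 := by
  ext z
  refine Completion.induction_on z ?_ ?_
  · exact isClosed_eq (continuous_extEquiv_pow τ hτ d) continuous_id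
  · intro a
    rw [extEquiv_pow_coe, hd]
    rfl

end Ext

/-! ### Newton: deep units are `p`-th powers in the completion -/

theorem natCast_coe (n : ℕ) : ((n : E) : Completion E) = (n : Completion E) :=
  map_natCast (Completion.coeRingHom : E →+* Completion E) n

/-- **deep principal units of `E` are `p`-th powers in the completion** -/
theorem exists_pow_eq_coe {p : ℕ} (hp0 : (p : E) ≠ 0) (hκ : ‖(p : E)‖ < 1) {u : E}
    (hu : ‖u - 1‖ ≤ ‖(p : E)‖ ^ 3) :
    ∃ y : Completion E, y ^ p = (u : Completion E) ∧ ‖y - 1‖ ≤ ‖(p : E)‖ := by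
  have hnorm : ‖(p : Completion E)‖ = ‖(p : E)‖ := by
    rw [← natCast_coe, Completion.norm_coe]
  have hp0' : (p : Completion E) ≠ 0 := by
    rw [← norm_pos_iff, hnorm]
    exact norm_pos_iff.mpr hp0
  have hu' : ‖(u : Completion E) - 1‖ ≤ ‖(p : Completion E)‖ ^ 3 := by
    have : (u : Completion E) - 1 = ((u - 1 : E) : Completion E) := by
      rw [Completion.coe_sub, Completion.coe_one]
    rw [this, Completion.norm_coe, hnorm]
    exact hu
  obtain ⟨y, hy, hy1⟩ := Fermat.Agent.GF.NormDepth.exists_pow_eq_of_norm_sub_one_le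
    (A := Completion E) hp0' (by rw [hnorm]; exact hκ) hu'
  exact ⟨y, hy, by rwa [hnorm] at hy1⟩

/-- **the `p`-th root `γ`**: a deep representative `g₀ = d ^ p * z` in `E` gives `γ ^ p = g₀` in
the completion. -/
theorem exists_root_of_deep_rep {p : ℕ} (hp0 : (p : E) ≠ 0) (hκ : ‖(p : E)‖ < 1) {g₀ d z : E}
    (hg : g₀ = d ^ p * z) (hz : ‖z - 1‖ ≤ ‖(p : E)‖ ^ 3) :
    ∃ γ : Completion E, γ ^ p = (g₀ : Completion E) := by
  obtain ⟨y, hy, -⟩ := exists_pow_eq_coe hp0 hκ hz
  refine ⟨(d : Completion E) * y, ?_⟩
  rw [mul_pow, hy, hg, Completion.coe_mul]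
  congr 1
  exact (map_pow (Completion.coeRingHom : E →+* Completion E) d p).symm

/-! ### inertial automorphisms -/

/-- `τL` is inertial on the completion as soon as the integral elements of `E` are congruent to
`τ`-fixed ones modulo the maximal ideal. -/
theorem inertial (τ : E ≃+* E) (hτ : ∀ a, ‖τ a‖ = ‖a‖)
    (hF : ∀ b : E, ‖b‖ ≤ 1 → ∃ a : E, τ a = a ∧ ‖b - a‖ < 1)
    {z : Completion E} (hz : ‖z‖ ≤ 1) : ‖extEquiv τ hτ z - z‖ < 1 := by
  obtain ⟨b, hb⟩ := exists_norm_sub_lt z one_pos
  have hb1 : ‖b‖ ≤ 1 := by
    rw [← Completion.norm_coe]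
    have : (b : Completion E) = z - (z - (b : Completion E)) := by ring
    rw [this]
    exact (norm_sub_le_max' _ _).trans (max_le hz hb.le)
  obtain ⟨a, ha, hba⟩ := hF b hb1
  have hza : ‖z - (a : Completion E)‖ < 1 := by
    have : z - (a : Completion E) = (z - (b : Completion E)) + ((b - a : E) : Completion E) := by
      rw [Completion.coe_sub]
      ring
    rw [this]
    refine (IsUltrametricDist.norm_add_le_max _ _).trans_lt (max_lt hb ?_)
    rw [Completion.norm_coe]
    exact hba
  have hsplit : extEquiv τ hτ z - z =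
      extEquiv τ hτ (z - (a : Completion E)) - (z - (a : Completion E)) := by
    rw [map_sub, extEquiv_coe, ha]
    ring
  rw [hsplit]
  refine (norm_sub_le_max' _ _).trans_lt (max_lt ?_ hza)
  rw [norm_extEquiv]
  exact hza

end Fermat.Agent.GF.KCover.Field.Compl
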